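import Fermat.Agent.ES.Defs

set_option autoImplicit false

open UpperHalfPlane ModularGroup CongruenceSubgroup ModularForm EisensteinSeries
open scoped MatrixGroups Manifold

namespace Fermat.Agent.ES

theorem fixSub_zpowers_smul {Q : Type} [MulAction SL(2, ℤ) Q] {g : SL(2, ℤ)} {v : Q → ℂ}
    (hv : v ∈ fixSub Q g) (h : Subgroup.zpowers g) (q : Q) : v (h • q) = v q := by
  obtain ⟨h, n, rfl⟩ := h
  show v ((g ^ n) • q) = v q
  have hv' : ∀ q, v (g • q) = v q := hv
  have hinv : ∀ q, v (g⁻¹ • q) = v q := fun q => by
    have := hv' (g⁻¹ • q)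
    rw [smul_inv_smul] at this
    exact this.symm
  induction n using Int.induction_on generalizing q with
  | zero => simp
  | succ n ih => rw [zpow_add_one, mul_smul, ih, hv']
  | pred n ih => rw [zpow_sub_one, mul_smul, ih, hinv]

/-- invariant functions are the functions on the orbit space. -/
noncomputable def fixSubEquiv (Q : Type) [MulAction SL(2, ℤ) Q] (g : SL(2, ℤ)) :
    (MulAction.orbitRel.Quotient (Subgroup.zpowers g) Q → ℂ) ≃ₗ[ℂ] fixSub Q g where
  toFun f := ⟨fun q => f (Quotient.mk'' q), fun q => by
    show f (Quotient.mk'' (g • q)) = f (Quotient.mk'' q)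
    congr 1
    apply Quotient.sound'
    rw [MulAction.orbitRel_apply]
    exact ⟨⟨g, Subgroup.mem_zpowers g⟩, rfl⟩⟩
  map_add' _ _ := rfl
  map_smul' _ _ := rfl
  invFun v := fun ω => Quotient.liftOn' ω v.1 (by
    intro a b hab
    rw [MulAction.orbitRel_apply] at hab
    obtain ⟨h, rfl⟩ := hab
    exact fixSub_zpowers_smul v.2 h b)
  left_inv f := by
    funext ω
    induction ω using Quotient.inductionOn' with
    | h q => rfl
  right_inv v := by
    ext q
    rfl

/-- the dimension of the space of `g`-invariant functions is the number of `g`-orbits. -/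
theorem fixDim_eq_card_orbits (Q : Type) [MulAction SL(2, ℤ) Q] [Finite Q] (g : SL(2, ℤ)) :
    fixDim Q g = Nat.card (MulAction.orbitRel.Quotient (Subgroup.zpowers g) Q) := by
  classical
  have : Finite (MulAction.orbitRel.Quotient (Subgroup.zpowers g) Q) := Quotient.finite _
  have := Fintype.ofFinite (MulAction.orbitRel.Quotient (Subgroup.zpowers g) Q)
  rw [fixDim, ← (fixSubEquiv Q g).finrank_eq, Module.finrank_fintype_fun_eq_card,
    Nat.card_eq_fintype_card]

end Fermat.Agent.ES
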