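import Fermat.Agent.ES.FrameDefs

set_option autoImplicit false

open UpperHalfPlane ModularGroup ModularForm EisensteinSeries Filter Topology
open scoped MatrixGroups Manifold Real Matrix

namespace Fermat.Agent.ES

variable {Q : Type} [Fintype Q] [DecidableEq Q] [MulAction SL(2, ℤ) Q]

/-- For an endomorphism which is diagonal in a basis, the dimension of an eigenspace is the number
of basis vectors with this eigenvalue. -/
theorem ec_card_eq_finrank_eigenspace {ι : Type} [Fintype ι] [DecidableEq ι] {V : Type}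
    [AddCommGroup V] [Module ℂ V] (b : Module.Basis ι ℂ V) (σ : V →ₗ[ℂ] V) (lam : ι → ℂ)
    (hσ : ∀ i, σ (b i) = lam i • b i) (μ : ℂ) :
    (Finset.univ.filter fun i => lam i = μ).card = Module.finrank ℂ (Module.End.eigenspace σ μ) := by
  have key : ∀ v i, b.repr (σ v) i = lam i * b.repr v i := by
    intro v i
    have : (Finsupp.lapply i ∘ₗ b.repr.toLinearMap ∘ₗ σ) =
        lam i • (Finsupp.lapply i ∘ₗ b.repr.toLinearMap) := by
      apply b.ext
      intro j
      simp only [LinearMap.comp_apply, LinearEquiv.coe_coe, hσ, map_smul, Module.Basis.repr_self,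
        Finsupp.lapply_apply, Finsupp.single_apply, LinearMap.smul_apply,
        smul_eq_mul]
      split_ifs with hji
      · rw [hji]
      · simp
    have h2 := LinearMap.congr_fun this v
    simpa using h2
  have hspan : Module.End.eigenspace σ μ =
      Submodule.span ℂ (Set.range fun i : {i // lam i = μ} => b i) := by
    apply le_antisymm
    · intro v hv
      rw [Module.End.mem_eigenspace_iff] at hv
      rw [← b.sum_repr v]
      refine Submodule.sum_mem _ fun i _ => ?_
      by_cases hi : lam i = μ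
      · exact Submodule.smul_mem _ _ (Submodule.subset_span ⟨⟨i, hi⟩, rfl⟩)
      · have h1 := key v i
        rw [hv, map_smul, Finsupp.smul_apply, smul_eq_mul] at h1
        have h2 : (lam i - μ) * b.repr v i = 0 := by linear_combination -h1
        have h3 : b.repr v i = 0 := (mul_eq_zero.mp h2).resolve_left (sub_ne_zero.mpr hi)
        rw [h3, zero_smul]
        exact Submodule.zero_mem _
    · rw [Submodule.span_le]
      rintro _ ⟨⟨i, hi⟩, rfl⟩
      simp only [SetLike.mem_coe, Module.End.mem_eigenspace_iff]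
      rw [hσ, hi]
  have hli : LinearIndependent ℂ (fun i : {i // lam i = μ} => b i) :=
    b.linearIndependent.comp (fun i : {i // lam i = μ} => (i : ι)) Subtype.val_injective
  rw [hspan, finrank_span_eq_card hli, Fintype.card_subtype]

/-- Precomposition with the action of `g`. -/
noncomputable def ecSigma (Q : Type) [MulAction SL(2, ℤ) Q] (g : SL(2, ℤ)) :
    (Q → ℂ) →ₗ[ℂ] (Q → ℂ) :=
  LinearMap.funLeft ℂ ℂ (fun q => g • q)

omit [Fintype Q] [DecidableEq Q] in
theorem ecSigma_apply (g : SL(2, ℤ)) (v : Q → ℂ) (q : Q) : ecSigma Q g v q = v (g • q) := rfl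

omit [Fintype Q] [DecidableEq Q] in
theorem ec_fixSub_eq (g : SL(2, ℤ)) : fixSub Q g = Module.End.eigenspace (ecSigma Q g) 1 := by
  ext v
  rw [Module.End.mem_eigenspace_iff, one_smul]
  constructor
  · intro h
    funext q
    exact h q
  · intro h q
    exact congrFun h q

omit [MulAction SL(2, ℤ) Q] in
/-- A square matrix with nonzero determinant: its columns form a basis. -/
theorem ec_exists_basis (A : Matrix Q Q ℂ) (hA : A.det ≠ 0) :
    ∃ b : Module.Basis Q ℂ (Q → ℂ), ∀ i, b i = A.col i := by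
  have hli : LinearIndependent ℂ A.col := Matrix.linearIndependent_cols_of_det_ne_zero hA
  have hsp : Submodule.span ℂ (Set.range A.col) = ⊤ :=
    hli.span_eq_top_of_card_eq_finrank' (by simp)
  exact ⟨Module.Basis.mk hli hsp.ge, fun i => by simp⟩

theorem IsGoodFrame.ec_card_eq {k : Q → ℤ} {F : Q → ℍ → Q → ℂ} (h : IsGoodFrame k F)
    (g : SL(2, ℤ)) (z₀ : ℍ) (hfix : g • z₀ = z₀) (μ : ℂ) :
    (Finset.univ.filter fun i => denom g z₀ ^ k i = μ).card =
      Module.finrank ℂ (Module.End.eigenspace (ecSigma Q g) μ) := by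
  obtain ⟨b, hb⟩ := ec_exists_basis (frameMat F z₀) (h.det_ne z₀)
  apply ec_card_eq_finrank_eigenspace b
  intro i
  rw [hb]
  funext q
  have := (h.vf i).equiv g z₀ q
  rw [hfix] at this
  simpa [ecSigma_apply, frameMat, Matrix.col] using this

theorem IsGoodFrame.ec_card_eq_conj {k : Q → ℤ} {F : Q → ℍ → Q → ℂ} (h : IsGoodFrame k F)
    (g : SL(2, ℤ)) (z₀ : ℍ) (hfix : g • z₀ = z₀) (μ : ℂ) :
    (Finset.univ.filter fun i => (starRingEnd ℂ) (denom g z₀ ^ k i) = μ).card =
      Module.finrank ℂ (Module.End.eigenspace (ecSigma Q g) μ) := by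
  have hdet : ((frameMat F z₀).map (starRingEnd ℂ)).det ≠ 0 := by
    have : ((frameMat F z₀).map (starRingEnd ℂ)).det = (starRingEnd ℂ) (frameMat F z₀).det :=
      ((starRingEnd ℂ).map_det _).symm
    rw [this]
    exact (map_ne_zero _).mpr (h.det_ne z₀)
  obtain ⟨b, hb⟩ := ec_exists_basis _ hdet
  apply ec_card_eq_finrank_eigenspace b
  intro i
  rw [hb]
  funext q
  have := (h.vf i).equiv g z₀ q
  rw [hfix] at this
  have h2 := congrArg (starRingEnd ℂ) this
  rw [map_mul] at h2
  simpa [ecSigma_apply, frameMat, Matrix.col] using h2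

/-- The elliptic point of order three. -/
noncomputable def ecRho : ℍ :=
  ⟨-1 / 2 + (Real.sqrt 3 / 2 : ℝ) * Complex.I, by
    simp⟩

theorem ecRho_sq : (ecRho : ℂ) ^ 2 + (ecRho : ℂ) + 1 = 0 := by
  have h3 : ((Real.sqrt 3 : ℝ) : ℂ) ^ 2 = 3 := by
    rw [← Complex.ofReal_pow, Real.sq_sqrt (by norm_num)]
    norm_num
  show (-1 / 2 + ((Real.sqrt 3 / 2 : ℝ) : ℂ) * Complex.I) ^ 2
    + (-1 / 2 + ((Real.sqrt 3 / 2 : ℝ) : ℂ) * Complex.I) + 1 = 0
  push_cast
  ring_nf
  rw [Complex.I_sq, h3]
  ring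

theorem ec_S_smul_I : (S : SL(2, ℤ)) • (I : ℍ) = I := by
  rw [modular_S_smul]
  ext
  simp

theorem ec_denom_S_I : denom (S : SL(2, ℤ)) (I : ℍ) = Complex.I := by
  rw [denom_S]
  rfl

theorem ec_ST_smul_rho : (S * T : SL(2, ℤ)) • ecRho = ecRho := by
  rw [mul_smul, modular_T_smul, modular_S_smul]
  ext
  have h := ecRho_sq
  have hne : (1 + (ecRho : ℂ)) ≠ 0 := by
    intro h0
    have : (ecRho : ℂ) = -1 := by linear_combination h0
    rw [this] at h
    norm_num at h
  simp only [coe_vadd, Complex.ofReal_one]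
  have hne' : -(1 + (ecRho : ℂ)) ≠ 0 := neg_ne_zero.mpr hne
  field_simp
  linear_combination -h

theorem ec_denom_ST_rho : denom (S * T : SL(2, ℤ)) ecRho = (ecRho : ℂ) + 1 := by
  have h10 : (S * T : SL(2, ℤ)) 1 0 = 1 := by decide
  have h11 : (S * T : SL(2, ℤ)) 1 1 = 1 := by decide
  rw [denom_apply]
  simp [h10, h11]

theorem ec_isPrimitiveRoot_I : IsPrimitiveRoot Complex.I 4 := by
  refine IsPrimitiveRoot.mk_of_lt _ (by norm_num) Complex.I_pow_four ?_
  intro l hl0 hl4
  interval_cases l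
  · simp [Complex.ext_iff]
  · rw [Complex.I_sq]
    norm_num
  · rw [Complex.I_pow_three]
    simp [Complex.ext_iff]

theorem ec_isPrimitiveRoot_xi : IsPrimitiveRoot ((ecRho : ℂ) + 1) 6 := by
  set c : ℂ := (ecRho : ℂ) + 1 with hc
  have h : c ^ 2 - c + 1 = 0 := by
    have := ecRho_sq
    rw [hc]
    linear_combination this
  have h2 : c ^ 2 = c - 1 := by linear_combination h
  have h3 : c ^ 3 = -1 := by linear_combination (c + 1) * h
  refine IsPrimitiveRoot.mk_of_lt _ (by norm_num) (by linear_combination (c ^ 3 - 1) * h3) ?_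
  intro l hl0 hl6
  interval_cases l
  · intro h1
    rw [pow_one] at h1
    rw [h1] at h
    norm_num at h
  · intro h1
    have : c = 2 := by linear_combination h1 - h2
    rw [this] at h
    norm_num at h
  · rw [h3]
    norm_num
  · intro h1
    have : c = -1 := by linear_combination -h1 + c * h3
    rw [this] at h
    norm_num at h
  · intro h1
    have : c = 0 := by linear_combination -h1 + c ^ 2 * h3 - h2
    rw [this] at h
    norm_num at h

theorem IsGoodFrame.card_four_dvd {k : Q → ℤ} {F : Q → ℍ → Q → ℂ} (h : IsGoodFrame k F)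
    (hev : ∀ i, Even (k i)) :
    (Finset.univ.filter fun i => (4 : ℤ) ∣ k i).card = fixDim Q S := by
  rw [fixDim, ec_fixSub_eq, ← h.ec_card_eq S I ec_S_smul_I 1]
  congr 1
  ext i
  simp only [Finset.mem_filter, Finset.mem_univ, true_and]
  rw [ec_denom_S_I, ec_isPrimitiveRoot_I.zpow_eq_one_iff_dvd]
  rfl

theorem IsGoodFrame.card_six_dvd {k : Q → ℤ} {F : Q → ℍ → Q → ℂ} (h : IsGoodFrame k F)
    (hev : ∀ i, Even (k i)) :
    (Finset.univ.filter fun i => (6 : ℤ) ∣ k i).card = fixDim Q (S * T) := by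
  rw [fixDim, ec_fixSub_eq, ← h.ec_card_eq (S * T) ecRho ec_ST_smul_rho 1]
  congr 1
  ext i
  simp only [Finset.mem_filter, Finset.mem_univ, true_and]
  rw [ec_denom_ST_rho, ec_isPrimitiveRoot_xi.zpow_eq_one_iff_dvd]
  rfl

theorem IsGoodFrame.card_mod_six {k : Q → ℤ} {F : Q → ℍ → Q → ℂ} (h : IsGoodFrame k F)
    (hev : ∀ i, Even (k i)) :
    (Finset.univ.filter fun i => k i % 6 = 2).card =
      (Finset.univ.filter fun i => k i % 6 = 4).card := by
  set c : ℂ := (ecRho : ℂ) + 1 with hc
  have hprim : IsPrimitiveRoot c 6 := ec_isPrimitiveRoot_xi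
  have hc0 : c ≠ 0 := hprim.ne_zero (by norm_num)
  have hconj : (starRingEnd ℂ) c = c⁻¹ := by
    have hn : ‖c‖ = 1 := hprim.norm'_eq_one (by norm_num)
    rw [Complex.inv_def, Complex.normSq_eq_norm_sq, hn]
    simp
  have e1 := h.ec_card_eq (S * T) ecRho ec_ST_smul_rho (c ^ (2 : ℤ))
  have e2 := h.ec_card_eq_conj (S * T) ecRho ec_ST_smul_rho (c ^ (2 : ℤ))
  rw [← e2] at e1
  rw [ec_denom_ST_rho, ← hc] at e1
  have f1 : (Finset.univ.filter fun i => k i % 6 = 2) =
      (Finset.univ.filter fun i => c ^ k i = c ^ (2 : ℤ)) := by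
    ext i
    simp only [Finset.mem_filter, Finset.mem_univ, true_and]
    have : c ^ k i = c ^ (2 : ℤ) ↔ c ^ (k i - 2) = 1 := by
      rw [zpow_sub₀ hc0, div_eq_one_iff_eq (zpow_ne_zero _ hc0)]
    rw [this, hprim.zpow_eq_one_iff_dvd]
    omega
  have f2 : (Finset.univ.filter fun i => k i % 6 = 4) =
      (Finset.univ.filter fun i => (starRingEnd ℂ) (c ^ k i) = c ^ (2 : ℤ)) := by
    ext i
    simp only [Finset.mem_filter, Finset.mem_univ, true_and]
    have : (starRingEnd ℂ) (c ^ k i) = c ^ (2 : ℤ) ↔ c ^ (k i + 2) = 1 := by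
      rw [map_zpow₀, hconj, inv_zpow, zpow_add₀ hc0]
      constructor
      · intro h1
        rw [← h1]
        exact mul_inv_cancel₀ (zpow_ne_zero _ hc0)
      · intro h1
        exact (eq_inv_of_mul_eq_one_right h1).symm
    rw [this, hprim.zpow_eq_one_iff_dvd]
    omega
  rw [f1, f2, e1]

end Fermat.Agent.ES
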