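import Mathlib
import Fermat.Prelude.Def_ModularCurve_PeriodHomPair

set_option autoImplicit false

open UpperHalfPlane ModularGroup CongruenceSubgroup ModularForm EisensteinSeries
open scoped MatrixGroups Manifold

namespace Fermat.Agent.ES

/-- functions on a `SL(2,ℤ)`-set invariant under one element `g`. -/
def fixSub (Q : Type) [MulAction SL(2, ℤ) Q] (g : SL(2, ℤ)) : Submodule ℂ (Q → ℂ) where
  carrier := {v | ∀ q, v (g • q) = v q}
  zero_mem' := fun _ => rfl
  add_mem' := by
    intro a b ha hb q
    simp only [Pi.add_apply, ha q, hb q]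
  smul_mem' := by
    intro c a ha q
    simp only [Pi.smul_apply, ha q]

/-- dimension of the space of `g`-invariant functions (= number of `g`-orbits). -/
noncomputable def fixDim (Q : Type) [MulAction SL(2, ℤ) Q] (g : SL(2, ℤ)) : ℕ :=
  Module.finrank ℂ (fixSub Q g)

/-- vector valued modular form of weight `k` for the permutation representation on `Q`. -/
structure IsVF (Q : Type) [MulAction SL(2, ℤ) Q] (k : ℤ) (F : ℍ → Q → ℂ) : Prop where
  holo : ∀ q, MDiff (fun z => F z q)
  equiv : ∀ (g : SL(2, ℤ)) (z : ℍ) (q : Q), F (g • z) (g • q) = denom g z ^ k * F z q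
  bdd : ∀ q, IsBoundedAtImInfty (fun z => F z q)

/-- cuspidal vector valued modular form. -/
structure IsCuspVF (Q : Type) [MulAction SL(2, ℤ) Q] (k : ℤ) (F : ℍ → Q → ℂ) : Prop
    extends IsVF Q k F where
  zero : ∀ q, IsZeroAtImInfty (fun z => F z q)

end Fermat.Agent.ES
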