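import Mathlib
import Fermat.Agent.ES.Defs

set_option autoImplicit false

open UpperHalfPlane ModularGroup CongruenceSubgroup ModularForm EisensteinSeries
open scoped MatrixGroups Manifold
open Filter Topology

/-!
# Injectivity of `j` on `SL(2,ℤ) \ ℍ` (ES task C1a)

Two lattices with the same `g₂, g₃` have the same Weierstrass function (order comparison in the
differential equation), hence the same poles, hence are equal.
-/

namespace Fermat.Agent.ES


/-- abstract analytic lemma: `x d' A = d B`, `A 0 = -4`, `B 0 = 12` forces `d = 0` near `0`. -/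
theorem orbit_eventually_zero_of_ode {d A B : ℂ → ℂ} (hd : AnalyticAt ℂ d 0)
    (hA : ContinuousAt A 0) (hB : ContinuousAt B 0) (hA0 : A 0 = -4) (hB0 : B 0 = 12)
    (h : ∀ᶠ x in 𝓝 (0 : ℂ), x * deriv d x * A x = d x * B x) :
    ∀ᶠ x in 𝓝 (0 : ℂ), d x = 0 := by
  by_contra hne
  obtain ⟨n, e, he, he0, hde⟩ := (hd.exists_eventuallyEq_pow_smul_nonzero_iff).mpr hne
  simp only [sub_zero, smul_eq_mul] at hde
  have hderiv : ∀ᶠ x in 𝓝 (0 : ℂ), deriv d x = deriv (fun y => y ^ n * e y) x :=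
    Filter.EventuallyEq.deriv hde
  have hediff : ∀ᶠ x in 𝓝 (0 : ℂ), DifferentiableAt ℂ e x :=
    he.eventually_analyticAt.mono fun x hx => hx.differentiableAt
  have key : ∀ᶠ x in 𝓝[≠] (0 : ℂ), ((n : ℂ) * e x + x * deriv e x) * A x = e x * B x := by
    have h1 : ∀ᶠ x in 𝓝 (0 : ℂ), x ≠ 0 → ((n : ℂ) * e x + x * deriv e x) * A x = e x * B x := by
      filter_upwards [h, hde, hderiv, hediff] with x hx hdx hdx' hex hx0
      have hd2 : deriv (fun y => y ^ n * e y) x = (n : ℂ) * x ^ (n - 1) * e x + x ^ n * deriv e x := by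
        rw [deriv_fun_mul (by fun_prop) hex]
        simp
      rw [hdx', hd2, hdx] at hx
      have hxn : x ^ n ≠ 0 := pow_ne_zero _ hx0
      have hxx : x * ((n : ℂ) * x ^ (n - 1) * e x + x ^ n * deriv e x)
          = x ^ n * ((n : ℂ) * e x + x * deriv e x) := by
        rcases Nat.eq_zero_or_pos n with rfl | hn
        · simp
        · have : x ^ n = x * x ^ (n - 1) := by
            rw [← pow_succ']; congr 1; omega
          rw [this]; ring
      rw [hxx] at hx
      apply mul_left_cancel₀ hxn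
      linear_combination hx
    rw [eventually_nhdsWithin_iff]
    filter_upwards [h1] with x hx hx0 using hx hx0
  have hderive : ContinuousAt (deriv e) 0 := he.deriv.continuousAt
  have hL : Tendsto (fun x => ((n : ℂ) * e x + x * deriv e x) * A x) (𝓝[≠] (0 : ℂ))
      (𝓝 (((n : ℂ) * e 0 + 0 * deriv e 0) * A 0)) := by
    have : ContinuousAt (fun x => ((n : ℂ) * e x + x * deriv e x) * A x) 0 := by
      have := he.continuousAt
      fun_prop
    exact this.tendsto.mono_left nhdsWithin_le_nhds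
  have hR : Tendsto (fun x => e x * B x) (𝓝[≠] (0 : ℂ)) (𝓝 (e 0 * B 0)) := by
    have : ContinuousAt (fun x => e x * B x) 0 := by
      have := he.continuousAt
      fun_prop
    exact this.tendsto.mono_left nhdsWithin_le_nhds
  have heq := tendsto_nhds_unique_of_eventuallyEq hL hR key
  rw [hA0, hB0] at heq
  have h3 : (n : ℂ) = -3 := by
    apply mul_left_cancel₀ he0
    linear_combination (-1 / 4 : ℂ) * heq
  have h4 : ((n : ℝ) : ℂ) = ((-3 : ℝ) : ℂ) := by push_cast; exact h3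
  have h5 : (n : ℝ) = -3 := Complex.ofReal_injective h4
  have h6 : (0 : ℝ) ≤ n := Nat.cast_nonneg n
  linarith

/-- the ODE in terms of the regular parts, multiplied by `x^6`. -/
theorem orbit_ode_regular (L : PeriodPair) :
    ∀ᶠ x in 𝓝 (0 : ℂ), (x ^ 3 * L.derivWeierstrassPExcept 0 x - 2) ^ 2 =
      4 * (x ^ 2 * L.weierstrassPExcept 0 x + 1) ^ 3 - L.g₂ * x ^ 4 * (x ^ 2 * L.weierstrassPExcept 0 x + 1) - L.g₃ * x ^ 6 := by
  filter_upwards [L.compl_lattice_sdiff_singleton_mem_nhds 0] with x hx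
  by_cases hx0 : x = 0
  · subst hx0; norm_num
  have hxL : x ∉ L.lattice := fun hmem => hx ⟨hmem, hx0⟩
  have h1 := L.derivWeierstrassP_sq x hxL
  have h2 := L.weierstrassPExcept_add (0 : L.lattice) x
  have h3 := L.derivWeierstrassPExcept_sub (0 : L.lattice) x
  simp only [ZeroMemClass.coe_zero, sub_zero, ne_eq, OfNat.ofNat_ne_zero, not_false_eq_true,
    zero_pow, div_zero] at h2 h3
  rw [← h2, ← h3] at h1
  field_simp at h1
  linear_combination h1

theorem orbit_eventuallyEq_of_g (L L' : PeriodPair) (h2 : L.g₂ = L'.g₂) (h3 : L.g₃ = L'.g₃) :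
    ∀ᶠ x in 𝓝 (0 : ℂ), L.weierstrassPExcept 0 x = L'.weierstrassPExcept 0 x := by
  have hf : AnalyticAt ℂ (L.weierstrassPExcept 0) 0 := L.analyticAt_weierstrassPExcept 0
  have hf₁ : AnalyticAt ℂ (L'.weierstrassPExcept 0) 0 := L'.analyticAt_weierstrassPExcept 0
  have hf' : AnalyticAt ℂ (L.derivWeierstrassPExcept 0) 0 := L.analyticAt_derivWeierstrassPExcept 0
  have hf₁' : AnalyticAt ℂ (L'.derivWeierstrassPExcept 0) 0 := L'.analyticAt_derivWeierstrassPExcept 0
  have hc := hf.continuousAt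
  have hc₁ := hf₁.continuousAt
  have hc' := hf'.continuousAt
  have hc₁' := hf₁'.continuousAt
  have key := orbit_eventually_zero_of_ode (d := fun x => L.weierstrassPExcept 0 x - L'.weierstrassPExcept 0 x)
    (A := fun x => x ^ 3 * (L.derivWeierstrassPExcept 0 x + L'.derivWeierstrassPExcept 0 x) - 4)
    (B := fun x => 4 * ((x ^ 2 * L.weierstrassPExcept 0 x + 1) ^ 2 + (x ^ 2 * L.weierstrassPExcept 0 x + 1) * (x ^ 2 * L'.weierstrassPExcept 0 x + 1)
      + (x ^ 2 * L'.weierstrassPExcept 0 x + 1) ^ 2) - L.g₂ * x ^ 4)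
    (hf.sub hf₁) (by fun_prop) (by fun_prop) (by norm_num) (by norm_num) ?_
  · filter_upwards [key] with x hx using sub_eq_zero.mp hx
  · filter_upwards [orbit_ode_regular L, orbit_ode_regular L',
      L.compl_lattice_sdiff_singleton_mem_nhds 0, L'.compl_lattice_sdiff_singleton_mem_nhds 0,
      hf.eventually_analyticAt, hf₁.eventually_analyticAt] with x h1 h1' hx hx' ha ha'
    have hd : deriv (fun x => L.weierstrassPExcept 0 x - L'.weierstrassPExcept 0 x) x = L.derivWeierstrassPExcept 0 x - L'.derivWeierstrassPExcept 0 x := by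
      rw [deriv_fun_sub ha.differentiableAt ha'.differentiableAt,
        L.eqOn_deriv_weierstrassPExcept_derivWeierstrassPExcept 0 hx,
        L'.eqOn_deriv_weierstrassPExcept_derivWeierstrassPExcept 0 hx']
    rw [hd]
    by_cases hx0 : x = 0
    · subst hx0; simp
    rw [← h2, ← h3] at h1'
    apply mul_left_cancel₀ (pow_ne_zero 2 hx0)
    linear_combination h1 - h1'



theorem orbit_countable_lattice (L : PeriodPair) : (L.lattice : Set ℂ).Countable := by
  have : Countable L.lattice := L.latticeEquivProd.toEquiv.countable_iff.mpr inferInstance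
  exact Set.countable_coe_iff.mp this

theorem orbit_lattice_le_of_eqOn (L L' : PeriodPair)
    (h : Set.EqOn (L.weierstrassP) (L'.weierstrassP) ((L.lattice : Set ℂ) ∪ L'.lattice)ᶜ) :
    L.lattice ≤ L'.lattice := by
  intro ω hω
  by_contra hω'
  have h1 := L.order_weierstrassP ω hω
  have h2 : 0 ≤ meromorphicOrderAt L'.weierstrassP ω :=
    (L'.analyticOnNhd_weierstrassP ω hω').meromorphicOrderAt_nonneg
  have h3 : L.weierstrassP =ᶠ[𝓝[≠] ω] L'.weierstrassP := by
    rw [Filter.EventuallyEq, eventually_nhdsWithin_iff]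
    filter_upwards [L.compl_lattice_sdiff_singleton_mem_nhds ω,
      L'.compl_lattice_sdiff_singleton_mem_nhds ω] with x hx hx' hxω
    apply h
    rintro (hm | hm)
    · exact hx ⟨hm, hxω⟩
    · exact hx' ⟨hm, hxω⟩
  rw [meromorphicOrderAt_congr h3] at h1
  rw [h1] at h2
  exact absurd h2 (by decide)

theorem orbit_lattice_eq_of_eventuallyEq (L L' : PeriodPair)
    (h : ∀ᶠ x in 𝓝 (0 : ℂ), L.weierstrassPExcept 0 x = L'.weierstrassPExcept 0 x) :
    L.lattice = L'.lattice := by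
  have hP : ∀ᶠ x in 𝓝 (0 : ℂ), L.weierstrassP x = L'.weierstrassP x := by
    filter_upwards [h] with x hx
    have h2 := L.weierstrassPExcept_add (0 : L.lattice) x
    have h2' := L'.weierstrassPExcept_add (0 : L'.lattice) x
    simp only [ZeroMemClass.coe_zero] at h2 h2'
    rw [← h2, ← h2', hx]
  set U : Set ℂ := ((L.lattice : Set ℂ) ∪ L'.lattice)ᶜ with hU
  have hUconn : IsPreconnected U := by
    apply IsPathConnected.isConnected _ |>.isPreconnected
    apply Set.Countable.isPathConnected_compl_of_one_lt_rank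
    · rw [Complex.rank_real_complex]; norm_num
    · exact (orbit_countable_lattice L).union (orbit_countable_lattice L')
  have hex : ∃ z₀ ∈ U, L.weierstrassP =ᶠ[𝓝 z₀] L'.weierstrassP := by
    have h1 : ∀ᶠ x in 𝓝[≠] (0 : ℂ), x ∈ U ∧ L.weierstrassP =ᶠ[𝓝 x] L'.weierstrassP := by
      rw [eventually_nhdsWithin_iff]
      filter_upwards [L.compl_lattice_sdiff_singleton_mem_nhds 0,
        L'.compl_lattice_sdiff_singleton_mem_nhds 0, eventually_eventually_nhds.mpr hP]
        with x hx hx' hxP hx0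
      refine ⟨?_, hxP⟩
      rintro (hm | hm)
      · exact hx ⟨hm, hx0⟩
      · exact hx' ⟨hm, hx0⟩
    obtain ⟨x, hx⟩ := h1.exists
    exact ⟨x, hx.1, hx.2⟩
  obtain ⟨z₀, hz₀, hz₀'⟩ := hex
  have hEq : Set.EqOn L.weierstrassP L'.weierstrassP U := by
    have ha : AnalyticOnNhd ℂ L.weierstrassP U := L.analyticOnNhd_weierstrassP.mono (by
        intro x hx hm; exact hx (Or.inl hm))
    have ha' : AnalyticOnNhd ℂ L'.weierstrassP U := L'.analyticOnNhd_weierstrassP.mono (by
        intro x hx hm; exact hx (Or.inr hm))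
    exact ha.eqOn_of_preconnected_of_eventuallyEq ha' hUconn hz₀ hz₀'
  apply le_antisymm
  · exact orbit_lattice_le_of_eqOn L L' hEq
  · apply orbit_lattice_le_of_eqOn L' L
    rw [Set.union_comm]
    exact hEq.symm



/-- the lattice `μ (ℤ + ℤ z)`. -/
noncomputable def orbitPair (μ : ℂ) (hμ : μ ≠ 0) (z : ℍ) : PeriodPair where
  ω₁ := μ
  ω₂ := μ * z
  indep := by
    rw [LinearIndependent.pair_iff]
    intro s t hst
    have h1 : μ * ((s : ℂ) + t * z) = 0 := by
      simp only [Complex.real_smul] at hst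
      linear_combination hst
    have h2 : (s : ℂ) + t * z = 0 := (mul_eq_zero.mp h1).resolve_left hμ
    have him := congrArg Complex.im h2
    simp at him
    have ht : t = 0 := him.resolve_right z.im_pos.ne'
    subst ht
    simpa using h2

theorem orbitPair_G (μ : ℂ) (hμ : μ ≠ 0) (z : ℍ) {k : ℕ} (hk : 3 ≤ k) :
    (orbitPair μ hμ z).G k = (μ ^ k)⁻¹ * (2 * riemannZeta k * E hk z) := by
  have hE : E hk z = (1/2 : ℂ) * eisensteinSeries (0 : Fin 2 → ZMod 1) k z := rfl
  rw [hE, show (2 : ℂ) * riemannZeta k * (1 / 2 * eisensteinSeries (0 : Fin 2 → ZMod 1) k z)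
    = riemannZeta k * eisensteinSeries (0 : Fin 2 → ZMod 1) k z by ring,
    ← tsum_eisSummand_eq_riemannZeta_mul_eisensteinSeries hk z, PeriodPair.G, ← tsum_mul_left]
  let e : (Fin 2 → ℤ) ≃ (orbitPair μ hμ z).lattice :=
    ((finTwoArrowEquiv ℤ).trans (Equiv.prodComm ℤ ℤ)).trans
      (orbitPair μ hμ z).latticeEquivProd.symm.toEquiv
  rw [← e.tsum_eq]
  congr 1
  ext v
  have : ((e v : (orbitPair μ hμ z).lattice) : ℂ) = μ * ((v 0 : ℂ) * z + v 1) := by
    simp only [e, Equiv.trans_apply, LinearEquiv.coe_toEquiv, PeriodPair.latticeEquiv_symm_apply]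
    simp [orbitPair]
    ring
  rw [this, eisSummand, mul_pow, mul_inv, zpow_neg, zpow_natCast]



theorem orbit_exists_scale (a b a' b' : ℂ) (hd : a ^ 3 - b ^ 2 ≠ 0) (hd' : a' ^ 3 - b' ^ 2 ≠ 0)
    (h : a ^ 3 * b' ^ 2 = a' ^ 3 * b ^ 2) :
    ∃ μ : ℂ, μ ≠ 0 ∧ a' = μ ^ 4 * a ∧ b' = μ ^ 6 * b := by
  by_cases ha : a = 0
  · subst ha
    have hb : b ≠ 0 := by
      rintro rfl; simp at hd
    have ha' : a' = 0 := by
      have : a' ^ 3 * b ^ 2 = 0 := by rw [← h]; ring
      rcases mul_eq_zero.mp this with h1 | h1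
      · exact pow_eq_zero_iff (by norm_num) |>.mp h1
      · exact absurd (pow_eq_zero_iff (by norm_num) |>.mp h1) hb
    subst ha'
    have hb' : b' ≠ 0 := by
      rintro rfl; simp at hd'
    obtain ⟨μ, hμ⟩ := IsAlgClosed.exists_pow_nat_eq (b' / b) (n := 6) (by norm_num)
    refine ⟨μ, ?_, by simp, ?_⟩
    · rintro rfl
      have : b' / b = 0 := by rw [← hμ]; norm_num
      exact (div_ne_zero hb' hb) this
    · rw [hμ]; field_simp
  · have ha' : a' ≠ 0 := by
      rintro rfl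
      have h1 : a ^ 3 * b' ^ 2 = 0 := by rw [h]; ring
      rcases mul_eq_zero.mp h1 with h2 | h2
      · exact ha (pow_eq_zero_iff (by norm_num) |>.mp h2)
      · have : b' = 0 := pow_eq_zero_iff (by norm_num) |>.mp h2
        subst this; simp at hd'
    obtain ⟨ν, hν⟩ := IsAlgClosed.exists_pow_nat_eq (a' / a) (n := 4) (by norm_num)
    have hν0 : ν ≠ 0 := by
      rintro rfl
      have : a' / a = 0 := by rw [← hν]; norm_num
      exact (div_ne_zero ha' ha) this
    have haa : a' = ν ^ 4 * a := by rw [hν]; field_simp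
    have hsq : (b' - ν ^ 6 * b) * (b' + ν ^ 6 * b) = 0 := by
      have h3 : a ^ 3 * (b' ^ 2 - ν ^ 12 * b ^ 2) = 0 := by
        rw [haa] at h; linear_combination h
      have := (mul_eq_zero.mp h3).resolve_left (pow_ne_zero 3 ha)
      linear_combination this
    rcases mul_eq_zero.mp hsq with h1 | h1
    · exact ⟨ν, hν0, haa, by linear_combination h1⟩
    · refine ⟨Complex.I * ν, mul_ne_zero Complex.I_ne_zero hν0, ?_, ?_⟩
      · rw [mul_pow, Complex.I_pow_four, one_mul]; exact haa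
      · have : Complex.I ^ 6 = -1 := by
          rw [show (6 : ℕ) = 4 + 2 by norm_num, pow_add, Complex.I_pow_four, Complex.I_sq, one_mul]
        rw [mul_pow, this]; linear_combination h1



/-- `s + t z = s' + t' z` with integer coefficients forces equality of coefficients. -/
theorem orbit_int_coeff_eq (z : ℍ) (s t s' t' : ℤ) (h : (s : ℂ) + t * z = s' + t' * z) :
    s = s' ∧ t = t' := by
  have him := congrArg Complex.im h
  simp at him
  have ht : t = t' := by
    rcases him with h1 | h1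
    · exact_mod_cast h1
    · exact absurd h1 z.im_pos.ne'
  subst ht
  refine ⟨?_, rfl⟩
  have : (s : ℂ) = s' := by linear_combination h
  exact_mod_cast this

theorem orbit_exists_smul_of_lattice (z w : ℍ) (μ : ℂ) (hμ : μ ≠ 0)
    (a b c d a' b' c' d' : ℤ)
    (h1 : (d : ℂ) + c * z = μ) (h2 : (b : ℂ) + a * z = μ * w)
    (h3 : (d' : ℂ) * μ + c' * (μ * w) = 1) (h4 : (b' : ℂ) * μ + a' * (μ * w) = z) :
    ∃ g : SL(2, ℤ), g • z = w := by
  have e1 : ((d' * d + c' * b : ℤ) : ℂ) + ((d' * c + c' * a : ℤ) : ℂ) * z = ((1 : ℤ) : ℂ) + ((0 : ℤ) : ℂ) * z := by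
    push_cast
    linear_combination h3 + (d' : ℂ) * h1 + (c' : ℂ) * h2
  have e2 : ((b' * d + a' * b : ℤ) : ℂ) + ((b' * c + a' * a : ℤ) : ℂ) * z = ((0 : ℤ) : ℂ) + ((1 : ℤ) : ℂ) * z := by
    push_cast
    linear_combination h4 + (b' : ℂ) * h1 + (a' : ℂ) * h2
  obtain ⟨f1, f2⟩ := orbit_int_coeff_eq z _ _ _ _ e1
  obtain ⟨f3, f4⟩ := orbit_int_coeff_eq z _ _ _ _ e2
  have hdet : (a * d - b * c) * (a' * d' - b' * c') = 1 := by
    linear_combination (b' * c + a' * a) * f1 + f4 - (b' * d + a' * b) * f2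
  have hpos : 0 < a * d - b * c := by
    have hc : ((b : ℂ) + a * z) * (starRingEnd ℂ) ((d : ℂ) + c * z) = (Complex.normSq μ : ℂ) * w := by
      rw [h1, h2, Complex.normSq_eq_conj_mul_self]; ring
    have him := congrArg Complex.im hc
    have h5 : (((b : ℂ) + a * z) * (starRingEnd ℂ) ((d : ℂ) + c * z)).im = ((a * d - b * c : ℤ) : ℝ) * z.im := by
      simp [Complex.mul_im]
      ring
    have h6 : ((Complex.normSq μ : ℂ) * w).im = Complex.normSq μ * w.im := by
      simp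
    rw [h5, h6] at him
    have h7 : 0 < Complex.normSq μ * w.im := mul_pos (Complex.normSq_pos.mpr hμ) w.im_pos
    rw [← him] at h7
    have h8 : (0 : ℝ) < ((a * d - b * c : ℤ) : ℝ) := (mul_pos_iff_of_pos_right z.im_pos).mp h7
    exact_mod_cast h8
  have hdet1 : a * d - b * c = 1 := by
    rcases Int.eq_one_or_neg_one_of_mul_eq_one hdet with h | h
    · exact h
    · omega
  obtain ⟨g, g00, g01, g10, g11⟩ : ∃ g : SL(2, ℤ), g 0 0 = a ∧ g 0 1 = b ∧ g 1 0 = c ∧ g 1 1 = d :=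
    ⟨⟨!![a, b; c, d], by rw [Matrix.det_fin_two_of]; exact hdet1⟩, rfl, rfl, rfl, rfl⟩
  refine ⟨g, ?_⟩
  apply UpperHalfPlane.ext
  rw [coe_specialLinearGroup_apply, g00, g01, g10, g11]
  simp only [algebraMap_int_eq, eq_intCast, Complex.ofReal_intCast]
  have hden : (c : ℂ) * z + d ≠ 0 := by
    rw [add_comm, h1]; exact hμ
  rw [div_eq_iff hden]
  have : (c : ℂ) * z + d = μ := by rw [add_comm, h1]
  rw [this]
  linear_combination h2


theorem orbit_lattice_eq_of_g (L L' : PeriodPair) (h2 : L.g₂ = L'.g₂) (h3 : L.g₃ = L'.g₃) :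
    L.lattice = L'.lattice :=
  orbit_lattice_eq_of_eventuallyEq L L' (orbit_eventuallyEq_of_g L L' h2 h3)

theorem exists_smul_eq_of_E₄_E₆ (z w : ℍ) (h : E₄ z ^ 3 * E₆ w ^ 2 = E₄ w ^ 3 * E₆ z ^ 2) :
    ∃ g : SL(2, ℤ), g • z = w := by
  have hdz : E₄ z ^ 3 - E₆ z ^ 2 ≠ 0 := by
    intro h0
    apply discriminant_ne_zero z
    rw [discriminant_eq_E₄_cube_sub_E₆_sq, h0, zero_div]
  have hdw : E₄ w ^ 3 - E₆ w ^ 2 ≠ 0 := by
    intro h0
    apply discriminant_ne_zero w
    rw [discriminant_eq_E₄_cube_sub_E₆_sq, h0, zero_div]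
  obtain ⟨μ, hμ, h4, h6⟩ := orbit_exists_scale _ _ _ _ hdz hdw h
  set L₁ := orbitPair 1 one_ne_zero z with hL₁
  set L₂ := orbitPair μ hμ w with hL₂
  have hG4 : L₁.G 4 = L₂.G 4 := by
    rw [hL₁, hL₂, orbitPair_G 1 one_ne_zero z (by norm_num : 3 ≤ 4),
      orbitPair_G μ hμ w (by norm_num : 3 ≤ 4)]
    change _ = (μ ^ 4)⁻¹ * (2 * riemannZeta (4 : ℕ) * E₄ w)
    rw [h4]
    change (1 ^ 4)⁻¹ * (2 * riemannZeta (4 : ℕ) * E₄ z) = _
    field_simp
  have hG6 : L₁.G 6 = L₂.G 6 := by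
    rw [hL₁, hL₂, orbitPair_G 1 one_ne_zero z (by norm_num : 3 ≤ 6),
      orbitPair_G μ hμ w (by norm_num : 3 ≤ 6)]
    change _ = (μ ^ 6)⁻¹ * (2 * riemannZeta (6 : ℕ) * E₆ w)
    rw [h6]
    change (1 ^ 6)⁻¹ * (2 * riemannZeta (6 : ℕ) * E₆ z) = _
    field_simp
  have hlat : L₁.lattice = L₂.lattice :=
    orbit_lattice_eq_of_g L₁ L₂ (by simp only [PeriodPair.g₂, hG4]) (by simp only [PeriodPair.g₃, hG6])
  have m1 : L₂.ω₁ ∈ L₁.lattice := hlat ▸ L₂.ω₁_mem_lattice
  have m2 : L₂.ω₂ ∈ L₁.lattice := hlat ▸ L₂.ω₂_mem_lattice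
  have m3 : L₁.ω₁ ∈ L₂.lattice := hlat ▸ L₁.ω₁_mem_lattice
  have m4 : L₁.ω₂ ∈ L₂.lattice := hlat ▸ L₁.ω₂_mem_lattice
  obtain ⟨d, c, e1⟩ := PeriodPair.mem_lattice.mp m1
  obtain ⟨b, a, e2⟩ := PeriodPair.mem_lattice.mp m2
  obtain ⟨d', c', e3⟩ := PeriodPair.mem_lattice.mp m3
  obtain ⟨b', a', e4⟩ := PeriodPair.mem_lattice.mp m4
  simp only [hL₁, hL₂, orbitPair, mul_one, one_mul] at e1 e2 e3 e4
  exact orbit_exists_smul_of_lattice z w μ hμ a b c d a' b' c' d' e1 e2 e3 e4

end Fermat.Agent.ES
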