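import Mathlib
import Fermat.Agent.ES.Defs

set_option autoImplicit false

open UpperHalfPlane ModularGroup CongruenceSubgroup ModularForm EisensteinSeries
open scoped MatrixGroups Manifold Topology
open Derivative Filter

namespace Fermat.Agent.ES

local notation "𝕢" => Function.Periodic.qParam

/-- derivative of the `q`-parameter. -/
theorem sz_hasDerivAt_qParam (z : ℂ) :
    HasDerivAt (𝕢 1) (2 * Real.pi * Complex.I * 𝕢 1 z) z := by
  have h1 : HasDerivAt (fun w : ℂ => 2 * Real.pi * Complex.I * w / (1 : ℝ))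
      (2 * Real.pi * Complex.I) z := by
    have := (hasDerivAt_id z).const_mul (2 * Real.pi * Complex.I)
    simpa using this
  have h2 := h1.cexp
  have h3 : (𝕢 1) = fun w : ℂ => Complex.exp (2 * Real.pi * Complex.I * w / (1 : ℝ)) := by
    funext w; rfl
  rw [h3]
  have h4 : 2 * Real.pi * Complex.I * (fun w : ℂ => Complex.exp (2 * Real.pi * Complex.I * w / (1 : ℝ))) z
      = Complex.exp (2 * Real.pi * Complex.I * z / (1 : ℝ)) * (2 * Real.pi * Complex.I) := by
    simp only []; ring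
  rw [h4]
  exact h2

/-- `D F z = q * (cuspFunction F)'(q)`. -/
theorem sz_D_eq {F : ℍ → ℂ} (hper : Function.Periodic (F ∘ ofComplex) 1) (hF : MDiff F)
    (hb : IsBoundedAtImInfty F) (z : ℍ) :
    D F z = 𝕢 1 z * deriv (cuspFunction 1 F) (𝕢 1 z) := by
  have hq : ‖𝕢 1 (z : ℂ)‖ < 1 := Function.Periodic.norm_qParam_lt_one one_pos z.im_pos
  have hd : HasDerivAt (cuspFunction 1 F) (deriv (cuspFunction 1 F) (𝕢 1 z)) (𝕢 1 z) :=
    (differentiableAt_cuspFunction one_pos hper hF hb hq).hasDerivAt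
  have hcomp := hd.comp (z : ℂ) (sz_hasDerivAt_qParam z)
  have heq : (F ∘ ofComplex) =ᶠ[𝓝 (z : ℂ)] (cuspFunction 1 F ∘ 𝕢 1) := by
    filter_upwards [isOpen_upperHalfPlaneSet.mem_nhds z.im_pos] with w hw
    have := eq_cuspFunction (f := F) (h := 1) ⟨w, hw⟩ one_ne_zero hper
    simp only [Function.comp_apply, ofComplex_apply_of_im_pos hw]
    exact this.symm
  have hder := (hcomp.congr_of_eventuallyEq heq).deriv
  rw [normalizedDerivOfComplex, hder]
  have hpi : (2 * Real.pi * Complex.I : ℂ) ≠ 0 := by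
    simp [Real.pi_ne_zero]
  field_simp

theorem sz_D_isZeroAtImInfty {F : ℍ → ℂ} (hper : Function.Periodic (F ∘ ofComplex) 1)
    (hF : MDiff F) (hb : IsBoundedAtImInfty F) : IsZeroAtImInfty (D F) := by
  have han : AnalyticAt ℂ (cuspFunction 1 F) 0 := analyticAt_cuspFunction_zero one_pos hper hF hb
  have hc : ContinuousAt (deriv (cuspFunction 1 F)) 0 := han.deriv.continuousAt
  have hq := qParam_tendsto_atImInfty (h := 1) one_pos
  have h1 : Tendsto (fun τ : ℍ => 𝕢 1 τ * deriv (cuspFunction 1 F) (𝕢 1 τ)) atImInfty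
      (𝓝 (0 * deriv (cuspFunction 1 F) 0)) := hq.mul (hc.tendsto.comp hq)
  rw [zero_mul] at h1
  exact h1.congr (fun τ => (sz_D_eq hper hF hb τ).symm)

theorem sz_tendsto {F : ℍ → ℂ} (hper : Function.Periodic (F ∘ ofComplex) 1)
    (hF : MDiff F) (hb : IsBoundedAtImInfty F) :
    Tendsto F atImInfty (𝓝 ((qExpansion 1 F).coeff 0)) := by
  have han : AnalyticAt ℂ (cuspFunction 1 F) 0 := analyticAt_cuspFunction_zero one_pos hper hF hb
  have hq := qParam_tendsto_atImInfty (h := 1) one_pos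
  have h1 : Tendsto (fun τ : ℍ => cuspFunction 1 F (𝕢 1 τ)) atImInfty (𝓝 (cuspFunction 1 F 0)) :=
    han.continuousAt.tendsto.comp hq
  have h2 : (qExpansion 1 F).coeff 0 = cuspFunction 1 F 0 := by simp [qExpansion_coeff]
  rw [h2]
  exact h1.congr (fun τ => eq_cuspFunction τ one_ne_zero hper)

theorem sz_E2_periodic : Function.Periodic (E2 ∘ ofComplex) 1 := by
  intro w
  by_cases hw : 0 < w.im
  · have hw' : 0 < (w + 1).im := by simpa using hw
    simp only [Function.comp_apply, ofComplex_apply_of_im_pos hw, ofComplex_apply_of_im_pos hw']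
    rw [E2_eq_tsum_cexp, E2_eq_tsum_cexp]
    congr 2
    refine tsum_congr fun n => ?_
    congr 2
    rw [mul_add, Complex.exp_add]
    simp
  · have hw' : (w + 1).im ≤ 0 := by simpa using not_lt.mp hw
    simp [ofComplex_apply_of_im_nonpos hw', ofComplex_apply_of_im_nonpos (not_lt.mp hw)]

theorem sz_E2_hasSum (τ : ℍ) : HasSum (fun m : ℕ =>
    (if m = 0 then 1 else -24 * (ArithmeticFunction.sigma 1 m : ℂ)) • 𝕢 1 τ ^ m) (E2 τ) := by
  have := hasSum_qExpansion_E2 (z := τ)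
  have hq : 𝕢 1 (τ : ℂ) = Complex.exp (2 * ↑Real.pi * Complex.I * ↑τ) := by
    simp [Function.Periodic.qParam]
  rw [hq]
  exact this

theorem sz_E2_coeff_zero : (qExpansion 1 E2).coeff 0 = 1 := by
  have han : AnalyticAt ℂ (cuspFunction 1 E2) 0 :=
    analyticAt_cuspFunction_zero one_pos sz_E2_periodic E2_mdifferentiable isBoundedAtImInfty_E2
  have h1 := hasFPowerSeriesOnBall_cuspFunction one_pos han sz_E2_hasSum
  have h2 := h1.coeff_zero (fun _ => 0)
  have h3 : (qExpansion 1 E2).coeff 0 = cuspFunction 1 E2 0 := by simp [qExpansion_coeff]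
  rw [h3, ← h2]
  simp [FormalMultilinearSeries.ofScalars]

theorem sz_E2_tendsto : Tendsto E2 atImInfty (𝓝 1) := by
  have h := sz_tendsto sz_E2_periodic E2_mdifferentiable isBoundedAtImInfty_E2
  rwa [sz_E2_coeff_zero] at h

theorem sz_periodic {k : ℤ} (f : ModularForm 𝒮ℒ k) : Function.Periodic (f ∘ ofComplex) 1 :=
  SlashInvariantFormClass.periodic_comp_ofComplex f one_mem_strictPeriods_SL

theorem sz_bdd {k : ℤ} (f : ModularForm 𝒮ℒ k) : IsBoundedAtImInfty f :=
  ModularFormClass.bdd_at_infty f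

theorem sz_serre_slash {k : ℤ} (f : ModularForm 𝒮ℒ k) (γ : SL(2, ℤ)) :
    serreDerivative k f ∣[k + 2] γ = serreDerivative k f := by
  apply serreDerivative_slash_invariant f.holo'
  have hγ : (γ : GL (Fin 2) ℝ) ∈ 𝒮ℒ := ⟨γ, rfl⟩
  simpa [SL_slash] using SlashInvariantFormClass.slash_action_eq f _ hγ

theorem sz_serre_tendsto {k : ℤ} (f : ModularForm 𝒮ℒ k) :
    Tendsto (serreDerivative k f) atImInfty (𝓝 (-(k * 12⁻¹ * (qExpansion 1 f).coeff 0))) := by
  have h1 : Tendsto (D f) atImInfty (𝓝 0) :=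
    sz_D_isZeroAtImInfty (sz_periodic f) f.holo' (sz_bdd f)
  have h2 := sz_tendsto (sz_periodic f) f.holo' (sz_bdd f)
  have h3 := h1.sub (((tendsto_const_nhds (x := (k : ℂ) * 12⁻¹)).mul sz_E2_tendsto).mul h2)
  simpa using h3

/-- The Serre derivative of a level one modular form, as a modular form. -/
noncomputable def szSerre {k : ℤ} (f : ModularForm 𝒮ℒ k) : ModularForm 𝒮ℒ (k + 2) where
  toFun := serreDerivative k f
  slash_action_eq' := fun _ ⟨γ, hγ⟩ => hγ ▸ sz_serre_slash f γ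
  holo' := serreDerivative_mdifferentiable k f.holo'
  bdd_at_cusps' {c} hc := by
    rw [Subgroup.IsArithmetic.isCusp_iff_isCusp_SL2Z] at hc
    rw [OnePoint.isBoundedAt_iff_forall_SL2Z hc]
    intro γ _
    rw [sz_serre_slash f γ]
    exact (sz_serre_tendsto f).isBigO_one ℝ

theorem sz_eq_smul_of_rank_one {k : ℤ} (hr : Module.rank ℂ (ModularForm 𝒮ℒ k) = 1)
    (f g : ModularForm 𝒮ℒ k) {a : ℂ} (hg : Tendsto g atImInfty (𝓝 1))
    (hf : Tendsto f atImInfty (𝓝 a)) (z : ℍ) : f z = a * g z := by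
  have hg0 : g ≠ 0 := by
    rintro rfl
    have h0 : Tendsto (fun _ : ℍ => (0 : ℂ)) atImInfty (𝓝 1) := hg
    exact zero_ne_one (tendsto_nhds_unique tendsto_const_nhds h0)
  obtain ⟨c, hc⟩ := (finrank_eq_one_iff_of_nonzero' g hg0).mp
    (Module.rank_eq_one_iff_finrank_eq_one.mp hr) f
  have hfz : ∀ w : ℍ, f w = c * g w := fun w => by rw [← hc]; rfl
  have h1 : Tendsto f atImInfty (𝓝 (c * 1)) :=
    (hg.const_mul c).congr (fun w => (hfz w).symm)
  have : a = c * 1 := tendsto_nhds_unique hf h1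
  rw [hfz z, this, mul_one]

theorem sz_E_tendsto {k : ℕ} (hk : 3 ≤ k) (hk2 : Even k) : Tendsto (E hk) atImInfty (𝓝 1) := by
  have h := sz_tendsto (sz_periodic (E hk)) (E hk).holo' (sz_bdd (E hk))
  rwa [E_qExpansion_coeff_zero hk hk2] at h

theorem sz_ramanujan_E₄ (z : ℍ) : serreDerivative 4 E₄ z = -(1 / 3) * E₆ z := by
  have h1 := sz_serre_tendsto E₄
  rw [E_qExpansion_coeff_zero _ ⟨2, rfl⟩] at h1
  have h2 := sz_eq_smul_of_rank_one levelOne_weight_six_rank_one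
    (ModularForm.mcast (by norm_num) (szSerre E₄)) E₆ (sz_E_tendsto _ ⟨3, rfl⟩) h1 z
  have h3 : serreDerivative 4 E₄ z = (ModularForm.mcast (by norm_num : (4 : ℤ) + 2 = 6) (szSerre E₄)) z := rfl
  rw [h3, h2]
  norm_num

theorem sz_ramanujan_E₆ (z : ℍ) : serreDerivative 6 E₆ z = -(1 / 2) * E₄ z ^ 2 := by
  have h1 := sz_serre_tendsto E₆
  rw [E_qExpansion_coeff_zero _ ⟨3, rfl⟩] at h1
  have hr : Module.rank ℂ (ModularForm 𝒮ℒ 8) = 1 := by
    have := dimension_level_one 8 ⟨4, rfl⟩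
    simpa [Nat.ModEq] using this
  have h4 : Tendsto (E₄.mul E₄) atImInfty (𝓝 1) := by
    have := (sz_E_tendsto (k := 4) (by norm_num) ⟨2, rfl⟩).mul (sz_E_tendsto (k := 4) (by norm_num) ⟨2, rfl⟩)
    rw [one_mul] at this
    exact this
  have h2 := sz_eq_smul_of_rank_one hr
    (ModularForm.mcast (by norm_num) (szSerre E₆)) (ModularForm.mcast (by norm_num) (E₄.mul E₄)) h4 h1 z
  have h3 : serreDerivative 6 E₆ z = (ModularForm.mcast (by norm_num : (6 : ℤ) + 2 = 8) (szSerre E₆)) z := rfl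
  have h5 : (ModularForm.mcast (by norm_num : (4 : ℤ) + 4 = 8) (E₄.mul E₄)) z = E₄ z ^ 2 := by
    rw [sq]; rfl
  rw [h3, h2, h5]
  norm_num

theorem sz_two_pi_I_ne_zero : (2 * Real.pi * Complex.I : ℂ) ≠ 0 := by
  simp [Real.pi_ne_zero]

theorem sz_deriv_E₄ (z : ℍ) : deriv (E₄ ∘ ofComplex) z =
    (2 * Real.pi * Complex.I) * (-(1 / 3) * E₆ z + 1 / 3 * E2 z * E₄ z) := by
  have h := sz_ramanujan_E₄ z
  rw [serreDerivative_apply, normalizedDerivOfComplex] at h
  have hpi := sz_two_pi_I_ne_zero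
  field_simp at h ⊢
  linear_combination h / 12

theorem sz_deriv_E₆ (z : ℍ) : deriv (E₆ ∘ ofComplex) z =
    (2 * Real.pi * Complex.I) * (-(1 / 2) * E₄ z ^ 2 + 1 / 2 * E2 z * E₆ z) := by
  have h := sz_ramanujan_E₆ z
  rw [serreDerivative_apply, normalizedDerivOfComplex] at h
  have hpi := sz_two_pi_I_ne_zero
  field_simp at h ⊢
  linear_combination h / 12

theorem sz_not_both_zero (z : ℍ) (h4 : E₄ z = 0) (h6 : E₆ z = 0) : False := by
  have := discriminant_eq_E₄_cube_sub_E₆_sq z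
  rw [h4, h6] at this
  exact discriminant_ne_zero z (by simpa using this)

theorem E₄_simple_zero (z : ℍ) (h : E₄ z = 0) : deriv (E₄ ∘ ofComplex) z ≠ 0 := by
  rw [sz_deriv_E₄, h]
  intro h0
  have h6 : E₆ z = 0 := by
    rcases mul_eq_zero.mp h0 with h1 | h1
    · exact absurd h1 sz_two_pi_I_ne_zero
    · simpa using h1
  exact sz_not_both_zero z h h6

theorem E₆_simple_zero (z : ℍ) (h : E₆ z = 0) : deriv (E₆ ∘ ofComplex) z ≠ 0 := by
  rw [sz_deriv_E₆, h]
  intro h0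
  have h4 : E₄ z = 0 := by
    rcases mul_eq_zero.mp h0 with h1 | h1
    · exact absurd h1 sz_two_pi_I_ne_zero
    · simpa using h1
  exact sz_not_both_zero z h4 h

theorem pencil_simple_zero (a b : ℂ) (hab : a + b ≠ 0) (z : ℍ) (h4 : E₄ z ≠ 0) (h6 : E₆ z ≠ 0)
    (h : a * E₄ z ^ 3 + b * E₆ z ^ 2 = 0) :
    deriv ((fun w : ℍ => a * E₄ w ^ 3 + b * E₆ w ^ 2) ∘ ofComplex) z ≠ 0 := by
  have hd4 : HasDerivAt (E₄ ∘ ofComplex) (deriv (E₄ ∘ ofComplex) z) z :=
    (UpperHalfPlane.mdifferentiableAt_iff.mp (E₄.holo' z)).hasDerivAt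
  have hd6 : HasDerivAt (E₆ ∘ ofComplex) (deriv (E₆ ∘ ofComplex) z) z :=
    (UpperHalfPlane.mdifferentiableAt_iff.mp (E₆.holo' z)).hasDerivAt
  have hd := ((hd4.pow 3).const_mul a).add ((hd6.pow 2).const_mul b)
  have heq : ((fun w : ℍ => a * E₄ w ^ 3 + b * E₆ w ^ 2) ∘ ofComplex) =
      (fun x : ℂ => a * (E₄ ∘ ofComplex) x ^ 3 + b * (E₆ ∘ ofComplex) x ^ 2) := rfl
  rw [heq]
  have hder := hd.deriv
  have hval : deriv (fun x : ℂ => a * (E₄ ∘ ofComplex) x ^ 3 + b * (E₆ ∘ ofComplex) x ^ 2) z =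
      (2 * Real.pi * Complex.I) * (-(a + b) * E₄ z ^ 2 * E₆ z) := by
    refine hder.trans ?_
    rw [sz_deriv_E₄, sz_deriv_E₆]
    simp only [Function.comp_apply, ofComplex_apply]
    linear_combination (2 * Real.pi * Complex.I) * E2 z * h
  rw [hval]
  exact mul_ne_zero sz_two_pi_I_ne_zero
    (mul_ne_zero (mul_ne_zero (neg_ne_zero.mpr hab) (pow_ne_zero 2 h4)) h6)

end Fermat.Agent.ES
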