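import Fermat.Agent.ES.Reduce
import Fermat.Agent.ES.Orbit
import Fermat.Agent.ES.SimpleZeros
import Fermat.Agent.ES.EllipticCount

/-!
ES project, task C4b (ClaimA): a frame of minimal total weight is invertible at every point of `ℍ`.
-/

set_option autoImplicit false

open UpperHalfPlane ModularGroup ModularForm EisensteinSeries Filter Topology
open scoped MatrixGroups Manifold Real Matrix

namespace Fermat.Agent.ES

variable {Q : Type} [Fintype Q] [DecidableEq Q] [MulAction SL(2, ℤ) Q]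

/-- the reduction step at a point `z₀`: a relation with level one coefficients between the
frame vectors at `z₀` allows to divide by a form `P` with simple zeros exactly on the orbit. -/
theorem IsMinFrame.reduce {k : Q → ℤ} {F : Q → ℍ → Q → ℂ} (h : IsMinFrame k F) (z₀ : ℍ) (i₀ : Q)
    (K w : ℤ) (hKw : K - w < k i₀) (P : ModularForm 𝒮ℒ w)
    (hP : ∃ c : ℂ, c ≠ 0 ∧ Tendsto P atImInfty (𝓝 c))
    (hsimple : ∀ z : ℍ, P z = 0 → deriv (P ∘ ofComplex) z ≠ 0)
    (hzeros : ∀ z : ℍ, P z = 0 → ∃ g : SL(2, ℤ), g • z₀ = z)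
    (a : Q → ℍ → ℂ) (ha : ∀ i, IsL1 (K - k i) (a i)) (ha₀ : a i₀ ≠ 0)
    (hrel : ∀ q, ∑ i, a i z₀ * F i z₀ q = 0) : False := by
  have hH := h.1.isVF_comb K a ha
  have hvan : ∀ z : ℍ, P z = 0 → (fun z q => ∑ i, a i z * F i z q) z = 0 := by
    intro z hz
    obtain ⟨g, rfl⟩ := hzeros z hz
    exact hH.eq_zero_of_orbit (funext hrel) g
  obtain ⟨H', hH', hmul⟩ := hH.div_levelOne P hP hsimple hvan
  exact h.not_lower i₀ hKw hH' P a (fun i => (ha i).holo) ha₀ (fun z q => (hmul z q).symm)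

/-- version with constant coefficients `c i` and auxiliary level one functions `A i` not vanishing
at `z₀`. -/
theorem IsMinFrame.reduce' {k : Q → ℤ} {F : Q → ℍ → Q → ℂ} (h : IsMinFrame k F) (z₀ : ℍ) (i₀ : Q)
    (K w : ℤ) (hKw : K - w < k i₀) (P : ModularForm 𝒮ℒ w)
    (hP : ∃ c : ℂ, c ≠ 0 ∧ Tendsto P atImInfty (𝓝 c))
    (hsimple : ∀ z : ℍ, P z = 0 → deriv (P ∘ ofComplex) z ≠ 0)
    (hzeros : ∀ z : ℍ, P z = 0 → ∃ g : SL(2, ℤ), g • z₀ = z)
    (c : Q → ℂ) (hc₀ : c i₀ ≠ 0)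
    (hA : ∀ i, c i ≠ 0 → ∃ A : ℍ → ℂ, IsL1 (K - k i) A ∧ A z₀ ≠ 0)
    (hrel : ∀ q, ∑ i, c i * F i z₀ q = 0) : False := by
  have hA' : ∀ i, ∃ a : ℍ → ℂ, IsL1 (K - k i) a ∧ a z₀ = c i := by
    intro i
    by_cases hi : c i = 0
    · exact ⟨fun _ => 0, IsL1.zero _, hi.symm⟩
    · obtain ⟨A, hA1, hA2⟩ := hA i hi
      refine ⟨fun z => (c i * (A z₀)⁻¹) * A z, hA1.const_mul _, ?_⟩
      field_simp
  choose a ha1 ha2 using hA'
  refine h.reduce z₀ i₀ K w hKw P hP hsimple hzeros a ha1 ?_ ?_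
  · intro h0
    apply hc₀
    rw [← ha2, h0]
    rfl
  · intro q
    simpa only [ha2] using hrel q

omit [Fintype Q] [DecidableEq Q] [MulAction SL(2, ℤ) Q] in
/-- a linear relation between eigenvectors contains a nontrivial relation between eigenvectors
with the same eigenvalue. -/
theorem exists_isotypic_relation {ι V : Type} [Fintype ι] [DecidableEq ι] [AddCommGroup V]
    [Module ℂ V] (σ : V →ₗ[ℂ] V) (b : ι → V) (lam : ι → ℂ) (hσ : ∀ i, σ (b i) = lam i • b i)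
    (c : ι → ℂ) (hc : c ≠ 0) (hrel : ∑ i, c i • b i = 0) :
    ∃ c' : ι → ℂ, c' ≠ 0 ∧ ∑ i, c' i • b i = 0 ∧ ∀ i j, c' i ≠ 0 → c' j ≠ 0 → lam i = lam j := by
  obtain ⟨i₁, hi₁⟩ := Function.ne_iff.mp hc
  have hind := (iSupIndep_iff_finsetSum_eq_zero_imp_eq_zero _).mp
    (Module.End.eigenspaces_iSupIndep σ) (Finset.univ.image lam)
    (fun μ => ∑ i with lam i = μ, c i • b i) ?_ ?_ (lam i₁)
    (Finset.mem_image_of_mem _ (Finset.mem_univ _))
  · refine ⟨fun i => if lam i = lam i₁ then c i else 0, ?_, ?_, ?_⟩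
    · intro h0
      have := congrFun h0 i₁
      simp only [if_true, Pi.zero_apply] at this
      exact hi₁ this
    · rw [← hind, Finset.sum_filter]
      refine Finset.sum_congr rfl fun i _ => ?_
      by_cases hi : lam i = lam i₁
      · simp only [if_pos hi]
      · simp only [if_neg hi, zero_smul]
    · intro i j hi hj
      have h1 : lam i = lam i₁ := by
        by_contra hne
        exact hi (if_neg hne)
      have h2 : lam j = lam i₁ := by
        by_contra hne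
        exact hj (if_neg hne)
      rw [h1, h2]
  · intro μ _
    refine Submodule.sum_mem _ fun i hi => Submodule.smul_mem _ _ ?_
    rw [Module.End.mem_eigenspace_iff, hσ, (Finset.mem_filter.mp hi).2]
  · rw [Finset.sum_fiberwise_of_maps_to (fun i _ => Finset.mem_image_of_mem _ (Finset.mem_univ i))]
    exact hrel

omit [MulAction SL(2, ℤ) Q] in
/-- a vanishing determinant gives a relation between the frame vectors. -/
theorem exists_relation_of_det_eq_zero {F : Q → ℍ → Q → ℂ} {z : ℍ} (h : (frameMat F z).det = 0) :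
    ∃ c : Q → ℂ, c ≠ 0 ∧ ∀ q, ∑ i, c i * F i z q = 0 := by
  obtain ⟨c, hc, hc0⟩ := Matrix.exists_mulVec_eq_zero_iff.mpr h
  refine ⟨c, hc, fun q => ?_⟩
  have := congrFun hc0 q
  simp only [Matrix.mulVec, dotProduct, frameMat, Matrix.of_apply, Pi.zero_apply] at this
  rw [← this]
  exact Finset.sum_congr rfl fun i _ => mul_comm _ _

omit [DecidableEq Q] [MulAction SL(2, ℤ) Q] in
/-- index of maximal weight in the support of a nonzero vector. -/
theorem exists_max_support (k : Q → ℤ) {c : Q → ℂ} (hc : c ≠ 0) :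
    ∃ i₀, c i₀ ≠ 0 ∧ ∀ i, c i ≠ 0 → k i ≤ k i₀ := by
  classical
  obtain ⟨i₁, hi₁⟩ := Function.ne_iff.mp hc
  obtain ⟨i₀, h1, h2⟩ := Finset.exists_max_image (Finset.univ.filter fun i => c i ≠ 0) k
    ⟨i₁, by simpa using hi₁⟩
  exact ⟨i₀, (Finset.mem_filter.mp h1).2, fun i hi => h2 i (by simpa using hi)⟩

/-- invertibility at an elliptic point. -/
theorem IsMinFrame.elliptic {k : Q → ℤ} {F : Q → ℍ → Q → ℂ} (h : IsMinFrame k F) (z₁ : ℍ)
    (γ : SL(2, ℤ)) (hfix : γ • z₁ = z₁) (m : ℕ) (hprim : IsPrimitiveRoot (denom γ z₁) m)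
    (B : ModularForm 𝒮ℒ m) (hB : B z₁ ≠ 0) (w : ℤ) (hw : 0 < w) (P : ModularForm 𝒮ℒ w)
    (hP : ∃ c : ℂ, c ≠ 0 ∧ Tendsto P atImInfty (𝓝 c))
    (hsimple : ∀ z : ℍ, P z = 0 → deriv (P ∘ ofComplex) z ≠ 0)
    (hzeros : ∀ z : ℍ, P z = 0 → ∃ g : SL(2, ℤ), g • z₁ = z) :
    (frameMat F z₁).det ≠ 0 := by
  intro hdet
  obtain ⟨c, hc, hrel⟩ := exists_relation_of_det_eq_zero hdet
  have hσ : ∀ i, ecSigma Q γ (F i z₁) = denom γ z₁ ^ k i • F i z₁ := by
    intro i
    funext q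
    have := (h.1.vf i).equiv γ z₁ q
    rw [hfix] at this
    simpa [ecSigma_apply] using this
  have hrel0 : ∑ i, c i • F i z₁ = 0 := by
    funext q
    simpa using hrel q
  obtain ⟨c', hc', hrel', hiso⟩ := exists_isotypic_relation (ecSigma Q γ) (fun i => F i z₁)
    (fun i => denom γ z₁ ^ k i) hσ c hc hrel0
  · obtain ⟨i₀, hi₀, hmax⟩ := exists_max_support k hc'
    refine h.reduce' z₁ i₀ (k i₀) w (by linarith) P hP hsimple hzeros c' hi₀ ?_ ?_
    · intro i hi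
      have h1 : denom γ z₁ ^ (k i₀ - k i) = 1 := by
        rw [zpow_sub₀ (denom_ne_zero _ z₁), hiso i₀ i hi₀ hi]
        exact div_self (zpow_ne_zero _ (denom_ne_zero _ z₁))
      obtain ⟨t, ht⟩ := (hprim.zpow_eq_one_iff_dvd _).mp h1
      have hle := hmax i hi
      by_cases hm : m = 0
      · subst hm
        refine ⟨fun _ => 1, IsL1.one.congr_weight (by rw [ht]; simp), one_ne_zero⟩
      · have hm' : (0 : ℤ) < m := by exact_mod_cast Nat.pos_of_ne_zero hm
        have ht0 : 0 ≤ t := by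
          by_contra hneg
          have : (m : ℤ) * t < 0 := mul_neg_of_pos_of_neg hm' (not_le.mp hneg)
          linarith
        refine ⟨fun z => B z ^ t.toNat, ((IsL1.of_modularForm B).pow t.toNat).congr_weight ?_,
          pow_ne_zero _ hB⟩
        rw [Int.toNat_of_nonneg ht0, ht]
        ring
    · intro q
      have := congrFun hrel' q
      simpa using this

omit [Fintype Q] [DecidableEq Q] [MulAction SL(2, ℤ) Q] in
theorem E₄_cube_ne_E₆_sq (z : ℍ) : E₄ z ^ 3 - E₆ z ^ 2 ≠ 0 := by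
  intro h
  have h1 := discriminant_eq_E₄_cube_sub_E₆_sq z
  rw [h, zero_div] at h1
  exact discriminant_ne_zero z h1

omit [Fintype Q] [DecidableEq Q] [MulAction SL(2, ℤ) Q] in
theorem E₆_I_eq_zero : E₆ I = 0 := by
  have h := levelOne_smul_eq E₆ S I
  rw [ec_S_smul_I, ec_denom_S_I] at h
  have h6 : (Complex.I : ℂ) ^ (6 : ℤ) = -1 := by
    have : (Complex.I : ℂ) ^ (6 : ℤ) = Complex.I ^ (6 : ℕ) := by norm_cast
    rw [this, show (6 : ℕ) = 2 * 3 by norm_num, pow_mul, Complex.I_sq]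
    norm_num
  rw [h6] at h
  have h2 : (2 : ℂ) * E₆ I = 0 := by linear_combination h
  simpa using h2

omit [Fintype Q] [DecidableEq Q] [MulAction SL(2, ℤ) Q] in
theorem E₄_I_ne_zero : E₄ I ≠ 0 := by
  intro h
  apply E₄_cube_ne_E₆_sq I
  rw [h, E₆_I_eq_zero]
  norm_num

omit [Fintype Q] [DecidableEq Q] [MulAction SL(2, ℤ) Q] in
theorem E₄_rho_eq_zero : E₄ ecRho = 0 := by
  have h := levelOne_smul_eq E₄ (S * T) ecRho
  rw [ec_ST_smul_rho, ec_denom_ST_rho] at h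
  by_contra hne
  have h1 : ((ecRho : ℂ) + 1) ^ (4 : ℤ) = 1 := by
    have : (((ecRho : ℂ) + 1) ^ (4 : ℤ) - 1) * E₄ ecRho = 0 := by linear_combination -h
    rcases mul_eq_zero.mp this with h2 | h2
    · linear_combination h2
    · exact absurd h2 hne
  have h2 := (ec_isPrimitiveRoot_xi.zpow_eq_one_iff_dvd _).mp h1
  norm_num at h2

omit [Fintype Q] [DecidableEq Q] [MulAction SL(2, ℤ) Q] in
theorem E₆_rho_ne_zero : E₆ ecRho ≠ 0 := by
  intro h
  apply E₄_cube_ne_E₆_sq ecRho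
  rw [h, E₄_rho_eq_zero]
  norm_num

/-- the pencil form `a E₄³ + b E₆²`. -/
noncomputable def pencilForm (a b : ℂ) : ModularForm 𝒮ℒ 12 :=
  a • ModularForm.mcast (by decide) (E₄.pow 3) + b • ModularForm.mcast (by decide) (E₆.pow 2)

omit [Fintype Q] [DecidableEq Q] [MulAction SL(2, ℤ) Q] in
theorem coe_pencilForm (a b : ℂ) :
    ⇑(pencilForm a b) = fun w : ℍ => a * E₄ w ^ 3 + b * E₆ w ^ 2 := by
  funext w
  simp only [pencilForm, add_apply, smul_apply, coe_mcast,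
    ModularForm.coe_pow, Pi.pow_apply, smul_eq_mul]

omit [Fintype Q] [DecidableEq Q] [MulAction SL(2, ℤ) Q] in
theorem tendsto_pencilForm (a b : ℂ) : Tendsto (pencilForm a b) atImInfty (𝓝 (a + b)) := by
  rw [coe_pencilForm]
  have := ((tendsto_E₄.pow 3).const_mul a).add ((tendsto_E₆.pow 2).const_mul b)
  simpa using this

/-- invertibility at a non elliptic point. -/
theorem IsMinFrame.generic (hneg : ∀ q : Q, (-1 : SL(2, ℤ)) • q = q) {k : Q → ℤ}
    {F : Q → ℍ → Q → ℂ} (h : IsMinFrame k F) (z₀ : ℍ) (h4 : E₄ z₀ ≠ 0) (h6 : E₆ z₀ ≠ 0) :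
    (frameMat F z₀).det ≠ 0 := by
  intro hdet
  obtain ⟨c, hc, hrel⟩ := exists_relation_of_det_eq_zero hdet
  obtain ⟨i₀, hi₀, hmax⟩ := exists_max_support k hc
  have hab : E₆ z₀ ^ 2 + -E₄ z₀ ^ 3 ≠ 0 := by
    intro h0
    apply E₄_cube_ne_E₆_sq z₀
    linear_combination -h0
  have hzeros : ∀ z : ℍ, pencilForm (E₆ z₀ ^ 2) (-E₄ z₀ ^ 3) z = 0 →
      ∃ g : SL(2, ℤ), g • z₀ = z := by
    intro z hz
    rw [coe_pencilForm] at hz
    apply exists_smul_eq_of_E₄_E₆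
    linear_combination -hz
  refine h.reduce' z₀ i₀ (k i₀ + 4) 12 (by linarith) (pencilForm (E₆ z₀ ^ 2) (-E₄ z₀ ^ 3))
    ⟨_, hab, tendsto_pencilForm _ _⟩ ?_ hzeros c hi₀ ?_ hrel
  · intro z hz
    obtain ⟨g, rfl⟩ := hzeros z hz
    rw [coe_pencilForm] at hz ⊢
    refine pencil_simple_zero _ _ hab _ ?_ ?_ hz
    · rw [levelOne_smul_eq]
      exact mul_ne_zero (zpow_ne_zero _ (denom_ne_zero _ _)) h4
    · rw [levelOne_smul_eq]
      exact mul_ne_zero (zpow_ne_zero _ (denom_ne_zero _ _)) h6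
  · intro i hi
    have hle := hmax i hi
    have hev : Even (k i₀ + 4 - k i) :=
      ((h.1.even hneg i₀).add (by decide)).sub (h.1.even hneg i)
    obtain ⟨a, b, hab'⟩ := exists_four_mul_add_six_mul hev (by linarith)
    exact ⟨_, (isL1_E₄_pow_mul_E₆_pow a b).congr_weight hab'.symm,
      mul_ne_zero (pow_ne_zero _ h4) (pow_ne_zero _ h6)⟩

/-- the determinant of a frame vanishes at `g • z` iff it vanishes at `z`. -/
theorem det_frameMat_smul_ne_zero {k : Q → ℤ} {F : Q → ℍ → Q → ℂ} (hF : ∀ i, IsVF Q (k i) (F i))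
    (g : SL(2, ℤ)) {z : ℍ} (hz : (frameMat F z).det ≠ 0) : (frameMat F (g • z)).det ≠ 0 := by
  rw [det_frameMat_smul hF]
  refine mul_ne_zero (mul_ne_zero ?_ (zpow_ne_zero _ (denom_ne_zero _ _))) hz
  exact_mod_cast (Equiv.Perm.sign (MulAction.toPerm g : Equiv.Perm Q)).ne_zero

/-- **Claim A**: a frame of minimal total weight is invertible at every point of `ℍ`. -/
theorem IsMinFrame.det_ne_zero [MulAction.IsPretransitive SL(2, ℤ) Q]
    (hneg : ∀ q : Q, (-1 : SL(2, ℤ)) • q = q) {k : Q → ℤ} {F : Q → ℍ → Q → ℂ}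
    (h : IsMinFrame k F) (z : ℍ) : (frameMat F z).det ≠ 0 := by
  by_cases h6 : E₆ z = 0
  · have hzeros : ∀ z : ℍ, E₆ z = 0 → ∃ g : SL(2, ℤ), g • I = z := by
      intro z hz
      apply exists_smul_eq_of_E₄_E₆
      rw [hz, E₆_I_eq_zero]
      ring
    obtain ⟨g, rfl⟩ := hzeros z h6
    apply det_frameMat_smul_ne_zero h.1.vf
    exact h.elliptic I S ec_S_smul_I 4 (ec_denom_S_I ▸ ec_isPrimitiveRoot_I) E₄ E₄_I_ne_zero 6
      (by norm_num) E₆ ⟨1, one_ne_zero, tendsto_E₆⟩ E₆_simple_zero hzeros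
  by_cases h4 : E₄ z = 0
  · have hzeros : ∀ z : ℍ, E₄ z = 0 → ∃ g : SL(2, ℤ), g • ecRho = z := by
      intro z hz
      apply exists_smul_eq_of_E₄_E₆
      rw [hz, E₄_rho_eq_zero]
      ring
    obtain ⟨g, rfl⟩ := hzeros z h4
    apply det_frameMat_smul_ne_zero h.1.vf
    exact h.elliptic ecRho (S * T) ec_ST_smul_rho 6 (ec_denom_ST_rho ▸ ec_isPrimitiveRoot_xi) E₆
      E₆_rho_ne_zero 4 (by norm_num) E₄ ⟨1, one_ne_zero, tendsto_E₄⟩ E₄_simple_zero hzeros
  · exact h.generic hneg z h4 h6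

end Fermat.Agent.ES
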