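import Mathlib
import Fermat.Agent.ES.Defs

/-!
ES project, task C2-Division: dividing vector valued modular forms by level one forms.
-/

set_option autoImplicit false

open UpperHalfPlane ModularGroup CongruenceSubgroup ModularForm EisensteinSeries Filter Topology
open scoped MatrixGroups Manifold Real

namespace Fermat.Agent.ES

/-- the quotient of two functions, with the value at common zeros given by l'Hopital. -/
noncomputable def divFun (h p : ℂ → ℂ) (x : ℂ) : ℂ :=
  if p x = 0 then deriv h x / deriv p x else h x / p x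

lemma divFun_differentiableAt {U : Set ℂ} (hU : IsOpen U) {h p : ℂ → ℂ}
    (hh : DifferentiableOn ℂ h U) (hp : DifferentiableOn ℂ p U) {c : ℂ} (hc : c ∈ U)
    (hsimple : p c = 0 → deriv p c ≠ 0) (hvan : p c = 0 → h c = 0) :
    DifferentiableAt ℂ (divFun h p) c := by
  have hUc : U ∈ 𝓝 c := hU.mem_nhds hc
  by_cases hpc : p c = 0
  · have hdp : DifferentiableOn ℂ (dslope p c) U := (Complex.differentiableOn_dslope hUc).mpr hp
    have hdh : DifferentiableOn ℂ (dslope h c) U := (Complex.differentiableOn_dslope hUc).mpr hh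
    have hne : dslope p c c ≠ 0 := by rw [dslope_same]; exact hsimple hpc
    have hev : ∀ᶠ x in 𝓝 c, dslope p c x ≠ 0 :=
      (hdp.differentiableAt hUc).continuousAt.eventually_ne hne
    have hEq : divFun h p =ᶠ[𝓝 c] fun x => dslope h c x / dslope p c x := by
      filter_upwards [hev] with x hx
      by_cases hxc : x = c
      · subst hxc
        simp [divFun, hpc, dslope_same]
      · have h1 : p x = (x - c) * dslope p c x := by
          have := sub_smul_dslope p c x
          rw [hpc, sub_zero, smul_eq_mul] at this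
          exact this.symm
        have h2 : h x = (x - c) * dslope h c x := by
          have := sub_smul_dslope h c x
          rw [hvan hpc, sub_zero, smul_eq_mul] at this
          exact this.symm
        have hxc' : x - c ≠ 0 := sub_ne_zero.mpr hxc
        have hpx : p x ≠ 0 := by rw [h1]; exact mul_ne_zero hxc' hx
        simp only [divFun, hpx, if_false]
        rw [h1, h2]
        field_simp
    exact (((hdh.differentiableAt hUc).div (hdp.differentiableAt hUc) hne)).congr_of_eventuallyEq hEq
  · have hev : ∀ᶠ x in 𝓝 c, p x ≠ 0 := (hp.differentiableAt hUc).continuousAt.eventually_ne hpc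
    have hEq : divFun h p =ᶠ[𝓝 c] fun x => h x / p x := by
      filter_upwards [hev] with x hx
      simp [divFun, hx]
    exact (((hh.differentiableAt hUc).div (hp.differentiableAt hUc) hpc)).congr_of_eventuallyEq hEq

lemma levelOne_smul_eq {w : ℤ} (P : ModularForm 𝒮ℒ w) (g : SL(2, ℤ)) (z : ℍ) :
    P (g • z) = denom g z ^ w * P z := by
  have hg : (g : GL (Fin 2) ℝ) ∈ 𝒮ℒ := ⟨g, rfl⟩
  exact SlashInvariantForm.slash_action_eqn'' P hg z

theorem IsVF.div_levelOne {Q : Type} [MulAction SL(2, ℤ) Q] {k w : ℤ} {H : ℍ → Q → ℂ}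
    (hH : IsVF Q k H) (P : ModularForm 𝒮ℒ w) (hP : ∃ c : ℂ, c ≠ 0 ∧ Tendsto P atImInfty (𝓝 c))
    (hsimple : ∀ z : ℍ, P z = 0 → deriv (P ∘ ofComplex) z ≠ 0)
    (hvan : ∀ z : ℍ, P z = 0 → H z = 0) :
    ∃ H' : ℍ → Q → ℂ, IsVF Q (k - w) H' ∧ ∀ z q, H z q = P z * H' z q := by
  obtain ⟨c, hc0, hc⟩ := hP
  set U : Set ℂ := {z | 0 < z.im} with hUdef
  have hU : IsOpen U := isOpen_upperHalfPlaneSet
  have hPd : DifferentiableOn ℂ (P ∘ ofComplex) U := UpperHalfPlane.mdifferentiable_iff.mp P.holo'
  have hHd : ∀ q, DifferentiableOn ℂ ((fun z => H z q) ∘ ofComplex) U := fun q =>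
    UpperHalfPlane.mdifferentiable_iff.mp (hH.holo q)
  set H' : ℍ → Q → ℂ := fun z q => divFun ((fun z => H z q) ∘ ofComplex) (P ∘ ofComplex) z
    with hH'def
  have hPz : ∀ z : ℍ, (P ∘ ofComplex) z = P z := fun z => by simp [ofComplex_apply]
  have hH'ne : ∀ z q, P z ≠ 0 → H' z q = H z q / P z := by
    intro z q hz
    simp only [hH'def, divFun, hPz, hz, if_false]
    simp [ofComplex_apply]
  have hmul : ∀ z q, H z q = P z * H' z q := by
    intro z q
    by_cases hz : P z = 0
    · rw [hz, zero_mul, hvan z hz]; rfl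
    · rw [hH'ne z q hz]; field_simp
  have hholo : ∀ q, MDiff (fun z => H' z q) := by
    intro q
    rw [UpperHalfPlane.mdifferentiable_iff]
    intro x hx
    have hd := divFun_differentiableAt hU (hHd q) hPd hx
      (fun h0 => by
        have := hsimple ⟨x, hx⟩ (by simpa [ofComplex_apply_of_im_pos hx] using h0)
        simpa using this)
      (fun h0 => by
        have := hvan ⟨x, hx⟩ (by simpa [ofComplex_apply_of_im_pos hx] using h0)
        simp [ofComplex_apply_of_im_pos hx, this])
    apply (hd.congr_of_eventuallyEq ?_).differentiableWithinAt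
    filter_upwards [hU.mem_nhds hx] with y hy
    simp [hH'def, ofComplex_apply_of_im_pos hy]
  have hPne : (P : ℍ → ℂ) ≠ 0 := by
    intro h0
    rw [h0] at hc
    exact hc0 (tendsto_nhds_unique hc tendsto_const_nhds)
  refine ⟨H', ⟨hholo, ?_, ?_⟩, hmul⟩
  · intro g z q
    -- the difference, multiplied by `P`, vanishes
    set D : ℍ → ℂ := fun z => H' (g • z) (g • q) - denom g z ^ (k - w) * H' z q with hD
    have hDd : MDiff D := by
      have h1 : MDiff (fun z : ℍ => H' (g • z) (g • q)) := by
        have hg : 0 < ((g : GL (Fin 2) ℝ)).det.val := by simp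
        exact (hholo (g • q)).comp (mdifferentiable_smul hg)
      have h2 : MDiff (fun z : ℍ => denom g z ^ (k - w) * H' z q) :=
        (mdifferentiable_denom_zpow g (k - w)).mul (hholo q)
      exact h1.sub h2
    have hPD : (P : ℍ → ℂ) * D = 0 := by
      ext z
      simp only [Pi.mul_apply, Pi.zero_apply, hD]
      by_cases hz : P z = 0
      · rw [hz, zero_mul]
      · have hden : denom g z ≠ 0 := denom_ne_zero g z
        have hgz : P (g • z) ≠ 0 := by
          rw [levelOne_smul_eq]; exact mul_ne_zero (zpow_ne_zero _ hden) hz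
        rw [hH'ne _ _ hgz, hH'ne _ _ hz, hH.equiv, levelOne_smul_eq, zpow_sub₀ hden]
        have := zpow_ne_zero w hden
        field_simp
        ring
    rcases (UpperHalfPlane.mul_eq_zero_iff P.holo' hDd).mp hPD with h0 | h0
    · exact absurd h0 hPne
    · have := congrFun h0 z
      simp only [hD, Pi.zero_apply] at this
      exact sub_eq_zero.mp this
  · intro q
    have hb := hH.bdd q
    rw [IsBoundedAtImInfty, BoundedAtFilter] at hb ⊢
    have hev : ∀ᶠ z in atImInfty, ‖c‖ / 2 < ‖P z‖ := by
      have : Tendsto (fun z => ‖P z‖) atImInfty (𝓝 ‖c‖) := hc.norm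
      exact this.eventually_const_lt (by have := norm_pos_iff.mpr hc0; linarith)
    have hbig : (fun z => H' z q) =O[atImInfty] (fun z => H z q) := by
      apply Asymptotics.IsBigO.of_bound (2 / ‖c‖)
      filter_upwards [hev] with z hz
      have hcpos : 0 < ‖c‖ := norm_pos_iff.mpr hc0
      have hPz0 : P z ≠ 0 := by
        intro h0; rw [h0, norm_zero] at hz; linarith
      rw [hH'ne z q hPz0, norm_div, div_le_iff₀ (norm_pos_iff.mpr hPz0)]
      have : 1 ≤ 2 / ‖c‖ * ‖P z‖ := by
        rw [div_mul_eq_mul_div, le_div_iff₀ hcpos]; linarith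
      calc ‖H z q‖ = 1 * ‖H z q‖ := (one_mul _).symm
        _ ≤ (2 / ‖c‖ * ‖P z‖) * ‖H z q‖ := by gcongr
        _ = 2 / ‖c‖ * ‖H z q‖ * ‖P z‖ := by ring
    exact hbig.trans hb

theorem IsVF.div_discriminant {Q : Type} [MulAction SL(2, ℤ) Q] {k : ℤ} {H : ℍ → Q → ℂ}
    (hH : IsVF Q k H)
    (hdecay : ∀ q, (fun z : ℍ => H z q) =O[atImInfty] (fun z : ℍ => Real.exp (-2 * π * z.im))) :
    IsVF Q (k - 12) (fun z q => H z q / ModularForm.discriminant z) := by
  refine ⟨fun q => ?_, fun g z q => ?_, fun q => ?_⟩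
  · exact (hH.holo q).div CuspForm.discriminant.holo' discriminant_ne_zero
  · have hg : (g : GL (Fin 2) ℝ) ∈ 𝒮ℒ := ⟨g, rfl⟩
    have hΔ : ModularForm.discriminant (g • z) = denom g z ^ (12 : ℤ) * ModularForm.discriminant z :=
      SlashInvariantForm.slash_action_eqn'' CuspForm.discriminant hg z
    have hden : denom g z ≠ 0 := denom_ne_zero g z
    have h1 := discriminant_ne_zero z
    rw [hH.equiv, hΔ, zpow_sub₀ hden]
    have := zpow_ne_zero (12 : ℤ) hden
    field_simp
  · rw [IsBoundedAtImInfty, BoundedAtFilter]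
    exact (Asymptotics.div_isBoundedUnder_of_isBigO
      ((hdecay q).trans exp_isBigO_discriminant)).isBigO_one ℝ

end Fermat.Agent.ES
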