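import Fermat.Agent.ES.FrameBasics
import Fermat.Agent.ES.Division

/-!
ES project: shared tools for tasks C4b (ClaimA) and C4c (ClaimB): scalar level one functions,
multiplying vector valued forms by them, and the weight lowering contradiction for
minimal frames.
-/

set_option autoImplicit false

open UpperHalfPlane ModularGroup ModularForm EisensteinSeries Filter Topology
open scoped MatrixGroups Manifold Real Matrix

namespace Fermat.Agent.ES

/-- scalar valued level one modular "function" of weight `n` (unbundled). -/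
structure IsL1 (n : ℤ) (A : ℍ → ℂ) : Prop where
  holo : MDiff A
  equiv : ∀ (g : SL(2, ℤ)) (z : ℍ), A (g • z) = denom g z ^ n * A z
  bdd : IsBoundedAtImInfty A

theorem IsL1.of_modularForm {n : ℤ} (f : ModularForm 𝒮ℒ n) : IsL1 n f where
  holo := f.holo'
  equiv := levelOne_smul_eq f
  bdd := ModularFormClass.bdd_at_infty f

theorem IsL1.zero (n : ℤ) : IsL1 n (fun _ => 0) :=
  IsL1.of_modularForm (0 : ModularForm 𝒮ℒ n)

theorem IsL1.congr_weight {n m : ℤ} {A : ℍ → ℂ} (h : IsL1 n A) (hnm : n = m) : IsL1 m A :=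
  hnm ▸ h

theorem IsL1.mul {n m : ℤ} {A B : ℍ → ℂ} (hA : IsL1 n A) (hB : IsL1 m B) :
    IsL1 (n + m) (fun z => A z * B z) where
  holo := hA.holo.mul hB.holo
  equiv := by
    intro g z
    rw [hA.equiv, hB.equiv, zpow_add₀ (denom_ne_zero _ z)]
    ring
  bdd := hA.bdd.mul hB.bdd

theorem IsL1.one : IsL1 0 (fun _ => 1) where
  holo := mdifferentiable_const
  equiv := by intro g z; simp
  bdd := Filter.const_boundedAtFilter _ _

theorem IsL1.const_mul {n : ℤ} {A : ℍ → ℂ} (hA : IsL1 n A) (c : ℂ) :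
    IsL1 n (fun z => c * A z) where
  holo := mdifferentiable_const.mul hA.holo
  equiv := by
    intro g z
    rw [hA.equiv]
    ring
  bdd := (Filter.const_boundedAtFilter _ c).mul hA.bdd

theorem IsL1.pow {n : ℤ} {A : ℍ → ℂ} (hA : IsL1 n A) (m : ℕ) :
    IsL1 (m * n) (fun z => A z ^ m) := by
  induction m with
  | zero => simpa using IsL1.one
  | succ m ih =>
    have h1 := (ih.mul hA).congr_weight (m := ((m + 1 : ℕ) : ℤ) * n) (by push_cast; ring)
    simpa only [pow_succ] using h1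

/-- monomials in `E₄`, `E₆`. -/
theorem isL1_E₄_pow_mul_E₆_pow (a b : ℕ) :
    IsL1 (4 * a + 6 * b) (fun z => E₄ z ^ a * E₆ z ^ b) :=
  (((IsL1.of_modularForm E₄).pow a).mul ((IsL1.of_modularForm E₆).pow b)).congr_weight (by ring)

theorem exists_four_mul_add_six_mul {n : ℤ} (hn : Even n) (h4 : 4 ≤ n) :
    ∃ a b : ℕ, n = 4 * a + 6 * b := by
  obtain ⟨m, rfl⟩ := hn
  obtain ⟨t, ht | ht⟩ := Int.even_or_odd' m
  · refine ⟨t.toNat, 0, ?_⟩
    have : (t.toNat : ℤ) = t := Int.toNat_of_nonneg (by omega)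
    rw [this]; omega
  · refine ⟨(t - 1).toNat, 1, ?_⟩
    have : ((t - 1).toNat : ℤ) = t - 1 := Int.toNat_of_nonneg (by omega)
    rw [this]; omega

theorem tendsto_levelOne {k : ℤ} (f : ModularForm 𝒮ℒ k) :
    Tendsto f atImInfty (𝓝 ((qExpansion 1 f).coeff 0)) := by
  have han : AnalyticAt ℂ (cuspFunction 1 f) 0 :=
    ModularFormClass.analyticAt_cuspFunction_zero f one_pos one_mem_strictPeriods_SL
  have hper := SlashInvariantFormClass.periodic_comp_ofComplex f one_mem_strictPeriods_SL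
  have h0 : (qExpansion 1 f).coeff 0 = cuspFunction 1 f 0 := by
    simp [qExpansion_coeff]
  rw [h0]
  have : (cuspFunction 1 f ∘ fun τ ↦ Function.Periodic.qParam 1 τ : ℍ → ℂ) = f := by
    funext τ
    simpa using eq_cuspFunction τ one_ne_zero hper
  simpa [this] using han.continuousAt.tendsto.comp (qParam_tendsto_atImInfty one_pos)

theorem tendsto_E₄ : Tendsto E₄ atImInfty (𝓝 1) := by
  have := tendsto_levelOne E₄
  rwa [E_qExpansion_coeff_zero _ ⟨2, rfl⟩] at this

theorem tendsto_E₆ : Tendsto E₆ atImInfty (𝓝 1) := by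
  have := tendsto_levelOne E₆
  rwa [E_qExpansion_coeff_zero _ ⟨3, rfl⟩] at this

section VF

variable {Q : Type} [MulAction SL(2, ℤ) Q]

theorem IsVF.zero (k : ℤ) : IsVF Q k (fun _ _ => 0) where
  holo := fun _ => mdifferentiable_const
  equiv := by intro g z q; simp
  bdd := fun _ => Filter.const_boundedAtFilter _ _

theorem IsVF.congr_weight {k k' : ℤ} {F : ℍ → Q → ℂ} (h : IsVF Q k F) (hk : k = k') :
    IsVF Q k' F := hk ▸ h

theorem IsVF.l1_mul {n k : ℤ} {A : ℍ → ℂ} {F : ℍ → Q → ℂ} (hA : IsL1 n A) (hF : IsVF Q k F) :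
    IsVF Q (n + k) (fun z q => A z * F z q) where
  holo := fun q => hA.holo.mul (hF.holo q)
  equiv := by
    intro g z q
    rw [hA.equiv, hF.equiv, zpow_add₀ (denom_ne_zero _ z)]
    ring
  bdd := fun q => hA.bdd.mul (hF.bdd q)

theorem IsVF.add {k : ℤ} {F G : ℍ → Q → ℂ} (hF : IsVF Q k F) (hG : IsVF Q k G) :
    IsVF Q k (fun z q => F z q + G z q) where
  holo := fun q => (hF.holo q).add (hG.holo q)
  equiv := by
    intro g z q
    rw [hF.equiv, hG.equiv]
    ring
  bdd := fun q => (hF.bdd q).add (hG.bdd q)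

theorem IsVF.sum {ι : Type} (s : Finset ι) {k : ℤ} {F : ι → ℍ → Q → ℂ}
    (hF : ∀ i ∈ s, IsVF Q k (F i)) : IsVF Q k (fun z q => ∑ i ∈ s, F i z q) := by
  classical
  induction s using Finset.induction_on with
  | empty => simpa using IsVF.zero k
  | insert a s ha ih =>
    have h1 := (hF a (Finset.mem_insert_self a s)).add
      (ih fun i hi => hF i (Finset.mem_insert_of_mem hi))
    simpa only [Finset.sum_insert ha] using h1

/-- a vector valued form vanishing at `z₀` vanishes on the whole orbit. -/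
theorem IsVF.eq_zero_of_orbit {k : ℤ} {F : ℍ → Q → ℂ} (hF : IsVF Q k F) {z₀ : ℍ}
    (h0 : F z₀ = 0) (g : SL(2, ℤ)) : F (g • z₀) = 0 := by
  funext q
  have := hF.equiv g z₀ (g⁻¹ • q)
  rw [smul_inv_smul, h0] at this
  simpa using this

end VF

section Frame

variable {Q : Type} [Fintype Q] [DecidableEq Q] [MulAction SL(2, ℤ) Q]

theorem IsFrame.ne_zero {k : Q → ℤ} {F : Q → ℍ → Q → ℂ} (h : IsFrame k F) (i : Q) : F i ≠ 0 := by
  intro h0
  obtain ⟨z, hz⟩ := h.det_ne
  apply hz
  apply Matrix.det_eq_zero_of_column_eq_zero i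
  intro q
  simp [frameMat, h0]

theorem IsFrame.even (hneg : ∀ q : Q, (-1 : SL(2, ℤ)) • q = q) {k : Q → ℤ} {F : Q → ℍ → Q → ℂ}
    (h : IsFrame k F) (i : Q) : Even (k i) :=
  (h.vf i).weight_even hneg (h.ne_zero i)

/-- the weight lowering contradiction. -/
theorem IsMinFrame.not_lower {k : Q → ℤ} {F : Q → ℍ → Q → ℂ} (h : IsMinFrame k F) (i₀ : Q)
    {k' : ℤ} (hk' : k' < k i₀) {G : ℍ → Q → ℂ} (hG : IsVF Q k' G) (P : ℍ → ℂ) (a : Q → ℍ → ℂ)
    (ha : ∀ i, MDiff (a i)) (ha₀ : a i₀ ≠ 0)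
    (hrel : ∀ z q, P z * G z q = ∑ i, a i z * F i z q) : False := by
  have h1 := h.1.replace i₀ hG P a ha ha₀ hrel
  have h2 := h.2 _ _ h1
  rw [Finset.sum_update_of_mem (Finset.mem_univ i₀),
    ← Finset.add_sum_erase Finset.univ k (Finset.mem_univ i₀)] at h2
  have : Finset.univ \ {i₀} = Finset.univ.erase i₀ := by
    ext; simp
  rw [this] at h2
  linarith

/-- combination of frame vectors with level one coefficients. -/
theorem IsFrame.isVF_comb {k : Q → ℤ} {F : Q → ℍ → Q → ℂ} (h : IsFrame k F) (K : ℤ)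
    (a : Q → ℍ → ℂ) (ha : ∀ i, IsL1 (K - k i) (a i)) :
    IsVF Q K (fun z q => ∑ i, a i z * F i z q) :=
  IsVF.sum Finset.univ fun i _ => (IsVF.l1_mul (ha i) (h.vf i)).congr_weight (by ring)

end Frame

end Fermat.Agent.ES
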