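import Fermat.Agent.ES.FrameDefs

/-!
# ES project, task C4a: basic facts on vector valued forms and frames
-/

set_option autoImplicit false
set_option linter.unusedSectionVars false

open UpperHalfPlane ModularGroup ModularForm EisensteinSeries Filter Topology
open scoped MatrixGroups Manifold Real Matrix

namespace Fermat.Agent.ES

variable {Q : Type} [Fintype Q] [DecidableEq Q] [MulAction SL(2, ℤ) Q]

theorem levelOne_slash_eq {k : ℤ} {f : ℍ → ℂ}
    (hf : ∀ (g : SL(2, ℤ)) (z : ℍ), f (g • z) = denom g z ^ k * f z) (g : SL(2, ℤ)) :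
    f ∣[k] g = f := by
  ext z
  rw [SL_slash_apply, hf g z, mul_comm, ← mul_assoc, ← zpow_add₀ (denom_ne_zero _ _)]
  simp

/-- constructor of level one modular forms from equivariant holomorphic bounded functions. -/
theorem levelOne_of {k : ℤ} (f : ℍ → ℂ) (hol : MDiff f)
    (hf : ∀ (g : SL(2, ℤ)) (z : ℍ), f (g • z) = denom g z ^ k * f z)
    (hb : IsBoundedAtImInfty f) : ∃ f' : ModularForm 𝒮ℒ k, ⇑f' = f := by
  refine ⟨{ toFun := f, slash_action_eq' := ?_, holo' := hol, bdd_at_cusps' := ?_ }, rfl⟩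
  · rintro _ ⟨g, rfl⟩
    exact levelOne_slash_eq hf g
  · intro c hc
    rw [OnePoint.isBoundedAt_iff_forall_SL2Z hc]
    intro g _
    rw [levelOne_slash_eq hf g]
    exact hb

/-- the product of all components of a vector valued form is a level one form. -/
theorem IsVF.exists_prod {k : ℤ} {F : ℍ → Q → ℂ} (hF : IsVF Q k F) :
    ∃ f' : ModularForm 𝒮ℒ (k * Fintype.card Q), ⇑f' = ∏ q, (fun z => F z q) := by
  refine levelOne_of _ (.prod fun q _ => hF.holo q) ?_ ?_
  · intro g z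
    simp only [Finset.prod_apply]
    rw [← Equiv.prod_comp (MulAction.toPerm g : Equiv.Perm Q)]
    simp only [MulAction.toPerm_apply, hF.equiv, Finset.prod_mul_distrib, Finset.prod_const,
      Finset.card_univ]
    rw [zpow_mul, zpow_natCast]
  · rw [IsBoundedAtImInfty, BoundedAtFilter,
      show (1 : ℍ → ℝ) = (fun x ↦ ∏ (i : Q), 1) by ext; simp, Finset.prod_fn]
    exact .finsetProd fun q _ => hF.bdd q

theorem IsVF.eq_zero_of_component [MulAction.IsPretransitive SL(2, ℤ) Q] {k : ℤ} {F : ℍ → Q → ℂ}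
    (hF : IsVF Q k F) {q : Q} (hq : (fun z => F z q) = 0) : F = 0 := by
  ext z q'
  obtain ⟨g, rfl⟩ := MulAction.exists_smul_eq SL(2, ℤ) q q'
  have h := hF.equiv g (g⁻¹ • z) q
  rw [smul_inv_smul] at h
  rw [h, show F (g⁻¹ • z) q = 0 from congrFun hq _]
  simp

theorem IsVF.prod_ne_zero [MulAction.IsPretransitive SL(2, ℤ) Q] {k : ℤ} {F : ℍ → Q → ℂ}
    (hF : IsVF Q k F) (hne : F ≠ 0) : ∏ q, (fun z => F z q) ≠ 0 := by
  intro h
  rw [UpperHalfPlane.prod_eq_zero_iff (fun q _ => hF.holo q)] at h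
  obtain ⟨q, -, hq⟩ := h
  exact hne (hF.eq_zero_of_component hq)

theorem frame_nonempty_of_ne_zero {F : ℍ → Q → ℂ} (hne : F ≠ 0) : Nonempty Q := by
  by_contra h
  rw [not_nonempty_iff] at h
  apply hne
  ext z q
  exact (h.false q).elim

theorem IsVF.weight_nonneg [MulAction.IsPretransitive SL(2, ℤ) Q] {k : ℤ} {F : ℍ → Q → ℂ}
    (hF : IsVF Q k F) (hne : F ≠ 0) : 0 ≤ k := by
  by_contra hk
  push Not at hk
  have := frame_nonempty_of_ne_zero hne
  obtain ⟨f', hf'⟩ := hF.exists_prod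
  have hc : (0 : ℤ) < Fintype.card Q := by exact_mod_cast Fintype.card_pos
  have := ModularFormClass.levelOne_neg_weight_eq_zero (mul_neg_of_neg_of_pos hk hc) f'
  exact hF.prod_ne_zero hne (hf' ▸ this)

theorem IsCuspVF.weight_pos [MulAction.IsPretransitive SL(2, ℤ) Q] {k : ℤ} {F : ℍ → Q → ℂ}
    (hF : IsCuspVF Q k F) (hne : F ≠ 0) : 0 < k := by
  rcases (hF.toIsVF.weight_nonneg hne).lt_or_eq with h | h
  · exact h
  exfalso
  subst h
  have := frame_nonempty_of_ne_zero hne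
  obtain ⟨f', hf'⟩ := hF.toIsVF.exists_prod
  let : ModularFormClass (ModularForm 𝒮ℒ (0 * (Fintype.card Q : ℤ))) 𝒮ℒ 0 := by
    rw [zero_mul]; infer_instance
  obtain ⟨c, hc⟩ := ModularFormClass.levelOne_weight_zero_const f'
  have h1 : Tendsto (fun z : ℍ => ∏ q, F z q) atImInfty (𝓝 (∏ _q : Q, (0 : ℂ))) :=
    tendsto_finsetProd _ fun q _ => hF.zero q
  have h2 : (fun z : ℍ => ∏ q, F z q) = Function.const _ c := by
    rw [← hc, hf']
    ext z
    simp
  rw [h2, Finset.prod_const, Finset.card_univ, zero_pow Fintype.card_ne_zero] at h1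
  have h3 : c = 0 := tendsto_nhds_unique tendsto_const_nhds h1
  apply hF.toIsVF.prod_ne_zero hne
  rw [← hf', hc, h3]
  rfl

theorem IsVF.weight_even (hneg : ∀ q : Q, (-1 : SL(2, ℤ)) • q = q) {k : ℤ} {F : ℍ → Q → ℂ}
    (hF : IsVF Q k F) (hne : F ≠ 0) : Even k := by
  obtain ⟨z, q, hzq⟩ : ∃ z q, F z q ≠ 0 := by
    by_contra h
    push Not at h
    exact hne (by ext z q; exact h z q)
  have h := hF.equiv (-1) z q
  rw [hneg, SL_neg_smul, one_smul] at h
  have hd : denom ((-1 : SL(2, ℤ)) : SL(2, ℤ)) z = -1 := by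
    simp [denom]
  rw [hd] at h
  by_contra hk
  rw [Int.not_even_iff_odd] at hk
  rw [hk.neg_one_zpow] at h
  apply hzq
  linear_combination h / 2

theorem IsFrame.col_ne_zero {k : Q → ℤ} {F : Q → ℍ → Q → ℂ} (h : IsFrame k F) (i : Q) :
    F i ≠ 0 := by
  intro hi
  obtain ⟨z, hz⟩ := h.det_ne
  apply hz
  apply Matrix.det_eq_zero_of_column_eq_zero i
  intro q
  simp [frameMat, hi]

theorem IsFrame.weight_nonneg [MulAction.IsPretransitive SL(2, ℤ) Q] {k : Q → ℤ}
    {F : Q → ℍ → Q → ℂ} (h : IsFrame k F) (i : Q) : 0 ≤ k i :=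
  (h.vf i).weight_nonneg (h.col_ne_zero i)

theorem IsFrame.sum_nonneg [MulAction.IsPretransitive SL(2, ℤ) Q] {k : Q → ℤ}
    {F : Q → ℍ → Q → ℂ} (h : IsFrame k F) : 0 ≤ ∑ i, k i :=
  Finset.sum_nonneg fun i _ => h.weight_nonneg i

theorem exists_isMinFrame [MulAction.IsPretransitive SL(2, ℤ) Q]
    (h : ∃ (k : Q → ℤ) (F : Q → ℍ → Q → ℂ), IsFrame k F) :
    ∃ (k : Q → ℤ) (F : Q → ℍ → Q → ℂ), IsMinFrame k F := by
  classical
  have hex : ∃ n : ℕ, ∃ (k : Q → ℤ) (F : Q → ℍ → Q → ℂ), IsFrame k F ∧ ∑ i, k i = n := by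
    obtain ⟨k, F, hkF⟩ := h
    exact ⟨(∑ i, k i).toNat, k, F, hkF, (Int.toNat_of_nonneg hkF.sum_nonneg).symm⟩
  obtain ⟨k, F, hkF, hsum⟩ := Nat.find_spec hex
  refine ⟨k, F, hkF, fun k' F' h' => ?_⟩
  have := Nat.find_min' hex ⟨k', F', h', (Int.toNat_of_nonneg h'.sum_nonneg).symm⟩
  rw [hsum]
  have h2 := Int.toNat_of_nonneg h'.sum_nonneg
  omega

theorem frame_prod_zpow {ι : Type} (s : Finset ι) (k : ι → ℤ) {a : ℂ} (ha : a ≠ 0) :
    ∏ i ∈ s, a ^ (k i) = a ^ (∑ i ∈ s, k i) := by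
  classical
  induction s using Finset.induction_on with
  | empty => simp
  | insert i s hi ih => rw [Finset.prod_insert hi, Finset.sum_insert hi, ih, zpow_add₀ ha]

theorem det_frameMat_smul {k : Q → ℤ} {F : Q → ℍ → Q → ℂ} (hF : ∀ i, IsVF Q (k i) (F i))
    (g : SL(2, ℤ)) (z : ℍ) :
    (frameMat F (g • z)).det =
      ((Equiv.Perm.sign (MulAction.toPerm g : Equiv.Perm Q) : ℤ) : ℂ) * denom g z ^ (∑ i, k i) *
        (frameMat F z).det := by
  have h1 : (frameMat F (g • z)).submatrix (MulAction.toPerm g : Equiv.Perm Q) id =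
      frameMat F z * Matrix.diagonal (fun i => denom g z ^ (k i)) := by
    ext q i
    rw [Matrix.mul_diagonal, Matrix.submatrix_apply]
    simp only [frameMat, Matrix.of_apply, MulAction.toPerm_apply, id]
    rw [(hF i).equiv, mul_comm]
  have h2 := congrArg Matrix.det h1
  rw [Matrix.det_permute, Matrix.det_mul, Matrix.det_diagonal,
    frame_prod_zpow _ _ (denom_ne_zero _ _)] at h2
  have h4 : (((Equiv.Perm.sign (MulAction.toPerm g : Equiv.Perm Q) : ℤ) : ℂ)) ^ 2 = 1 := by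
    rcases Int.units_eq_one_or (Equiv.Perm.sign (MulAction.toPerm g : Equiv.Perm Q)) with h | h <;>
      simp [h]
  linear_combination (((Equiv.Perm.sign (MulAction.toPerm g : Equiv.Perm Q) : ℤ) : ℂ)) * h2 -
    (frameMat F (g • z)).det * h4

theorem mdiff_det_frameMat {F : Q → ℍ → Q → ℂ} (hF : ∀ i q, MDiff (fun z => F i z q)) :
    MDiff (fun z => (frameMat F z).det) := by
  have : (fun z => (frameMat F z).det) =
      ∑ σ : Equiv.Perm Q, (fun _ : ℍ => (((Equiv.Perm.sign σ : ℤ) : ℂ))) *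
        ∏ i, fun z => F i z (σ i) := by
    ext z
    rw [Matrix.det_apply']
    simp [frameMat]
  rw [this]
  exact .sum fun σ _ => .mul mdifferentiable_const (.prod fun i _ => hF i (σ i))

theorem frameMat_update (F : Q → ℍ → Q → ℂ) (i₀ : Q) (G : ℍ → Q → ℂ) (z : ℍ) :
    frameMat (Function.update F i₀ G) z = (frameMat F z).updateCol i₀ (G z) := by
  ext q i
  rw [Matrix.updateCol_apply]
  by_cases h : i = i₀
  · subst h; simp [frameMat]
  · simp [frameMat, h]

theorem IsFrame.replace {k : Q → ℤ} {F : Q → ℍ → Q → ℂ} (h : IsFrame k F) (i₀ : Q) {k' : ℤ}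
    {G : ℍ → Q → ℂ} (hG : IsVF Q k' G) (P : ℍ → ℂ) (a : Q → ℍ → ℂ)
    (ha : ∀ i, MDiff (a i)) (ha₀ : a i₀ ≠ 0)
    (hrel : ∀ z q, P z * G z q = ∑ i, a i z * F i z q) :
    IsFrame (Function.update k i₀ k') (Function.update F i₀ G) := by
  refine ⟨fun i => ?_, ?_⟩
  · by_cases hi : i = i₀
    · subst hi; simpa using hG
    · simpa [hi] using h.vf i
  · have key : ∀ z, P z * (frameMat (Function.update F i₀ G) z).det =
        a i₀ z * (frameMat F z).det := by
      intro z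
      rw [frameMat_update, ← Matrix.det_updateCol_smul, ← Matrix.cramer_apply,
        Matrix.cramer_eq_adjugate_mulVec]
      have : P z • G z = frameMat F z *ᵥ (fun i => a i z) := by
        ext q
        simp [Matrix.mulVec, dotProduct, frameMat, hrel, mul_comm]
      rw [this, Matrix.mulVec_mulVec, Matrix.adjugate_mul, Matrix.smul_mulVec, Matrix.one_mulVec]
      simp [mul_comm]
    have hdet : (fun z => (frameMat F z).det) ≠ 0 := by
      obtain ⟨z, hz⟩ := h.det_ne
      exact fun h0 => hz (congrFun h0 z)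
    have hprod : a i₀ * (fun z => (frameMat F z).det) ≠ 0 := by
      rw [Ne, UpperHalfPlane.mul_eq_zero_iff (ha i₀)
        (mdiff_det_frameMat fun i q => (h.vf i).holo q)]
      tauto
    obtain ⟨z, hz⟩ : ∃ z, a i₀ z * (frameMat F z).det ≠ 0 := by
      by_contra hcon
      push Not at hcon
      exact hprod (funext hcon)
    refine ⟨z, fun h0 => hz ?_⟩
    rw [← key, h0, mul_zero]

end Fermat.Agent.ES
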