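import Mathlib
import Fermat.Agent.ES.Defs
import Fermat.Prelude.Def_ModularCurve_GenusNumerics
open CongruenceSubgroup ModularGroup
open scoped MatrixGroups

namespace Fermat.Agent.ES


theorem dedekindPsi_prime_mul_of_dvd {p N : ℕ} (hp : p.Prime) (hN : N ≠ 0) (h : p ∣ N) :
    ModularCurve.dedekindPsi (p * N) = p * ModularCurve.dedekindPsi N := by
  unfold ModularCurve.dedekindPsi
  have hset : (p * N).divisors.filter Squarefree = N.divisors.filter Squarefree := by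
    ext d
    simp only [Finset.mem_filter, Nat.mem_divisors]
    constructor
    · rintro ⟨⟨hd, _⟩, hsq⟩
      refine ⟨⟨?_, hN⟩, hsq⟩
      by_cases hpd : p ∣ d
      · obtain ⟨e, rfl⟩ := hpd
        have he : e ∣ N := Nat.dvd_of_mul_dvd_mul_left hp.pos hd
        have hcop : Nat.Coprime p e := by
          rw [Nat.squarefree_mul_iff] at hsq
          exact hsq.1
        exact hcop.mul_dvd_of_dvd_of_dvd h he
      · have hcop : Nat.Coprime d p := ((Nat.Prime.coprime_iff_not_dvd hp).2 hpd).symm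
        exact hcop.dvd_of_dvd_mul_left hd
    · rintro ⟨⟨hd, _⟩, hsq⟩
      exact ⟨⟨Dvd.dvd.mul_left hd p, mul_ne_zero hp.ne_zero hN⟩, hsq⟩
  rw [hset, Finset.mul_sum]
  refine Finset.sum_congr rfl fun d hd => ?_
  simp only [Finset.mem_filter, Nat.mem_divisors] at hd
  exact Nat.mul_div_assoc p hd.1.1

theorem dedekindPsi_prime_mul_of_not_dvd {p N : ℕ} (hp : p.Prime) (hN : N ≠ 0) (h : ¬ p ∣ N) :
    ModularCurve.dedekindPsi (p * N) = (p + 1) * ModularCurve.dedekindPsi N := by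
  unfold ModularCurve.dedekindPsi
  have hsplit := Finset.sum_filter_add_sum_filter_not ((p * N).divisors.filter Squarefree)
    (fun d => ¬ p ∣ d) (fun d => p * N / d)
  rw [← hsplit]
  have hset1 : ((p * N).divisors.filter Squarefree).filter (fun d => ¬ p ∣ d)
      = N.divisors.filter Squarefree := by
    ext d
    simp only [Finset.mem_filter, Nat.mem_divisors]
    constructor
    · rintro ⟨⟨⟨hd, _⟩, hsq⟩, hpd⟩
      have hcop : Nat.Coprime d p := ((Nat.Prime.coprime_iff_not_dvd hp).2 hpd).symm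
      exact ⟨⟨hcop.dvd_of_dvd_mul_left hd, hN⟩, hsq⟩
    · rintro ⟨⟨hd, _⟩, hsq⟩
      exact ⟨⟨⟨Dvd.dvd.mul_left hd p, mul_ne_zero hp.ne_zero hN⟩, hsq⟩,
        fun hpd => h (hpd.trans hd)⟩
  have hset2 : ((p * N).divisors.filter Squarefree).filter (fun d => ¬ ¬ p ∣ d)
      = (N.divisors.filter Squarefree).image (fun d => p * d) := by
    ext d
    simp only [Finset.mem_filter, Nat.mem_divisors, Finset.mem_image, not_not]
    constructor
    · rintro ⟨⟨⟨hd, _⟩, hsq⟩, hpd⟩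
      obtain ⟨e, rfl⟩ := hpd
      refine ⟨e, ⟨⟨Nat.dvd_of_mul_dvd_mul_left hp.pos hd, hN⟩, ?_⟩, rfl⟩
      rw [Nat.squarefree_mul_iff] at hsq
      exact hsq.2.2
    · rintro ⟨e, ⟨⟨he, _⟩, hsq⟩, rfl⟩
      refine ⟨⟨⟨Nat.mul_dvd_mul_left p he, mul_ne_zero hp.ne_zero hN⟩, ?_⟩, Dvd.intro e rfl⟩
      rw [Nat.squarefree_mul_iff]
      refine ⟨(Nat.Prime.coprime_iff_not_dvd hp).2 fun hpe => h (hpe.trans he), hp.squarefree, hsq⟩
  rw [hset1, hset2, Finset.sum_image (fun a _ b _ hab => Nat.eq_of_mul_eq_mul_left hp.pos hab),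
    add_mul, one_mul, Finset.mul_sum]
  congr 1
  · refine Finset.sum_congr rfl fun d hd => ?_
    simp only [Finset.mem_filter, Nat.mem_divisors] at hd
    exact Nat.mul_div_assoc p hd.1.1
  · refine Finset.sum_congr rfl fun d hd => ?_
    exact Nat.mul_div_mul_left N d hp.pos


/-- membership of `g⁻¹ * g'` in `Gamma0 N` in terms of first columns. -/
theorem inv_mul_mem_Gamma0_iff (N : ℕ) (g g' : SL(2, ℤ)) :
    g⁻¹ * g' ∈ Gamma0 N ↔ (N : ℤ) ∣ g 0 0 * g' 1 0 - g' 0 0 * g 1 0 := by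
  rw [Gamma0_mem, ZMod.intCast_zmod_eq_zero_iff_dvd]
  have : (g⁻¹ * g') 1 0 = g 0 0 * g' 1 0 - g' 0 0 * g 1 0 := by
    rw [Matrix.SpecialLinearGroup.coe_mul, Matrix.SpecialLinearGroup.coe_inv,
      Matrix.adjugate_fin_two, Matrix.mul_apply, Fin.sum_univ_two]
    simp
    ring
  rw [this]

theorem coset_eq_iff (N : ℕ) (g g' : SL(2, ℤ)) :
    ((g : SL(2, ℤ) ⧸ Gamma0 N) = g') ↔ (N : ℤ) ∣ g 0 0 * g' 1 0 - g' 0 0 * g 1 0 := by
  rw [QuotientGroup.eq, inv_mul_mem_Gamma0_iff]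

theorem mem_Gamma0_iff_dvd (N : ℕ) (g : SL(2, ℤ)) : g ∈ Gamma0 N ↔ (N : ℤ) ∣ g 1 0 := by
  rw [Gamma0_mem, ZMod.intCast_zmod_eq_zero_iff_dvd]

theorem SL2_det_eq (g : SL(2, ℤ)) : g 0 0 * g 1 1 - g 0 1 * g 1 0 = 1 := by
  have := g.det_coe
  rwa [Matrix.det_fin_two] at this

theorem index_eq_card_of_map {G X : Type*} [Group G] (H : Subgroup G) (f : G → X)
    (hf : Function.Surjective f) (h : ∀ a b, f a = f b ↔ a⁻¹ * b ∈ H) :
    H.index = Nat.card X := by
  rw [Subgroup.index_eq_card]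
  refine Nat.card_congr (Equiv.ofBijective
    (Quotient.lift f (fun a b hab => (h a b).2 (QuotientGroup.leftRel_apply.1 hab))) ⟨?_, ?_⟩)
  · intro x y
    induction x using Quotient.inductionOn
    induction y using Quotient.inductionOn
    intro hxy
    exact Quotient.sound (QuotientGroup.leftRel_apply.2 ((h _ _).1 hxy))
  · intro x
    obtain ⟨a, rfl⟩ := hf x
    exact ⟨Quotient.mk _ a, rfl⟩

theorem relIndex_eq_card_of_map {G X : Type*} [Group G] (H K : Subgroup G) (f : G → X)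
    (hf : ∀ x, ∃ k ∈ K, f k = x) (h : ∀ a ∈ K, ∀ b ∈ K, f a = f b ↔ a⁻¹ * b ∈ H) :
    H.relIndex K = Nat.card X := by
  unfold Subgroup.relIndex
  refine index_eq_card_of_map _ (fun k : K => f k) ?_ ?_
  · intro x
    obtain ⟨k, hk, rfl⟩ := hf x
    exact ⟨⟨k, hk⟩, rfl⟩
  · intro a b
    rw [Subgroup.mem_subgroupOf]
    exact h a a.2 b b.2

/-- lower unipotent matrices. -/
def lowerUni (k : ℤ) : SL(2, ℤ) := ⟨!![1, 0; k, 1], by simp [Matrix.det_fin_two]⟩

@[simp] theorem lowerUni_00 (k : ℤ) : lowerUni k 0 0 = 1 := rfl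
@[simp] theorem lowerUni_10 (k : ℤ) : lowerUni k 1 0 = k := rfl

/-- key criterion for the step `Gamma0 (p * N) ≤ Gamma0 N`. -/
theorem step_criterion {p N : ℕ} (hN : N ≠ 0) (a b : SL(2, ℤ))
    (ha : a ∈ Gamma0 N) (hb : b ∈ Gamma0 N) :
    a⁻¹ * b ∈ Gamma0 (p * N) ↔
      ((a 0 0 : ℤ) : ZMod p) * ((b 1 0 / N : ℤ) : ZMod p)
        = ((b 0 0 : ℤ) : ZMod p) * ((a 1 0 / N : ℤ) : ZMod p) := by
  rw [inv_mul_mem_Gamma0_iff]
  obtain ⟨k, hk⟩ := (mem_Gamma0_iff_dvd N a).1 ha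
  obtain ⟨l, hl⟩ := (mem_Gamma0_iff_dvd N b).1 hb
  have hN' : (N : ℤ) ≠ 0 := by exact_mod_cast hN
  rw [hk, hl, Int.mul_ediv_cancel_left _ hN', Int.mul_ediv_cancel_left _ hN']
  have : a 0 0 * (N * l) - b 0 0 * (N * k) = N * (a 0 0 * l - b 0 0 * k) := by ring
  rw [this, Nat.cast_mul, mul_comm (p : ℤ) N, mul_dvd_mul_iff_left hN',
    ← ZMod.intCast_zmod_eq_zero_iff_dvd]
  push_cast
  rw [sub_eq_zero]

theorem relIndex_Gamma0_of_dvd {p N : ℕ} (hp : p.Prime) (hN : N ≠ 0) (h : p ∣ N) :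
    (Gamma0 (p * N)).relIndex (Gamma0 N) = p := by
  have : Fact p.Prime := ⟨hp⟩
  have hunit : ∀ a ∈ Gamma0 N, ((a 0 0 : ℤ) : ZMod p) ≠ 0 := by
    intro a ha h0
    rw [ZMod.intCast_zmod_eq_zero_iff_dvd] at h0
    have h1 : (p : ℤ) ∣ a 1 0 :=
      (Int.natCast_dvd_natCast.2 h).trans ((mem_Gamma0_iff_dvd N a).1 ha)
    have h2 : (p : ℤ) ∣ 1 := by
      rw [← SL2_det_eq a]
      exact dvd_sub (Dvd.dvd.mul_right h0 _) (Dvd.dvd.mul_left h1 _)
    exact hp.one_lt.ne' (by exact_mod_cast Int.eq_one_of_dvd_one (by positivity) h2)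
  have := relIndex_eq_card_of_map (Gamma0 (p * N)) (Gamma0 N)
    (fun a => ((a 1 0 / N : ℤ) : ZMod p) / ((a 0 0 : ℤ) : ZMod p)) ?_ ?_
  · rw [this, Nat.card_zmod]
  · intro x
    refine ⟨lowerUni (N * (x.val : ℤ)), ?_, ?_⟩
    · rw [mem_Gamma0_iff_dvd]; simp
    · have hN' : (N : ℤ) ≠ 0 := by exact_mod_cast hN
      simp [Int.mul_ediv_cancel_left _ hN']
  · intro a ha b hb
    rw [step_criterion hN a b ha hb, div_eq_div_iff (hunit a ha) (hunit b hb)]
    constructor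
    · intro h; rw [mul_comm, ← h, mul_comm]
    · intro h; rw [mul_comm, ← h, mul_comm]

theorem relIndex_Gamma0_of_not_dvd {p N : ℕ} (hp : p.Prime) (hN : N ≠ 0) (h : ¬ p ∣ N) :
    (Gamma0 (p * N)).relIndex (Gamma0 N) = p + 1 := by
  have : Fact p.Prime := ⟨hp⟩
  have hN' : (N : ℤ) ≠ 0 := by exact_mod_cast hN
  -- if `p ∣ a 0 0` then `p ∤ a 1 0 / N`
  have hunit : ∀ a ∈ Gamma0 N, ((a 0 0 : ℤ) : ZMod p) = 0 → ((a 1 0 / N : ℤ) : ZMod p) ≠ 0 := by
    intro a ha h0 h1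
    rw [ZMod.intCast_zmod_eq_zero_iff_dvd] at h0 h1
    obtain ⟨k, hk⟩ := (mem_Gamma0_iff_dvd N a).1 ha
    rw [hk, Int.mul_ediv_cancel_left _ hN'] at h1
    have h2 : (p : ℤ) ∣ 1 := by
      rw [← SL2_det_eq a, hk]
      exact dvd_sub (Dvd.dvd.mul_right h0 _) (Dvd.dvd.mul_left (Dvd.dvd.mul_left h1 _) _)
    exact hp.one_lt.ne' (by exact_mod_cast Int.eq_one_of_dvd_one (by positivity) h2)
  classical
  have := relIndex_eq_card_of_map (Gamma0 (p * N)) (Gamma0 N)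
    (fun a => if ((a 0 0 : ℤ) : ZMod p) = 0 then (none : Option (ZMod p)) else
      some (((a 1 0 / N : ℤ) : ZMod p) / ((a 0 0 : ℤ) : ZMod p))) ?_ ?_
  · rw [this, Nat.card_eq_fintype_card, Fintype.card_option, ZMod.card]
  · intro x
    rcases x with _ | x
    · have hcop : IsCoprime (p : ℤ) (N : ℤ) := by
        rw [Nat.isCoprime_iff_coprime]
        exact (Nat.Prime.coprime_iff_not_dvd hp).2 h
      obtain ⟨g, hg0, hg1⟩ := hcop.exists_SL2_col 0
      refine ⟨g, ?_, ?_⟩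
      · rw [mem_Gamma0_iff_dvd, hg1]
      · simp [hg0]
    · refine ⟨lowerUni (N * (x.val : ℤ)), ?_, ?_⟩
      · rw [mem_Gamma0_iff_dvd]; simp
      · simp [Int.mul_ediv_cancel_left _ hN']
  · intro a ha b hb
    rw [step_criterion hN a b ha hb]
    by_cases ha0 : ((a 0 0 : ℤ) : ZMod p) = 0
    · by_cases hb0 : ((b 0 0 : ℤ) : ZMod p) = 0
      · simp [ha0, hb0]
      · simp only [ha0, hb0, if_true, if_false, zero_mul]
        constructor
        · intro h; exact absurd h (by simp)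
        · intro h
          exact absurd h.symm (mul_ne_zero hb0 (hunit a ha ha0))
    · by_cases hb0 : ((b 0 0 : ℤ) : ZMod p) = 0
      · simp only [ha0, hb0, if_true, if_false, zero_mul]
        constructor
        · intro h; exact absurd h (by simp)
        · intro h
          exact absurd h (mul_ne_zero ha0 (hunit b hb hb0))
      · simp only [ha0, hb0, if_false, Option.some_inj]
        rw [div_eq_div_iff ha0 hb0]
        constructor
        · intro h; rw [mul_comm, ← h, mul_comm]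
        · intro h; rw [mul_comm, ← h, mul_comm]

theorem Gamma0_mul_le (p N : ℕ) : Gamma0 (p * N) ≤ Gamma0 N := by
  intro g hg
  rw [mem_Gamma0_iff_dvd] at hg ⊢
  exact (Int.natCast_dvd_natCast.2 (Dvd.intro_left p rfl)).trans hg

theorem index_Gamma0_aux (N : ℕ) : N ≠ 0 → (Gamma0 N).index = ModularCurve.dedekindPsi N := by
  induction N using induction_on_primes with
  | zero => intro h; exact absurd rfl h
  | one =>
    intro _
    have : Gamma0 1 = ⊤ := by
      ext g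
      rw [mem_Gamma0_iff_dvd]
      simp
    rw [this]; simp
  | prime_mul p N hp ih =>
    intro hpN
    have hN : N ≠ 0 := right_ne_zero_of_mul hpN
    rw [← Subgroup.relIndex_mul_index (Gamma0_mul_le p N), ih hN]
    by_cases h : p ∣ N
    · rw [relIndex_Gamma0_of_dvd hp hN h, dedekindPsi_prime_mul_of_dvd hp hN h]
    · rw [relIndex_Gamma0_of_not_dvd hp hN h, dedekindPsi_prime_mul_of_not_dvd hp hN h]

theorem index_Gamma0 (N : ℕ) [NeZero N] : (Gamma0 N).index = ModularCurve.dedekindPsi N :=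
  index_Gamma0_aux N (NeZero.ne N)

end Fermat.Agent.ES
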