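import Fermat.Agent.ES.FrameDefs
import Fermat.Agent.S23.DilateNe

set_option autoImplicit false

open UpperHalfPlane ModularGroup CongruenceSubgroup ModularForm EisensteinSeries Filter Topology
open scoped MatrixGroups Manifold Real Matrix

namespace Fermat.Agent.ES

/-- the vector valued function attached to a function `u` invariant under `Γ`. -/
noncomputable def vfOf (Γ : Subgroup SL(2, ℤ)) (k : ℤ) (u : ℍ → ℂ) (hu : ∀ γ ∈ Γ, u ∣[k] γ = u)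
    (z : ℍ) (q : SL(2, ℤ) ⧸ Γ) : ℂ :=
  Quotient.liftOn' q (fun g => (u ∣[k] g⁻¹) z) (by
    intro a b hab
    rw [QuotientGroup.leftRel_apply] at hab
    have h1 : b⁻¹ = (a⁻¹ * b)⁻¹ * a⁻¹ := by group
    show (u ∣[k] a⁻¹) z = (u ∣[k] b⁻¹) z
    rw [h1, SlashAction.slash_mul, hu _ (Γ.inv_mem hab)])

theorem vfOf_mk (Γ : Subgroup SL(2, ℤ)) (k : ℤ) (u : ℍ → ℂ) (hu : ∀ γ ∈ Γ, u ∣[k] γ = u)
    (z : ℍ) (g : SL(2, ℤ)) : vfOf Γ k u hu z (g : SL(2, ℤ) ⧸ Γ) = (u ∣[k] g⁻¹) z := rfl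

theorem slash_inv_smul (k : ℤ) (v : ℍ → ℂ) (g : SL(2, ℤ)) (z : ℍ) :
    (v ∣[k] g⁻¹) (g • z) = denom g z ^ k * v z := by
  have h1 : ((v ∣[k] g⁻¹) ∣[k] g) z = v z := by
    rw [← SlashAction.slash_mul, inv_mul_cancel, SlashAction.slash_one]
  rw [SL_slash_apply] at h1
  rw [← h1, mul_comm, mul_assoc, ← zpow_add₀ (denom_ne_zero _ _)]
  simp

theorem isVF_vfOf (Γ : Subgroup SL(2, ℤ)) [Γ.FiniteIndex] (k : ℤ) (u : ModularForm Γ k) 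
    (hu : ∀ γ ∈ Γ, (u : ℍ → ℂ) ∣[k] γ = u) :
    IsVF (SL(2, ℤ) ⧸ Γ) k (vfOf Γ k u hu) where
  holo q := by
    induction q using QuotientGroup.induction_on with
    | H g => 
      exact (ModularFormClass.holo u).slash k _
  equiv g z q := by
    induction q using QuotientGroup.induction_on with
    | H h => 
      have : g • (h : SL(2, ℤ) ⧸ Γ) = ((g * h : SL(2, ℤ)) : SL(2, ℤ) ⧸ Γ) := rfl
      rw [this, vfOf_mk, vfOf_mk, mul_inv_rev, SlashAction.slash_mul, slash_inv_smul]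
  bdd q := by
    induction q using QuotientGroup.induction_on with
    | H g => 
      exact ModularFormClass.bdd_at_infty_slash u g⁻¹

theorem IsVF.pow {Q : Type} [MulAction SL(2, ℤ) Q] {k : ℤ} {F : ℍ → Q → ℂ} (hF : IsVF Q k F)
    (j : ℕ) : IsVF Q (k * j) (fun z q => F z q ^ j) where
  holo q := (hF.holo q).pow j
  equiv g z q := by
    rw [hF.equiv, mul_pow, zpow_mul, zpow_natCast]
  bdd q := by
    induction j with
    | zero =>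
      simp only [pow_zero]
      exact Filter.const_boundedAtFilter atImInfty (1 : ℂ)
    | succ j ih =>
      simp only [pow_succ]
      exact ih.mul (hF.bdd q)

theorem exists_frame_Gamma0 (N : ℕ) [NeZero N] [Fintype (SL(2, ℤ) ⧸ Gamma0 N)]
    [DecidableEq (SL(2, ℤ) ⧸ Gamma0 N)] :
    ∃ (k : (SL(2, ℤ) ⧸ Gamma0 N) → ℤ) (F : (SL(2, ℤ) ⧸ Gamma0 N) → ℍ → (SL(2, ℤ) ⧸ Gamma0 N) → ℂ),
      IsFrame k F := by
  have hu : ∀ γ ∈ Gamma0 N, (S23.dil N : ℍ → ℂ) ∣[(12 : ℤ)] γ = S23.dil N := by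
    intro γ hγ
    exact SlashInvariantFormClass.slash_action_eq (S23.dil N) _ ⟨γ, hγ, rfl⟩
  set U := vfOf (Gamma0 N) 12 (S23.dil N) hu with hU
  have hUvf : IsVF (SL(2, ℤ) ⧸ Gamma0 N) 12 U := isVF_vfOf _ _ _ hu
  let e := Fintype.equivFin (SL(2, ℤ) ⧸ Gamma0 N)
  refine ⟨fun i => 12 * ((e i : ℕ) : ℤ), fun i z q => U z q ^ (e i : ℕ), fun i => hUvf.pow _, ?_⟩
  -- distinctness
  have hne : ∀ q q' : SL(2, ℤ) ⧸ Gamma0 N, q ≠ q' → (fun z => U z q - U z q') ≠ 0 := by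
    intro q q' hqq h0
    apply hqq
    induction q using QuotientGroup.induction_on with
    | H g =>
    induction q' using QuotientGroup.induction_on with
    | H g' =>
    rw [QuotientGroup.eq]
    by_contra hmem
    refine S23.dil_slash_ne_slash N g⁻¹ g'⁻¹ (by simpa using hmem) ?_
    funext z
    have := congrFun h0 z
    simpa [hU, vfOf_mk, sub_eq_zero] using this
  have hprod : ∏ p ∈ (Finset.univ : Finset (SL(2, ℤ) ⧸ Gamma0 N)).offDiag,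
      (fun z => U z p.1 - U z p.2) ≠ 0 := by
    intro h0
    rw [UpperHalfPlane.prod_eq_zero_iff (fun p _ => (hUvf.holo p.1).sub (hUvf.holo p.2))] at h0
    obtain ⟨p, hp, hp0⟩ := h0
    exact hne p.1 p.2 (by simpa using hp) hp0
  obtain ⟨z, hz⟩ := Function.ne_iff.mp hprod
  refine ⟨z, ?_⟩
  have hinj : Function.Injective (fun q => U z q) := by
    intro q q' hqq
    by_contra hne'
    apply hz
    rw [Finset.prod_apply]
    exact Finset.prod_eq_zero (i := (q, q')) (by simpa using hne') (by simpa [sub_eq_zero] using hqq)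
  have hmat : frameMat (fun i z q => U z q ^ (e i : ℕ)) z =
      (Matrix.vandermonde (fun a => U z (e.symm a))).submatrix e e := by
    ext q i
    simp [frameMat, Matrix.vandermonde_apply]
  rw [hmat, Matrix.det_submatrix_equiv_self, Matrix.det_vandermonde_ne_zero_iff]
  exact hinj.comp e.symm.injective

theorem IsVF.slash_eq {Q : Type} [MulAction SL(2, ℤ) Q] {k : ℤ} {F : ℍ → Q → ℂ} (hF : IsVF Q k F)
    (g : SL(2, ℤ)) (q : Q) : (fun z => F z q) ∣[k] g = fun z => F z (g⁻¹ • q) := by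
  funext z
  rw [SL_slash_apply]
  have h := hF.equiv g z (g⁻¹ • q)
  rw [smul_inv_smul] at h
  rw [h, mul_comm, ← mul_assoc, ← zpow_add₀ (denom_ne_zero _ _)]
  simp

/-- the component at the trivial coset of a cuspidal vector valued form. -/
noncomputable def cuspOf (Γ : Subgroup SL(2, ℤ)) [Γ.FiniteIndex] (k : ℤ)
    (Ψ : ℍ → (SL(2, ℤ) ⧸ Γ) → ℂ) (hΨ : IsCuspVF (SL(2, ℤ) ⧸ Γ) k Ψ) : CuspForm Γ k where
  toFun z := Ψ z ((1 : SL(2, ℤ)) : SL(2, ℤ) ⧸ Γ)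
  slash_action_eq' γ hγ := by
    obtain ⟨γ, hγ, rfl⟩ := hγ
    have h := hΨ.toIsVF.slash_eq γ ((1 : SL(2, ℤ)) : SL(2, ℤ) ⧸ Γ)
    have h2 : γ⁻¹ • ((1 : SL(2, ℤ)) : SL(2, ℤ) ⧸ Γ) = ((1 : SL(2, ℤ)) : SL(2, ℤ) ⧸ Γ) := by
      show ((γ⁻¹ * 1 : SL(2, ℤ)) : SL(2, ℤ) ⧸ Γ) = _
      rw [QuotientGroup.eq]
      simpa using hγ
    rw [h2] at h
    exact h
  holo' := hΨ.holo _
  zero_at_cusps' hc := by
    rw [Subgroup.IsArithmetic.isCusp_iff_isCusp_SL2Z] at hc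
    rw [OnePoint.isZeroAt_iff_forall_SL2Z hc]
    intro γ _
    have h := hΨ.toIsVF.slash_eq γ ((1 : SL(2, ℤ)) : SL(2, ℤ) ⧸ Γ)
    show IsZeroAtImInfty ((fun z => Ψ z ((1 : SL(2, ℤ)) : SL(2, ℤ) ⧸ Γ)) ∣[k] γ)
    rw [h]
    exact hΨ.zero _

theorem cuspOf_apply (Γ : Subgroup SL(2, ℤ)) [Γ.FiniteIndex] (k : ℤ)
    (Ψ : ℍ → (SL(2, ℤ) ⧸ Γ) → ℂ) (hΨ : IsCuspVF (SL(2, ℤ) ⧸ Γ) k Ψ) (z : ℍ) :
    cuspOf Γ k Ψ hΨ z = Ψ z ((1 : SL(2, ℤ)) : SL(2, ℤ) ⧸ Γ) := rfl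

theorem exists_cuspForm_of_isCuspVF (Γ : Subgroup SL(2, ℤ)) [Γ.FiniteIndex] (n : ℕ)
    (Ψ : Fin n → ℍ → (SL(2, ℤ) ⧸ Γ) → ℂ) (hΨ : ∀ j, IsCuspVF (SL(2, ℤ) ⧸ Γ) 2 (Ψ j))
    (hlin : LinearIndependent ℂ Ψ) :
    ∃ ψ : Fin n → CuspForm Γ 2, LinearIndependent ℂ ψ := by
  refine ⟨fun j => cuspOf Γ 2 (Ψ j) (hΨ j), ?_⟩
  rw [Fintype.linearIndependent_iff] at hlin ⊢
  intro c hc
  apply hlin c
  have h1 : ∀ z : ℍ, ∑ j, c j * Ψ j z ((1 : SL(2, ℤ)) : SL(2, ℤ) ⧸ Γ) = 0 := by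
    intro z
    have := DFunLike.congr_fun hc z
    simpa [cuspOf_apply] using this
  funext z q
  induction q using QuotientGroup.induction_on with
  | H g =>
    have h2 : ∀ j, Ψ j z (g : SL(2, ℤ) ⧸ Γ) =
        denom g (g⁻¹ • z : ℍ) ^ (2 : ℤ) * Ψ j (g⁻¹ • z) ((1 : SL(2, ℤ)) : SL(2, ℤ) ⧸ Γ) := by
      intro j
      have h := (hΨ j).equiv g (g⁻¹ • z) ((1 : SL(2, ℤ)) : SL(2, ℤ) ⧸ Γ)
      rw [smul_inv_smul] at h
      rw [← h]
      congr 1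
      show _ = ((g * 1 : SL(2, ℤ)) : SL(2, ℤ) ⧸ Γ)
      rw [mul_one]
    simp only [Finset.sum_apply, Pi.smul_apply, smul_eq_mul, Pi.zero_apply, h2]
    have h3 := h1 (g⁻¹ • z)
    calc ∑ j, c j * (denom g (g⁻¹ • z : ℍ) ^ (2 : ℤ) * Ψ j (g⁻¹ • z) ((1 : SL(2, ℤ)) : SL(2, ℤ) ⧸ Γ))
        = denom g (g⁻¹ • z : ℍ) ^ (2 : ℤ) * ∑ j, c j * Ψ j (g⁻¹ • z) ((1 : SL(2, ℤ)) : SL(2, ℤ) ⧸ Γ) := by
          rw [Finset.mul_sum]
          exact Finset.sum_congr rfl fun j _ => by ring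
      _ = 0 := by rw [h3, mul_zero]

end Fermat.Agent.ES
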