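import Mathlib
import Fermat.Agent.ES.Defs

set_option autoImplicit false

open UpperHalfPlane ModularGroup CongruenceSubgroup ModularForm EisensteinSeries
open scoped MatrixGroups Manifold

namespace Fermat.Agent.ES

namespace GroupBound

section Abstract

variable {Q : Type} [MulAction SL(2, ℤ) Q]

/-- pull back of functions on `Q` along the action of `g`. -/
def pb (Q : Type) [MulAction SL(2, ℤ) Q] (g : SL(2, ℤ)) : (Q → ℂ) →ₗ[ℂ] (Q → ℂ) :=
  LinearMap.funLeft ℂ ℂ (fun q => g • q)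

lemma pb_apply (g : SL(2, ℤ)) (v : Q → ℂ) (q : Q) : pb Q g v q = v (g • q) := rfl

lemma pb_mul (g h : SL(2, ℤ)) (v : Q → ℂ) : pb Q (g * h) v = pb Q h (pb Q g v) := by
  ext q
  simp only [pb_apply, mul_smul]

lemma pb_one (v : Q → ℂ) : pb Q 1 v = v := by
  ext q
  simp only [pb_apply, one_smul]

lemma pb_of_trivial {g : SL(2, ℤ)} (hg : ∀ q : Q, g • q = q) (v : Q → ℂ) : pb Q g v = v := by
  ext q
  simp only [pb_apply, hg]

lemma mem_fixSub_iff (g : SL(2, ℤ)) (v : Q → ℂ) : v ∈ fixSub Q g ↔ pb Q g v = v := by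
  constructor
  · intro h
    ext q
    exact h q
  · intro h q
    exact congrFun h q

/-- the (right) cocycle condition. -/
def IsCoc (b : SL(2, ℤ) → (Q → ℂ)) : Prop :=
  ∀ g h, b (g * h) = pb Q h (b g) + b h

lemma IsCoc.one {b : SL(2, ℤ) → (Q → ℂ)} (hb : IsCoc b) : b 1 = 0 := by
  have h := hb 1 1
  rw [mul_one, pb_one] at h
  simpa using h

lemma IsCoc.inv {b : SL(2, ℤ) → (Q → ℂ)} (hb : IsCoc b) {g : SL(2, ℤ)} (hg : b g = 0) :
    b g⁻¹ = 0 := by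
  have h := hb g g⁻¹
  rw [mul_inv_cancel, hb.one, hg, map_zero, zero_add] at h
  exact h.symm

lemma IsCoc.eq_zero {b : SL(2, ℤ) → (Q → ℂ)} (hb : IsCoc b) (hS : b S = 0) (hT : b T = 0)
    (g : SL(2, ℤ)) : b g = 0 := by
  have hg : g ∈ Subgroup.closure ({S, T} : Set SL(2, ℤ)) := by
    rw [SpecialLinearGroup.SL2Z_generators]
    exact Subgroup.mem_top g
  induction hg using Subgroup.closure_induction with
  | mem x hx =>
    rcases hx with rfl | hx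
    · exact hS
    · rw [Set.mem_singleton_iff] at hx
      rw [hx]; exact hT
  | one => exact hb.one
  | mul x y _ _ hx hy => rw [hb x y, hx, hy, map_zero, add_zero]
  | inv x _ hx => exact hb.inv hx

lemma IsCoc.pow {b : SL(2, ℤ) → (Q → ℂ)} (hb : IsCoc b) (g : SL(2, ℤ)) (n : ℕ) :
    b (g ^ n) = ∑ j ∈ Finset.range n, ((pb Q g) ^ j) (b g) := by
  induction n with
  | zero => simpa using hb.one
  | succ n ih =>
    rw [pow_succ, hb, ih, map_sum, Finset.sum_range_succ', pow_zero, Module.End.one_apply]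
    congr 1
    refine Finset.sum_congr rfl fun j _ => ?_
    rw [pow_succ', Module.End.mul_apply]

end Abstract

section Concrete

variable (Γ : Subgroup SL(2, ℤ))

/-- the `Γ`-valued cocycle attached to the section `Quotient.out`. -/
noncomputable def gam (g : SL(2, ℤ)) (q : SL(2, ℤ) ⧸ Γ) : Γ :=
  ⟨(Quotient.out (g • q))⁻¹ * (g * Quotient.out q), by
    rw [← QuotientGroup.eq, QuotientGroup.out_eq']
    conv_lhs => rw [← QuotientGroup.out_eq' q]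
    rfl⟩

lemma gam_mul (g h : SL(2, ℤ)) (q : SL(2, ℤ) ⧸ Γ) :
    gam Γ (g * h) q = gam Γ g (h • q) * gam Γ h q := by
  apply Subtype.ext
  simp only [gam, mul_smul, Subgroup.coe_mul]
  group

/-- the cocycle attached to a homomorphism `φ : Γ → ℂ`. -/
noncomputable def coc (φ : Additive Γ →+ ℂ) (g : SL(2, ℤ)) : (SL(2, ℤ) ⧸ Γ) → ℂ :=
  fun q => φ (Additive.ofMul (gam Γ g q))

lemma coc_isCoc (φ : Additive Γ →+ ℂ) : IsCoc (coc Γ φ) := by
  intro g h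
  ext q
  simp only [coc, gam_mul, ofMul_mul, map_add, Pi.add_apply, pb_apply]

/-- the cocycle attached to a homomorphism plus a coboundary. -/
noncomputable def bb (φ : Additive Γ →+ ℂ) (v : (SL(2, ℤ) ⧸ Γ) → ℂ) (g : SL(2, ℤ)) :
    (SL(2, ℤ) ⧸ Γ) → ℂ :=
  coc Γ φ g + pb _ g v - v

lemma bb_isCoc (φ : Additive Γ →+ ℂ) (v : (SL(2, ℤ) ⧸ Γ) → ℂ) : IsCoc (bb Γ φ v) := by
  intro g h
  simp only [bb, coc_isCoc Γ φ g h, pb_mul, map_add, map_sub]
  abel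

lemma trace_gam {g : SL(2, ℤ)} {q : SL(2, ℤ) ⧸ Γ} (hg : g • q = q) :
    (((gam Γ g q : Γ) : SL(2, ℤ)) : Matrix (Fin 2) (Fin 2) ℤ).trace
      = (g : Matrix (Fin 2) (Fin 2) ℤ).trace := by
  simp only [gam, hg]
  rw [Matrix.SpecialLinearGroup.coe_mul, Matrix.trace_mul_comm,
    ← Matrix.SpecialLinearGroup.coe_mul, mul_inv_cancel_right]

lemma bb_eq_zero_of_trivial {φ : Additive Γ →+ ℂ}
    (hφ : φ ∈ ModularCurve.Period.parabolicHoms ℂ Γ ℂ) (v : (SL(2, ℤ) ⧸ Γ) → ℂ)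
    {g : SL(2, ℤ)} (hg : ∀ q : SL(2, ℤ) ⧸ Γ, g • q = q)
    (htr : (g : Matrix (Fin 2) (Fin 2) ℤ).trace ^ 2 = 4) : bb Γ φ v g = 0 := by
  ext q
  simp only [bb, Pi.add_apply, Pi.sub_apply, pb_apply, hg, Pi.zero_apply, coc]
  rw [hφ (gam Γ g q) (by rw [trace_gam Γ (hg q)]; exact htr)]
  ring

lemma phi_eq_coc (φ : Additive Γ →+ ℂ) (γ : Γ) :
    ∃ g : SL(2, ℤ), g • ((1 : SL(2, ℤ)) : SL(2, ℤ) ⧸ Γ) = ((1 : SL(2, ℤ)) : SL(2, ℤ) ⧸ Γ) ∧
      coc Γ φ g ((1 : SL(2, ℤ)) : SL(2, ℤ) ⧸ Γ) = φ (Additive.ofMul γ) := by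
  set q0 : SL(2, ℤ) ⧸ Γ := ((1 : SL(2, ℤ)) : SL(2, ℤ) ⧸ Γ) with hq0
  set r0 : SL(2, ℤ) := Quotient.out q0 with hr0
  have hr0mem : r0 ∈ Γ := by
    have h : ((r0 : SL(2, ℤ)) : SL(2, ℤ) ⧸ Γ) = ((1 : SL(2, ℤ)) : SL(2, ℤ) ⧸ Γ) :=
      QuotientGroup.out_eq' q0
    rw [QuotientGroup.eq] at h
    simpa using Γ.inv_mem h
  have hfix : (r0 * γ * r0⁻¹) • q0 = q0 := by
    have hmem : r0 * γ * r0⁻¹ ∈ Γ := Γ.mul_mem (Γ.mul_mem hr0mem γ.2) (Γ.inv_mem hr0mem)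
    rw [hq0]
    change (((r0 * γ * r0⁻¹) * 1 : SL(2, ℤ)) : SL(2, ℤ) ⧸ Γ) = _
    rw [QuotientGroup.eq]
    simpa using Γ.inv_mem hmem
  refine ⟨r0 * γ * r0⁻¹, hfix, ?_⟩
  simp only [coc]
  congr 2
  apply Subtype.ext
  simp only [gam, hfix]
  rw [← hr0]
  group

end Concrete

section Matrices

lemma S_mul_S : (S * S : SL(2, ℤ)) = -1 := by
  decide

lemma ST_cube : ((S * T) * (S * T) * (S * T) : SL(2, ℤ)) = -1 := by
  decide

lemma trace_neg_one : ((-1 : SL(2, ℤ)) : Matrix (Fin 2) (Fin 2) ℤ).trace ^ 2 = 4 := by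
  simp

lemma trace_T_pow (n : ℕ) : ((T ^ n : SL(2, ℤ)) : Matrix (Fin 2) (Fin 2) ℤ).trace ^ 2 = 4 := by
  have h := ModularGroup.coe_T_zpow (n : ℤ)
  rw [zpow_natCast] at h
  rw [h]
  simp [Matrix.trace_fin_two]

lemma neg_one_smul_quot (Γ : Subgroup SL(2, ℤ)) (hneg : -1 ∈ Γ) (q : SL(2, ℤ) ⧸ Γ) :
    (-1 : SL(2, ℤ)) • q = q := by
  induction q using QuotientGroup.induction_on with
  | H g =>
    change (((-1 : SL(2, ℤ)) * g : SL(2, ℤ)) : SL(2, ℤ) ⧸ Γ) = _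
    rw [QuotientGroup.eq]
    have : ((-1 : SL(2, ℤ)) * g)⁻¹ * g = -1 := by
      have h1 : ((-1 : SL(2, ℤ)) * g) = g * (-1) := by simp
      rw [h1, mul_inv_rev, mul_assoc, inv_mul_cancel, mul_one, inv_eq_iff_mul_eq_one]
      simp
    rw [this]
    exact hneg

lemma exists_T_pow_trivial (Q : Type) [MulAction SL(2, ℤ) Q] [Finite Q] :
    ∃ n : ℕ, 0 < n ∧ ∀ q : Q, (T ^ n : SL(2, ℤ)) • q = q := by
  refine ⟨orderOf (MulAction.toPermHom SL(2, ℤ) Q T), orderOf_pos _, fun q => ?_⟩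
  have h := pow_orderOf_eq_one (MulAction.toPermHom SL(2, ℤ) Q T)
  rw [← map_pow] at h
  have h2 := congrArg (fun e : Equiv.Perm Q => e q) h
  simpa using h2

end Matrices

section LinAlg

variable {V : Type} [AddCommGroup V] [Module ℂ V] [FiniteDimensional ℂ V]

lemma finrank_ker_add_le (P : V →ₗ[ℂ] V) (F : Submodule ℂ V) (h : F ≤ LinearMap.range P) :
    Module.finrank ℂ (LinearMap.ker P) + Module.finrank ℂ F ≤ Module.finrank ℂ V := by
  have h1 := LinearMap.finrank_range_add_finrank_ker P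
  have h2 := Submodule.finrank_mono h
  omega

lemma finrank_comap_le {E : Type} [AddCommGroup E] [Module ℂ E] [FiniteDimensional ℂ E]
    (f : E →ₗ[ℂ] V) (Z : Submodule ℂ V) :
    Module.finrank ℂ (Z.comap f) + Module.finrank ℂ (LinearMap.range f)
      ≤ Module.finrank ℂ E + Module.finrank ℂ Z := by
  set W := Z.comap f with hW
  set f' : W →ₗ[ℂ] V := f.domRestrict W with hf'
  have h1 := LinearMap.finrank_range_add_finrank_ker f'
  have h2 := LinearMap.finrank_range_add_finrank_ker f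
  have h3 : Module.finrank ℂ (LinearMap.range f') ≤ Module.finrank ℂ Z := by
    apply Submodule.finrank_mono
    rintro _ ⟨w, rfl⟩
    exact w.2
  have h4 : Module.finrank ℂ (LinearMap.ker f') ≤ Module.finrank ℂ (LinearMap.ker f) := by
    let ι : LinearMap.ker f' →ₗ[ℂ] LinearMap.ker f :=
      LinearMap.codRestrict _ (W.subtype.comp (LinearMap.ker f').subtype) (by
        intro x
        have := x.2
        rw [LinearMap.mem_ker] at this ⊢
        exact this)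
    apply LinearMap.finrank_le_finrank_of_injective (f := ι)
    intro x y hxy
    have := congrArg (fun z : LinearMap.ker f => (z : E)) hxy
    exact Subtype.ext (Subtype.ext this)
  omega

lemma abstract_count {H E : Type} [AddCommGroup H] [Module ℂ H]
    [AddCommGroup E] [Module ℂ E] [FiniteDimensional ℂ E]
    (f : E →ₗ[ℂ] V) (Z : Submodule ℂ V) (θ : (H × V) →ₗ[ℂ] E) (ev : V →ₗ[ℂ] ℂ)
    (hθ : ∀ x, f (θ x) ∈ Z) (hinj : ∀ x, θ x = 0 → ev x.2 = 0 → x = 0) :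
    Module.Finite ℂ H ∧
      Module.finrank ℂ H + Module.finrank ℂ V + Module.finrank ℂ (LinearMap.range f)
        ≤ Module.finrank ℂ E + Module.finrank ℂ Z + 1 := by
  let θ' : (H × V) →ₗ[ℂ] ((Z.comap f) × ℂ) :=
    (LinearMap.codRestrict (Z.comap f) θ hθ).prod (ev.comp (LinearMap.snd _ _ _))
  have hθ' : Function.Injective θ' := by
    rw [injective_iff_map_eq_zero]
    intro x hx
    apply hinj x
    · exact congrArg (fun z : (Z.comap f) × ℂ => (z.1 : E)) hx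
    · exact congrArg (fun z : (Z.comap f) × ℂ => z.2) hx
  have hfin : Module.Finite ℂ H :=
    Module.Finite.of_injective (θ'.comp (LinearMap.inl _ _ _))
      (hθ'.comp LinearMap.inl_injective)
  refine ⟨hfin, ?_⟩
  have e1 := LinearMap.finrank_le_finrank_of_injective hθ'
  rw [Module.finrank_prod, Module.finrank_prod, Module.finrank_self] at e1
  have e2 := finrank_comap_le f Z
  omega

end LinAlg

section Operators

variable {Q : Type} [MulAction SL(2, ℤ) Q]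

lemma pb_pow (g : SL(2, ℤ)) (n : ℕ) : (pb Q g) ^ n = pb Q (g ^ n) := by
  induction n with
  | zero =>
    ext v q
    simp [pb_one]
  | succ n ih =>
    apply LinearMap.ext
    intro v
    rw [pow_succ', Module.End.mul_apply, ih, pow_succ, pb_mul]

/-- `1 + S`. -/
def PS (Q : Type) [MulAction SL(2, ℤ) Q] : (Q → ℂ) →ₗ[ℂ] (Q → ℂ) := LinearMap.id + pb Q S

/-- `1 + U + U ^ 2`, `U = S T`. -/
def PU (Q : Type) [MulAction SL(2, ℤ) Q] : (Q → ℂ) →ₗ[ℂ] (Q → ℂ) :=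
  LinearMap.id + pb Q (S * T) + (pb Q (S * T)).comp (pb Q (S * T))

/-- `1 + T + ... + T ^ (n - 1)`. -/
def PT (Q : Type) [MulAction SL(2, ℤ) Q] (n : ℕ) : (Q → ℂ) →ₗ[ℂ] (Q → ℂ) :=
  ∑ j ∈ Finset.range n, (pb Q T) ^ j

lemma fixSub_le_range_PS : fixSub Q S ≤ LinearMap.range (PS Q) := by
  intro v hv
  rw [mem_fixSub_iff] at hv
  refine ⟨(1 / 2 : ℂ) • v, ?_⟩
  simp only [PS, LinearMap.add_apply, LinearMap.id_apply, map_smul, hv]
  ext q
  simp only [Pi.smul_apply, Pi.add_apply, smul_eq_mul]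
  ring

lemma fixSub_le_range_PU : fixSub Q (S * T) ≤ LinearMap.range (PU Q) := by
  intro v hv
  rw [mem_fixSub_iff] at hv
  refine ⟨(1 / 3 : ℂ) • v, ?_⟩
  simp only [PU, LinearMap.add_apply, LinearMap.id_apply, map_smul, hv, LinearMap.comp_apply]
  ext q
  simp only [Pi.smul_apply, Pi.add_apply, smul_eq_mul]
  ring

lemma fixSub_le_range_PT {n : ℕ} (hn : 0 < n) : fixSub Q T ≤ LinearMap.range (PT Q n) := by
  intro v hv
  rw [mem_fixSub_iff] at hv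
  have hpow : ∀ j : ℕ, ((pb Q T) ^ j) v = v := by
    intro j
    induction j with
    | zero => simp
    | succ j ih => rw [pow_succ, Module.End.mul_apply, hv, ih]
  refine ⟨(1 / n : ℂ) • v, ?_⟩
  simp only [PT, LinearMap.sum_apply, map_smul, hpow, Finset.sum_const, Finset.card_range]
  rw [← Nat.cast_smul_eq_nsmul ℂ, smul_smul]
  have : (n : ℂ) ≠ 0 := Nat.cast_ne_zero.mpr hn.ne'
  field_simp
  simp

lemma PS_sub (hneg : ∀ q : Q, (-1 : SL(2, ℤ)) • q = q) (v : Q → ℂ) :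
    PS Q (v - pb Q S v) = 0 := by
  simp only [PS, LinearMap.add_apply, LinearMap.id_apply, map_sub]
  rw [← pb_mul, S_mul_S, pb_of_trivial hneg]
  abel

lemma PT_sub {n : ℕ} (hn : ∀ q : Q, (T ^ n : SL(2, ℤ)) • q = q) (v : Q → ℂ) :
    PT Q n (v - pb Q T v) = 0 := by
  have h := geom_sum_mul_neg (pb Q T : Module.End ℂ (Q → ℂ)) n
  have h2 := congrArg (fun e : Module.End ℂ (Q → ℂ) => e v) h
  simp only [Module.End.mul_apply, LinearMap.sub_apply, Module.End.one_apply] at h2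
  rw [pb_pow, pb_of_trivial hn, sub_self] at h2
  exact h2

end Operators

section Codim

variable {Q : Type} [MulAction SL(2, ℤ) Q]

/-- the map `(x, y) ↦ T x + y` on `ker (1 + S) × ker (1 + T + ... )`. -/
def fXY (Q : Type) [MulAction SL(2, ℤ) Q] (n : ℕ) :
    (LinearMap.ker (PS Q) × LinearMap.ker (PT Q n)) →ₗ[ℂ] (Q → ℂ) :=
  ((pb Q T).comp (LinearMap.ker (PS Q)).subtype).coprod (LinearMap.ker (PT Q n)).subtype

lemma fXY_apply (n : ℕ) (x : LinearMap.ker (PS Q)) (y : LinearMap.ker (PT Q n)) :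
    fXY Q n (x, y) = pb Q T (x : Q → ℂ) + (y : Q → ℂ) := rfl

lemma finrank_le_range_fXY [Finite Q] [MulAction.IsPretransitive SL(2, ℤ) Q] [Nonempty Q]
    (hneg : ∀ q : Q, (-1 : SL(2, ℤ)) • q = q) {n : ℕ}
    (hn : ∀ q : Q, (T ^ n : SL(2, ℤ)) • q = q) :
    Module.finrank ℂ (Q → ℂ) ≤ Module.finrank ℂ (LinearMap.range (fXY Q n)) + 1 := by
  classical
  have := Fintype.ofFinite Q
  set M := LinearMap.range (fXY Q n) with hM
  have hq := Submodule.finrank_quotient_add_finrank M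
  have hT : ∀ v : Q → ℂ, M.mkQ (pb Q T v) = M.mkQ v := by
    intro v
    symm
    rw [← sub_eq_zero, ← map_sub, Submodule.mkQ_apply, Submodule.Quotient.mk_eq_zero]
    refine ⟨(0, ⟨v - pb Q T v, PT_sub hn v⟩), ?_⟩
    rw [fXY_apply]
    simp
  have hS : ∀ v : Q → ℂ, M.mkQ (pb Q S v) = M.mkQ v := by
    intro v
    rw [← hT (pb Q S v), ← hT v]
    symm
    rw [← sub_eq_zero, ← map_sub, Submodule.mkQ_apply, Submodule.Quotient.mk_eq_zero]
    refine ⟨(⟨v - pb Q S v, PS_sub hneg v⟩, 0), ?_⟩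
    rw [fXY_apply]
    simp
  have hall : ∀ (g : SL(2, ℤ)) (v : Q → ℂ), M.mkQ (pb Q g v) = M.mkQ v := by
    intro g
    have hg : g ∈ Subgroup.closure ({S, T} : Set SL(2, ℤ)) := by
      rw [SpecialLinearGroup.SL2Z_generators]
      exact Subgroup.mem_top g
    induction hg using Subgroup.closure_induction with
    | mem x hx =>
      rcases hx with rfl | hx
      · exact hS
      · rw [Set.mem_singleton_iff] at hx
        rw [hx]; exact hT
    | one => intro v; rw [pb_one]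
    | mul x y _ _ hx hy => intro v; rw [pb_mul, hy, hx]
    | inv x _ hx =>
      intro v
      rw [← hx (pb Q x⁻¹ v), ← pb_mul, inv_mul_cancel, pb_one]
  obtain ⟨q0⟩ := ‹Nonempty Q›
  have hsingle : ∀ q : Q, M.mkQ (fun j => if q = j then (1 : ℂ) else 0)
      = M.mkQ (fun j => if q0 = j then (1 : ℂ) else 0) := by
    intro q
    obtain ⟨g, hg⟩ := MulAction.exists_smul_eq SL(2, ℤ) q q0
    rw [← hall g (fun j => if q0 = j then (1 : ℂ) else 0)]
    congr 1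
    ext j
    simp only [pb_apply]
    by_cases h : q = j
    · subst h
      simp [hg]
    · have : q0 ≠ g • j := by
        intro h'
        apply h
        rw [← hg] at h'
        exact smul_left_cancel g h'
      simp [h, this]
  have hle : Module.finrank ℂ ((Q → ℂ) ⧸ M) ≤ 1 := by
    apply finrank_le_one (M.mkQ (fun j => if q0 = j then (1 : ℂ) else 0))
    intro w
    obtain ⟨v, rfl⟩ := M.mkQ_surjective w
    refine ⟨∑ q, v q, ?_⟩
    rw [LinearMap.pi_apply_eq_sum_univ M.mkQ v, Finset.sum_smul]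
    refine Finset.sum_congr rfl fun q _ => ?_
    rw [hsingle q]
  omega

end Codim

section Main

variable (Γ : Subgroup SL(2, ℤ))

/-- `bb` as a linear map in `(φ, v)`. -/
noncomputable def bbL (g : SL(2, ℤ)) :
    ((ModularCurve.Period.parabolicHoms ℂ Γ ℂ) × ((SL(2, ℤ) ⧸ Γ) → ℂ)) →ₗ[ℂ]
      ((SL(2, ℤ) ⧸ Γ) → ℂ) where
  toFun x := bb Γ (x.1 : Additive Γ →+ ℂ) x.2 g
  map_add' x y := by
    ext q
    simp only [bb, coc, Prod.fst_add, Prod.snd_add, Submodule.coe_add, AddMonoidHom.add_apply,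
      Pi.add_apply, Pi.sub_apply, map_add]
    ring
  map_smul' c x := by
    ext q
    simp only [bb, coc, Prod.smul_fst, Prod.smul_snd, Submodule.coe_smul, AddMonoidHom.smul_apply,
      Pi.add_apply, Pi.sub_apply, map_smul, Pi.smul_apply, RingHom.id_apply, smul_eq_mul]
    ring

lemma bbL_apply (g : SL(2, ℤ))
    (x : (ModularCurve.Period.parabolicHoms ℂ Γ ℂ) × ((SL(2, ℤ) ⧸ Γ) → ℂ)) :
    bbL Γ g x = bb Γ (x.1 : Additive Γ →+ ℂ) x.2 g := rfl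

variable {Γ}

lemma PS_bb (hneg : -1 ∈ Γ) {φ : Additive Γ →+ ℂ}
    (hφ : φ ∈ ModularCurve.Period.parabolicHoms ℂ Γ ℂ) (v : (SL(2, ℤ) ⧸ Γ) → ℂ) :
    PS _ (bb Γ φ v S) = 0 := by
  have h := bb_isCoc Γ φ v S S
  rw [S_mul_S, bb_eq_zero_of_trivial Γ hφ v (neg_one_smul_quot Γ hneg) trace_neg_one] at h
  simp only [PS, LinearMap.add_apply, LinearMap.id_apply]
  rw [add_comm]
  exact h.symm

lemma PU_bb (hneg : -1 ∈ Γ) {φ : Additive Γ →+ ℂ}
    (hφ : φ ∈ ModularCurve.Period.parabolicHoms ℂ Γ ℂ) (v : (SL(2, ℤ) ⧸ Γ) → ℂ) :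
    PU _ (bb Γ φ v (S * T)) = 0 := by
  have h1 := bb_isCoc Γ φ v (S * T) (S * T)
  have h := bb_isCoc Γ φ v ((S * T) * (S * T)) (S * T)
  rw [ST_cube, bb_eq_zero_of_trivial Γ hφ v (neg_one_smul_quot Γ hneg) trace_neg_one, h1,
    map_add] at h
  simp only [PU, LinearMap.add_apply, LinearMap.id_apply, LinearMap.comp_apply]
  rw [h]
  abel

lemma PT_bb {φ : Additive Γ →+ ℂ}
    (hφ : φ ∈ ModularCurve.Period.parabolicHoms ℂ Γ ℂ) (v : (SL(2, ℤ) ⧸ Γ) → ℂ) {n : ℕ}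
    (hn : ∀ q : SL(2, ℤ) ⧸ Γ, (T ^ n : SL(2, ℤ)) • q = q) :
    PT _ n (bb Γ φ v T) = 0 := by
  have h := (bb_isCoc Γ φ v).pow T n
  rw [bb_eq_zero_of_trivial Γ hφ v hn (trace_T_pow n)] at h
  simp only [PT, LinearMap.sum_apply]
  exact h.symm

/-- the map `(φ, v) ↦ (b(S), b(T))`. -/
noncomputable def theta (hneg : -1 ∈ Γ) {n : ℕ}
    (hn : ∀ q : SL(2, ℤ) ⧸ Γ, (T ^ n : SL(2, ℤ)) • q = q) :
    ((ModularCurve.Period.parabolicHoms ℂ Γ ℂ) × ((SL(2, ℤ) ⧸ Γ) → ℂ)) →ₗ[ℂ]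
      (LinearMap.ker (PS (SL(2, ℤ) ⧸ Γ)) × LinearMap.ker (PT (SL(2, ℤ) ⧸ Γ) n)) :=
  (LinearMap.codRestrict _ (bbL Γ S) (fun x => PS_bb hneg x.1.2 x.2)).prod
    (LinearMap.codRestrict _ (bbL Γ T) (fun x => PT_bb x.1.2 x.2 hn))

lemma fXY_theta (hneg : -1 ∈ Γ) {n : ℕ}
    (hn : ∀ q : SL(2, ℤ) ⧸ Γ, (T ^ n : SL(2, ℤ)) • q = q)
    (x : (ModularCurve.Period.parabolicHoms ℂ Γ ℂ) × ((SL(2, ℤ) ⧸ Γ) → ℂ)) :
    fXY _ n (theta hneg hn x) = bb Γ (x.1 : Additive Γ →+ ℂ) x.2 (S * T) := by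
  rw [bb_isCoc Γ _ _ S T]
  rfl

lemma theta_injective (hneg : -1 ∈ Γ) {n : ℕ}
    (hn : ∀ q : SL(2, ℤ) ⧸ Γ, (T ^ n : SL(2, ℤ)) • q = q)
    (x : (ModularCurve.Period.parabolicHoms ℂ Γ ℂ) × ((SL(2, ℤ) ⧸ Γ) → ℂ))
    (h : theta hneg hn x = 0) (h3 : x.2 ((1 : SL(2, ℤ)) : SL(2, ℤ) ⧸ Γ) = 0) : x = 0 := by
  obtain ⟨⟨φ, hφ⟩, v⟩ := x
  have h1 : bb Γ φ v S = 0 := by
    have := congrArg (fun z : LinearMap.ker (PS (SL(2, ℤ) ⧸ Γ)) ×
      LinearMap.ker (PT (SL(2, ℤ) ⧸ Γ) n) => (z.1 : (SL(2, ℤ) ⧸ Γ) → ℂ)) h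
    exact this
  have h2 : bb Γ φ v T = 0 := by
    have := congrArg (fun z : LinearMap.ker (PS (SL(2, ℤ) ⧸ Γ)) ×
      LinearMap.ker (PT (SL(2, ℤ) ⧸ Γ) n) => (z.2 : (SL(2, ℤ) ⧸ Γ) → ℂ)) h
    exact this
  simp only at h3
  have hall := (bb_isCoc Γ φ v).eq_zero h1 h2
  have hφ0 : φ = 0 := by
    apply AddMonoidHom.ext
    intro γ
    obtain ⟨g, hg1, hg2⟩ := phi_eq_coc Γ φ (Additive.toMul γ)
    have := congrFun (hall g) ((1 : SL(2, ℤ)) : SL(2, ℤ) ⧸ Γ)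
    simp only [bb, Pi.add_apply, Pi.sub_apply, pb_apply, hg1, hg2, Pi.zero_apply] at this
    simpa using this
  have hv0 : v = 0 := by
    ext q
    obtain ⟨g, hg⟩ := MulAction.exists_smul_eq SL(2, ℤ) (((1 : SL(2, ℤ)) : SL(2, ℤ) ⧸ Γ)) q
    have := congrFun (hall g) ((1 : SL(2, ℤ)) : SL(2, ℤ) ⧸ Γ)
    simp only [bb, Pi.add_apply, Pi.sub_apply, pb_apply, hg, Pi.zero_apply, hφ0, coc,
      AddMonoidHom.zero_apply, h3] at this
    simpa using this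
  subst hφ0
  subst hv0
  rfl

end Main

end GroupBound

open GroupBound in
theorem finrank_parabolicHoms_le (Γ : Subgroup SL(2, ℤ)) [Γ.FiniteIndex] (hneg : -1 ∈ Γ) :
    Module.Finite ℂ (ModularCurve.Period.parabolicHoms ℂ Γ ℂ) ∧
    Module.finrank ℂ (ModularCurve.Period.parabolicHoms ℂ Γ ℂ) + fixDim (SL(2, ℤ) ⧸ Γ) S
      + fixDim (SL(2, ℤ) ⧸ Γ) (S * T) + fixDim (SL(2, ℤ) ⧸ Γ) T ≤ Γ.index + 2 := by
  classical
  have : Finite (SL(2, ℤ) ⧸ Γ) := Subgroup.finite_quotient_of_finiteIndex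
  have := Fintype.ofFinite (SL(2, ℤ) ⧸ Γ)
  obtain ⟨n, hn0, hn⟩ := exists_T_pow_trivial (SL(2, ℤ) ⧸ Γ)
  have hμ : Module.finrank ℂ ((SL(2, ℤ) ⧸ Γ) → ℂ) = Γ.index := by
    rw [Module.finrank_fintype_fun_eq_card, Subgroup.index, Nat.card_eq_fintype_card]
  obtain ⟨hfin, e1⟩ := abstract_count (fXY (SL(2, ℤ) ⧸ Γ) n) (LinearMap.ker (PU (SL(2, ℤ) ⧸ Γ)))
    (theta hneg hn) (LinearMap.proj (((1 : SL(2, ℤ)) : SL(2, ℤ) ⧸ Γ)))
    (fun x => by
      rw [fXY_theta, LinearMap.mem_ker]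
      exact PU_bb hneg x.1.2 x.2)
    (fun x h h3 => theta_injective hneg hn x h h3)
  refine ⟨hfin, ?_⟩
  rw [Module.finrank_prod, hμ] at e1
  have e3 := finrank_le_range_fXY (neg_one_smul_quot Γ hneg) hn
  rw [hμ] at e3
  have e4 := finrank_ker_add_le (PS (SL(2, ℤ) ⧸ Γ)) _ fixSub_le_range_PS
  have e5 := finrank_ker_add_le (PU (SL(2, ℤ) ⧸ Γ)) _ fixSub_le_range_PU
  have e6 := finrank_ker_add_le (PT (SL(2, ℤ) ⧸ Γ) n) _ (fixSub_le_range_PT hn0)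
  rw [hμ] at e4 e5 e6
  simp only [fixDim]
  omega

end Fermat.Agent.ES
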