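import Mathlib

set_option autoImplicit false

open UpperHalfPlane ModularGroup Filter Topology Function Complex
open scoped MatrixGroups Manifold Real

namespace Fermat.Agent.ES.Inj

local notation "𝕢" => Periodic.qParam

theorem tendsto_T_zpow_smul (n : ℤ) :
    Tendsto (fun w : ℍ => (T ^ n) • w) atImInfty atImInfty := by
  rw [atImInfty, tendsto_comap_iff]
  have : (UpperHalfPlane.im ∘ fun w : ℍ => (T ^ n) • w) = UpperHalfPlane.im := by
    ext w
    exact ModularGroup.im_T_zpow_smul w n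
  rw [this]
  exact tendsto_comap

theorem mdiff_comp_smul {A : ℍ → ℂ} (hA : MDiff A) (δ : SL(2, ℤ)) :
    MDiff (fun z : ℍ => A (δ • z)) := by
  have h : MDiff (fun τ : ℍ ↦ ((δ : SL(2, ℤ)) : GL (Fin 2) ℝ) • τ) :=
    mdifferentiable_smul (by simp)
  exact hA.comp h

theorem mdiff_cexp {A : ℍ → ℂ} (hA : MDiff A) : MDiff (fun z : ℍ => Complex.exp (A z)) := by
  rw [mdifferentiable_iff] at hA ⊢
  exact hA.cexp

/-- Maximum principle on a modular curve. -/
theorem exp_const_of_invariant (Γ : Subgroup SL(2, ℤ)) [Γ.FiniteIndex] (A : ℍ → ℂ) (hA : MDiff A)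
    (hinv : ∀ γ ∈ Γ, ∃ c : ℂ, c.re = 0 ∧ ∀ z : ℍ, A (γ • z) = A z + c)
    (hlim : ∀ δ : SL(2, ℤ), ∃ L : ℂ, Tendsto (fun w : ℍ => A (δ • w)) atImInfty (𝓝 L)) :
    ∃ c : ℂ, ∀ z : ℍ, Complex.exp (A z) = c := by
  classical
  -- the period
  obtain ⟨n, hn0, -, hn⟩ := Subgroup.exists_pow_mem_of_index_ne_zero
    (Subgroup.FiniteIndex.index_ne_zero (H := Γ.normalCore)) (T : SL(2, ℤ))
  have hnR : (0 : ℝ) < n := by exact_mod_cast hn0
  let E : SL(2, ℤ) → ℍ → ℂ := fun δ z => Complex.exp (A (δ • z))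
  have hEdiff : ∀ δ, MDiff (E δ) := fun δ => mdiff_cexp (mdiff_comp_smul hA δ)
  have hEbdd : ∀ δ, IsBoundedAtImInfty (E δ) := by
    intro δ
    obtain ⟨L, hL⟩ := hlim δ
    have : Tendsto (E δ) atImInfty (𝓝 (Complex.exp L)) :=
      (Complex.continuous_exp.tendsto L).comp hL
    exact this.isBigO_one ℝ
  -- translation invariance
  have hAper : ∀ δ : SL(2, ℤ), ∀ z : ℍ, A (δ • ((T ^ (n : ℤ)) • z)) = A (δ • z) := by
    intro δ
    have hmem : δ * T ^ n * δ⁻¹ ∈ Γ :=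
      Γ.normalCore_le (Γ.normalCore_normal.conj_mem _ hn δ)
    obtain ⟨c, -, hc⟩ := hinv _ hmem
    obtain ⟨L, hL⟩ := hlim δ
    have h1 : ∀ z : ℍ, A (δ • ((T ^ (n : ℤ)) • z)) = A (δ • z) + c := by
      intro z
      rw [← hc (δ • z), ← mul_smul, ← mul_smul, zpow_natCast]
      congr 2
      group
    have h2 : Tendsto (fun z : ℍ => A (δ • ((T ^ (n : ℤ)) • z))) atImInfty (𝓝 L) :=
      hL.comp (tendsto_T_zpow_smul n)
    have h3 : Tendsto (fun z : ℍ => A (δ • ((T ^ (n : ℤ)) • z))) atImInfty (𝓝 (L + c)) := by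
      simp only [h1]
      exact hL.add_const c
    have h4 : L = L + c := tendsto_nhds_unique h2 h3
    have hc0 : c = 0 := by
      have := h4.symm
      simpa using this
    intro z
    rw [h1 z, hc0, add_zero]
  have hEper : ∀ δ, Periodic (E δ ∘ ofComplex) (n : ℝ) := by
    intro δ w
    by_cases! hw : 0 < im w
    · have hw' : 0 < im (w + (n : ℝ)) := by simp [hw]
      simp only [comp_apply, ofComplex_apply_of_im_pos hw', ofComplex_apply_of_im_pos hw, E]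
      rw [← hAper δ ⟨w, hw⟩]
      congr 3
      ext
      rw [ModularGroup.coe_T_zpow_smul_eq]
      simp
    · have hw' : im (w + (n : ℝ)) ≤ 0 := by simpa using hw
      simp only [comp_apply]
      rw [ofComplex_apply_of_im_nonpos hw', ofComplex_apply_of_im_nonpos hw]
  let e : SL(2, ℤ) → ℂ → ℂ := fun δ => cuspFunction n (E δ)
  have hediff : ∀ δ, DifferentiableOn ℂ (e δ) (Metric.ball 0 1) := fun δ =>
    differentiableOn_cuspFunction_ball hnR (hEper δ) (hEdiff δ) (hEbdd δ)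
  have he : ∀ δ (τ : ℍ), e δ (𝕢 n τ) = E δ τ := fun δ τ =>
    eq_cuspFunction τ hnR.ne' (hEper δ)
  set r : ℝ := Real.exp (-π / n) with hr
  have hr0 : 0 ≤ r := (Real.exp_pos _).le
  have hr1 : r < 1 := by
    rw [hr, Real.exp_lt_one_iff]
    exact div_neg_of_neg_of_pos (by simpa using Real.pi_pos) hnR
  have hqr : ∀ τ : ℍ, 1 / 2 ≤ τ.im → 𝕢 n τ ∈ Metric.closedBall (0 : ℂ) r := by
    intro τ hτ
    rw [mem_closedBall_zero_iff, Periodic.norm_qParam, hr, Real.exp_le_exp]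
    rw [div_le_div_iff_of_pos_right hnR]
    have : τ.im = (τ : ℂ).im := rfl
    nlinarith [Real.pi_pos]
  -- maxima on the closed ball
  have hmax : ∀ δ, ∃ x ∈ Metric.closedBall (0 : ℂ) r,
      IsMaxOn (norm ∘ e δ) (Metric.closedBall (0 : ℂ) r) x := fun δ =>
    (isCompact_closedBall (0 : ℂ) r).exists_isMaxOn (Metric.nonempty_closedBall.mpr hr0)
      ((hediff δ).continuousOn.mono (Metric.closedBall_subset_ball hr1)).norm
  choose x hx hxmax using hmax
  let rep : SL(2, ℤ) ⧸ Γ → SL(2, ℤ) := fun q => (Quotient.out q)⁻¹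
  obtain ⟨q₀, hq₀⟩ := Finite.exists_max (fun q : SL(2, ℤ) ⧸ Γ => ‖e (rep q) (x (rep q))‖)
  have hnorm : ∀ γ ∈ Γ, ∀ z : ℍ, ‖Complex.exp (A (γ • z))‖ = ‖Complex.exp (A z)‖ := by
    intro γ hγ z
    obtain ⟨c, hc0, hc⟩ := hinv γ hγ
    rw [hc z, Complex.norm_exp, Complex.norm_exp, Complex.add_re, hc0, add_zero]
  have hbound : ∀ z : ℍ, ‖E (rep q₀) z‖ ≤ ‖e (rep q₀) (x (rep q₀))‖ := by
    intro z
    obtain ⟨g, hg⟩ := exists_one_half_le_im_smul z
    obtain ⟨γ, hγ⟩ := QuotientGroup.mk_out_eq_mul Γ (g * Quotient.out q₀)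
    set q' : SL(2, ℤ) ⧸ Γ := ((g * Quotient.out q₀ : SL(2, ℤ)) : SL(2, ℤ) ⧸ Γ) with hq'
    have h1 : rep q₀ • z = (γ : SL(2, ℤ)) • (rep q' • (g • z)) := by
      rw [← mul_smul, ← mul_smul]
      congr 1
      simp only [rep]
      rw [hγ]
      group
    calc ‖E (rep q₀) z‖ = ‖Complex.exp (A ((γ : SL(2, ℤ)) • (rep q' • (g • z))))‖ := by
          simp only [E]; rw [h1]
      _ = ‖E (rep q') (g • z)‖ := hnorm γ γ.2 _
      _ = ‖e (rep q') (𝕢 n ((g • z : ℍ) : ℂ))‖ := by rw [he]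
      _ ≤ ‖e (rep q') (x (rep q'))‖ := hxmax (rep q') (hqr _ hg)
      _ ≤ _ := hq₀ q'
  have hconst := Complex.eq_const_of_exists_le (hediff (rep q₀)) hr0 hr1 (by
    intro q hq
    rcases eq_or_ne q 0 with rfl | hq'
    · exact ⟨0, by simpa using hr0, le_rfl⟩
    · refine ⟨x (rep q₀), hx _, ?_⟩
      have him := Periodic.im_invQParam_pos_of_norm_lt_one hnR (mem_ball_zero_iff.mp hq) hq'
      have := hbound ⟨_, him⟩
      rw [← he] at this
      simpa [Periodic.qParam_right_inv hnR.ne' hq'] using this)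
  refine ⟨e (rep q₀) 0, fun z => ?_⟩
  have hz : 𝕢 n ((rep q₀)⁻¹ • z : ℍ) ∈ Metric.ball (0 : ℂ) 1 := by
    rw [mem_ball_zero_iff]
    exact Periodic.norm_qParam_lt_one hnR ((rep q₀)⁻¹ • z : ℍ).im_pos
  have := hconst hz
  rw [he] at this
  simpa [E] using this

end Fermat.Agent.ES.Inj
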