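import Fermat.Agent.ES.Defs
import Fermat.Agent.S22.Prim
import Fermat.Prelude.Thm_Subgroup_IsArithmetic_exists_nat_mem_strictPeriods_conj

set_option autoImplicit false

open UpperHalfPlane hiding I
open Complex ModularGroup CongruenceSubgroup ModularForm Filter Topology Function
open scoped MatrixGroups Manifold Real ModularForm
open Derivative

namespace Fermat.Agent.ES

open ModularCurve ModularCurve.Period

lemma slash_zero_eq (F : ℍ → ℂ) (γ : SL(2, ℤ)) : (F ∣[(0 : ℤ)] γ) = fun z => F (γ • z) := by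
  ext z
  simp [ModularForm.SL_slash_apply]

lemma mdiff_comp_smul {F : ℍ → ℂ} (hF : MDiff F) (γ : SL(2, ℤ)) : MDiff (fun z => F (γ • z)) := by
  rw [← slash_zero_eq]
  exact hF.slash 0 _

lemma D_comp_smul {F : ℍ → ℂ} (hF : MDiff F) (γ : SL(2, ℤ)) :
    D (fun z => F (γ • z)) = (D F) ∣[(2 : ℤ)] γ := by
  rw [← slash_zero_eq, normalizedDerivOfComplex_SL_slash hF]
  ext z
  simp

/-- a translate of a weight two cusp form has a primitive vanishing at `i∞`. -/
lemma exists_prim_slash {Γ : Subgroup (GL (Fin 2) ℝ)} [Γ.IsArithmetic] (f : CuspForm Γ 2)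
    (δ : SL(2, ℤ)) :
    ∃ G : ℍ → ℂ, MDiff G ∧ D G = ((f : ℍ → ℂ) ∣[(2 : ℤ)] δ) ∧ IsZeroAtImInfty G := by
  obtain ⟨M, hM, hper⟩ := Subgroup.IsArithmetic.exists_nat_mem_strictPeriods_conj Γ
  have h1 := hper δ⁻¹
  have hp : Periodic (((f : ℍ → ℂ) ∣[(2 : ℤ)] δ) ∘ ofComplex) (M : ℝ) := by
    have := SlashInvariantFormClass.periodic_comp_ofComplex
      (CuspForm.translate f (Matrix.SpecialLinearGroup.mapGL ℝ δ)) (h := (M : ℝ))
      (by rw [map_inv] at h1; exact h1)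
    exact this
  obtain ⟨G, hG, hDG, -, hz⟩ := Fermat.Agent.S22.exists_primitive (h := (M : ℝ))
    (by exact_mod_cast hM) ((CuspFormClass.holo f).slash 2 _) hp
    (CuspFormClass.zero_at_infty_slash f δ)
  exact ⟨G, hG, hDG, hz⟩

/-- characterisation of `HasEquivariantPrimitive` : sufficiency. -/
theorem hasEquivariantPrimitive_of (N : ℕ) [NeZero N] (f : CuspForm (Gamma0 N) 2) {F : ℍ → ℂ}
    (hF : MDiff F) (hD : D F = (2 * π * I : ℂ)⁻¹ • (f : ℍ → ℂ)) (hz : IsZeroAtImInfty F) :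
    HasEquivariantPrimitive N f F := by
  have h2pi : (2 * π * I : ℂ) ≠ 0 := by simp [Real.pi_ne_zero]
  refine ⟨fun τ => ?_, hz, fun γ => ?_, fun δ => ?_⟩
  · have h1 : DifferentiableAt ℂ (F ∘ ofComplex) τ := mdifferentiableAt_iff.mp (hF τ)
    have h2 := congrFun hD τ
    simp only [normalizedDerivOfComplex, Pi.smul_apply, smul_eq_mul] at h2
    have h3 : deriv (F ∘ ofComplex) τ = f τ := mul_left_cancel₀ (inv_ne_zero h2pi) h2
    rw [← h3]
    exact h1.hasDerivAt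
  · have hH : MDiff (fun z => F ((γ : SL(2, ℤ)) • z) - F z) := (mdiff_comp_smul hF γ).sub hF
    have hinv : ((f : ℍ → ℂ) ∣[(2 : ℤ)] (γ : SL(2, ℤ))) = f :=
      SlashInvariantFormClass.slash_action_eq f _ ⟨γ, γ.2, rfl⟩
    have hDH : D (fun z => F ((γ : SL(2, ℤ)) • z) - F z) = 0 := by
      have := normalizedDerivOfComplex_sub _ _ (mdiff_comp_smul hF (γ : SL(2, ℤ))) hF
      rw [show (fun z => F ((γ : SL(2, ℤ)) • z) - F z) = (fun z => F ((γ : SL(2, ℤ)) • z)) - F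
        from rfl, this, D_comp_smul hF, hD, ModularForm.SL_smul_slash, hinv, sub_self]
    obtain ⟨c, hc⟩ := Fermat.Agent.S22.const_of_D_eq_zero hH hDH
    exact ⟨c, hc⟩
  · obtain ⟨G, hG, hDG, hGz⟩ := exists_prim_slash f δ
    have hG' : MDiff ((2 * π * I : ℂ)⁻¹ • G) := hG.const_smul _
    have hH : MDiff ((fun z => F (δ • z)) - (2 * π * I : ℂ)⁻¹ • G) :=
      (mdiff_comp_smul hF δ).sub hG'
    have hDH : D ((fun z => F (δ • z)) - (2 * π * I : ℂ)⁻¹ • G) = 0 := by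
      rw [normalizedDerivOfComplex_sub _ _ (mdiff_comp_smul hF δ) hG', D_comp_smul hF, hD,
        ModularForm.SL_smul_slash, normalizedDerivOfComplex_smul _ _ hG, hDG, sub_self]
    obtain ⟨c, hc⟩ := Fermat.Agent.S22.const_of_D_eq_zero hH hDH
    refine ⟨c, ?_⟩
    have h1 : (fun w : ℍ => F (δ • w)) = fun w => c + (2 * π * I : ℂ)⁻¹ * G w := by
      ext w
      have := hc w
      simp only [Pi.sub_apply, Pi.smul_apply, smul_eq_mul] at this
      rw [← this]; ring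
    rw [h1]
    have h2 : Tendsto (fun w : ℍ => c + (2 * π * I : ℂ)⁻¹ * G w) atImInfty
        (𝓝 (c + (2 * π * I : ℂ)⁻¹ * 0)) := tendsto_const_nhds.add (hGz.const_mul _)
    simpa using h2

theorem exists_hasEquivariantPrimitive (N : ℕ) [NeZero N] (f : CuspForm (Gamma0 N) 2) :
    ∃ F : ℍ → ℂ, HasEquivariantPrimitive N f F := by
  obtain ⟨G, hG, hDG, hGz⟩ := exists_prim_slash f 1
  have hDG' : D G = f := by simpa using hDG
  refine ⟨(2 * π * I : ℂ)⁻¹ • G, hasEquivariantPrimitive_of N f (hG.const_smul _) ?_ ?_⟩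
  · rw [normalizedDerivOfComplex_smul _ _ hG, hDG']
  · have : Tendsto (fun w : ℍ => (2 * π * I : ℂ)⁻¹ * G w) atImInfty
        (𝓝 ((2 * π * I : ℂ)⁻¹ * 0)) := hGz.const_mul _
    rw [mul_zero] at this
    exact this

/-- characterisation of `HasEquivariantPrimitive` : necessity. -/
theorem hep_props {N : ℕ} {f : CuspForm (Gamma0 N) 2} {F : ℍ → ℂ}
    (h : HasEquivariantPrimitive N f F) :
    MDiff F ∧ D F = (2 * π * I : ℂ)⁻¹ • (f : ℍ → ℂ) ∧ IsZeroAtImInfty F := by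
  refine ⟨fun τ => mdifferentiableAt_iff.mpr (h.1 τ).differentiableAt, ?_, h.2.1⟩
  ext τ
  simp only [normalizedDerivOfComplex, Pi.smul_apply, smul_eq_mul, (h.1 τ).deriv]

theorem hep_unique {N : ℕ} {f : CuspForm (Gamma0 N) 2} {F F' : ℍ → ℂ}
    (h : HasEquivariantPrimitive N f F) (h' : HasEquivariantPrimitive N f F') : F = F' := by
  obtain ⟨h1, h2, h3⟩ := hep_props h
  obtain ⟨h1', h2', h3'⟩ := hep_props h'
  exact Fermat.Agent.S22.primitive_unique h1 h1' (h2.trans h2'.symm) h3 h3'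

theorem periodMap_apply (N : ℕ) [NeZero N] (f : CuspForm (Gamma0 N) 2) {F : ℍ → ℂ}
    (hF : HasEquivariantPrimitive N f F) (γ : Gamma0 N) (z : ℍ) :
    periodMap N f (Additive.ofMul γ) = F ((γ : SL(2, ℤ)) • z) - F z := by
  obtain ⟨F₀, h₀, hp⟩ := periodMap_def N f hF
  obtain rfl := hep_unique h₀ hF
  rw [hp, IsEquivariantPrimitive.periodHom_apply, ← IsEquivariantPrimitive.sub_eq_period]

section conj
open Matrix.SpecialLinearGroup Matrix.GeneralLinearGroup OnePoint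

lemma exists_conj_c_eq_zero (γ : SL(2, ℤ)) (h : (γ : Matrix (Fin 2) (Fin 2) ℤ).trace ^ 2 = 4) :
    ∃ δ : SL(2, ℤ), (δ⁻¹ * γ * δ) 1 0 = 0 := by
  by_cases hc : γ 1 0 = 0
  · exact ⟨1, by simpa using hc⟩
  have hpar : (mapGL ℝ γ).IsParabolic := by
    refine ⟨?_, ?_⟩
    · rintro ⟨a, ha⟩
      have := congr_fun₂ ha 1 0
      simp at this
      exact hc (by exact_mod_cast this.symm)
    · have h' : ((γ : Matrix (Fin 2) (Fin 2) ℤ).trace : ℝ) ^ 2 = 4 := by exact_mod_cast h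
      rw [Matrix.trace_fin_two] at h'
      push_cast at h'
      have hdet : (γ 0 0 : ℝ) * γ 1 1 - γ 0 1 * γ 1 0 = 1 := by
        have := γ.det_coe
        rw [Matrix.det_fin_two] at this
        exact_mod_cast this
      simp [Matrix.discr_fin_two, Matrix.trace_fin_two, Matrix.det_fin_two]
      linarith
  have hcusp : IsCusp (mapGL ℝ γ).parabolicFixedPoint 𝒮ℒ :=
    ⟨mapGL ℝ γ, ⟨γ, rfl⟩, hpar, hpar.smul_eq_self_iff.mpr rfl⟩
  obtain ⟨δ, hδ⟩ := isCusp_SL2Z_iff'.mp hcusp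
  refine ⟨δ, ?_⟩
  have hfix : mapGL ℝ γ • (mapGL ℝ δ • (∞ : OnePoint ℝ)) = mapGL ℝ δ • ∞ := by
    rw [← hδ]; exact hpar.smul_eq_self_iff.mpr rfl
  have h2 : mapGL ℝ (δ⁻¹ * γ * δ) • (∞ : OnePoint ℝ) = ∞ := by
    rw [map_mul, map_mul, mul_smul, mul_smul, hfix, ← mul_smul, ← map_mul]
    simp
  rw [OnePoint.smul_infty_eq_self_iff] at h2
  have h3 : (((δ⁻¹ * γ * δ) 1 0 : ℤ) : ℝ) = 0 := by
    rw [← h2]
    simp only [mapGL_coe_matrix, Matrix.SpecialLinearGroup.map_apply_coe, RingHom.mapMatrix_apply,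
      Matrix.map_apply]
    rfl
  exact_mod_cast h3

lemma exists_conj_T (γ : SL(2, ℤ)) (h : (γ : Matrix (Fin 2) (Fin 2) ℤ).trace ^ 2 = 4) :
    ∃ (δ : SL(2, ℤ)) (n : ℤ), ∀ z : ℍ, γ • (δ • z) = δ • (T ^ n • z) := by
  obtain ⟨δ, hδ⟩ := exists_conj_c_eq_zero γ h
  obtain ⟨n, hn⟩ := exists_eq_T_zpow_of_c_eq_zero hδ
  refine ⟨δ, n, fun z => ?_⟩
  rw [← hn z, ← mul_smul, ← mul_smul]
  congr 1
  group

end conj

theorem periodMap_add (N : ℕ) [NeZero N] (f g : CuspForm (Gamma0 N) 2) :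
    periodMap N (f + g) = periodMap N f + periodMap N g := by
  obtain ⟨F, hF⟩ := exists_hasEquivariantPrimitive N f
  obtain ⟨G, hG⟩ := exists_hasEquivariantPrimitive N g
  obtain ⟨h1, h2, h3⟩ := hep_props hF
  obtain ⟨h1', h2', h3'⟩ := hep_props hG
  have hFG : HasEquivariantPrimitive N (f + g) (F + G) := by
    refine hasEquivariantPrimitive_of N (f + g) (h1.add h1') ?_ ?_
    · rw [normalizedDerivOfComplex_add _ _ h1 h1', h2, h2', FunLike.coe_add, smul_add]
    · have := Tendsto.add h3 h3'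
      rw [add_zero] at this
      exact this
  refine AddMonoidHom.ext fun x => ?_
  obtain ⟨γ, rfl⟩ := Additive.ofMul.surjective x
  rw [AddMonoidHom.add_apply, periodMap_apply N _ hFG γ UpperHalfPlane.I,
    periodMap_apply N _ hF γ UpperHalfPlane.I, periodMap_apply N _ hG γ UpperHalfPlane.I]
  simp only [Pi.add_apply]
  ring

theorem periodMap_smul (N : ℕ) [NeZero N] (c : ℂ) (f : CuspForm (Gamma0 N) 2) :
    periodMap N (c • f) = c • periodMap N f := by
  obtain ⟨F, hF⟩ := exists_hasEquivariantPrimitive N f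
  obtain ⟨h1, h2, h3⟩ := hep_props hF
  have hcF : HasEquivariantPrimitive N (c • f) (c • F) := by
    refine hasEquivariantPrimitive_of N (c • f) (h1.const_smul c) ?_ ?_
    · rw [normalizedDerivOfComplex_smul _ _ h1, h2, FunLike.coe_smul, smul_comm]
    · have : Tendsto (fun w : ℍ => c * F w) atImInfty (𝓝 (c * 0)) := h3.const_mul c
      rw [mul_zero] at this
      exact this
  refine AddMonoidHom.ext fun x => ?_
  obtain ⟨γ, rfl⟩ := Additive.ofMul.surjective x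
  rw [AddMonoidHom.smul_apply, periodMap_apply N _ hcF γ UpperHalfPlane.I,
    periodMap_apply N _ hF γ UpperHalfPlane.I]
  simp only [Pi.smul_apply, smul_eq_mul]
  ring

theorem existsPeriodMapLinear (N : ℕ) [NeZero N] : ExistsPeriodMapLinear N :=
  ⟨{ toFun := periodMap N
     map_add' := periodMap_add N
     map_smul' := periodMap_smul N }, fun _ => rfl⟩

theorem periodMap_mem_parabolicHoms (N : ℕ) [NeZero N] (f : CuspForm (Gamma0 N) 2) :
    periodMap N f ∈ parabolicHoms ℂ (Gamma0 N) ℂ := by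
  rw [mem_parabolicHoms_iff]
  intro γ hγ
  obtain ⟨F, hF⟩ := exists_hasEquivariantPrimitive N f
  obtain ⟨δ, n, hδ⟩ := exists_conj_T (γ : SL(2, ℤ)) hγ
  obtain ⟨L, hL⟩ := hF.2.2.2 δ
  have hT : Tendsto (fun w : ℍ => T ^ n • w) atImInfty atImInfty := by
    rw [atImInfty, tendsto_comap_iff]
    have : (UpperHalfPlane.im ∘ fun w : ℍ => T ^ n • w) = UpperHalfPlane.im := by
      ext w
      exact ModularGroup.im_T_zpow_smul w n
    rw [this]
    exact tendsto_comap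
  have h1 : Tendsto (fun w : ℍ => F ((γ : SL(2, ℤ)) • (δ • w)) - F (δ • w)) atImInfty
      (𝓝 (L - L)) := by
    refine Tendsto.sub ?_ hL
    simp only [hδ]
    exact hL.comp hT
  have h2 : (fun w : ℍ => F ((γ : SL(2, ℤ)) • (δ • w)) - F (δ • w))
      = fun _ => periodMap N f (Additive.ofMul γ) := by
    ext w
    rw [periodMap_apply N f hF γ (δ • w)]
  rw [h2, sub_self] at h1
  exact tendsto_nhds_unique tendsto_const_nhds h1

end Fermat.Agent.ES
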