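import Mathlib
import Fermat.Prelude.Def_ModularCurve_PeriodHomPair
import Fermat.Agent.ES.MaxPrinciple
import Fermat.Agent.ES.Period

set_option autoImplicit false

open UpperHalfPlane ModularGroup Filter Topology Function Complex CongruenceSubgroup
open scoped MatrixGroups Manifold Real ComplexConjugate

namespace Fermat.Agent.ES.Inj

open ModularCurve ModularCurve.Period

/-- reflection in the imaginary axis -/
noncomputable def refl (z : ℍ) : ℍ := ⟨-conj (z : ℂ), by simpa using z.im_pos⟩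

@[simp] theorem coe_refl (z : ℍ) : ((refl z : ℍ) : ℂ) = -conj (z : ℂ) := rfl

@[simp] theorem refl_refl (z : ℍ) : refl (refl z) = z := by
  ext; simp

@[simp] theorem im_refl (z : ℍ) : (refl z).im = z.im := by
  show ((refl z : ℍ) : ℂ).im = _
  simp

theorem tendsto_refl : Tendsto refl atImInfty atImInfty := by
  rw [atImInfty, tendsto_comap_iff]
  have : (UpperHalfPlane.im ∘ refl) = UpperHalfPlane.im := by
    ext w
    simp
  rw [this]
  exact tendsto_comap

theorem refl_smul (δ : SL(2, ℤ)) (z : ℍ) : refl (δ • z) = jConjSL δ • refl z := by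
  ext
  rw [coe_refl, UpperHalfPlane.coe_specialLinearGroup_apply,
    UpperHalfPlane.coe_specialLinearGroup_apply]
  simp only [jConjSL_coe, jConjMat_apply_zero_zero, jConjMat_apply_zero_one,
    jConjMat_apply_one_zero, jConjMat_apply_one_one, coe_refl]
  simp only [map_div₀, map_add, map_mul]
  simp
  ring

/-- The holomorphic "conjugate reflection" of a function on the upper half plane. -/
noncomputable def cr (F : ℍ → ℂ) (z : ℍ) : ℂ := conj (F (refl z))

theorem hasDerivAt_cr {F f : ℍ → ℂ} (hF : ∀ τ : ℍ, HasDerivAt (F ∘ ofComplex) (f τ) ↑τ) (τ : ℍ) :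
    HasDerivAt (cr F ∘ ofComplex) (-conj (f (refl τ))) ↑τ := by
  have h0 : HasDerivAt (F ∘ ofComplex) (f (refl τ)) (0 - conj (τ : ℂ)) := by
    have := hF (refl τ)
    simpa using this
  have h1 := (HasDerivAt.comp_const_sub 0 _ h0).conj_conj
  rw [Complex.conj_conj] at h1
  have h2 : (conj ∘ (fun x : ℂ => (F ∘ ofComplex) (0 - x)) ∘ conj) =ᶠ[𝓝 (τ : ℂ)]
      (cr F ∘ ofComplex) := by
    have hopen : {w : ℂ | 0 < w.im} ∈ 𝓝 (τ : ℂ) :=
      (isOpen_lt continuous_const Complex.continuous_im).mem_nhds τ.im_pos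
    filter_upwards [hopen] with w hw
    have hw' : 0 < (0 - conj w).im := by simpa using hw
    simp only [comp_apply, cr, ofComplex_apply_of_im_pos hw, ofComplex_apply_of_im_pos hw']
    congr 2
    ext
    simp
  have h3 := h1.congr_of_eventuallyEq h2.symm
  simpa using h3

theorem mdiff_of_hasDerivAt {F f : ℍ → ℂ} (hF : ∀ τ : ℍ, HasDerivAt (F ∘ ofComplex) (f τ) ↑τ) :
    MDiff F := by
  intro τ
  rw [mdifferentiableAt_iff]
  exact (hF τ).differentiableAt

theorem deriv_zero_of_exp_const {A a : ℍ → ℂ}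
    (hA : ∀ τ : ℍ, HasDerivAt (A ∘ ofComplex) (a τ) ↑τ) {c : ℂ}
    (hc : ∀ z, Complex.exp (A z) = c) (τ : ℍ) : a τ = 0 := by
  have h1 := (hA τ).cexp
  have h2 : (fun x => Complex.exp ((A ∘ ofComplex) x)) = fun _ => c := funext fun x => hc _
  rw [h2] at h1
  have h3 := h1.unique (hasDerivAt_const _ _)
  exact (mul_eq_zero.mp h3).resolve_left (Complex.exp_ne_zero _)

theorem cr_smul (F : ℍ → ℂ) (δ : SL(2, ℤ)) (z : ℍ) :
    cr F (δ • z) = conj (F (jConjSL δ • refl z)) := by
  rw [cr, refl_smul]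

theorem tendsto_cr_smul {F : ℍ → ℂ}
    (hF : ∀ δ : SL(2, ℤ), ∃ L : ℂ, Tendsto (fun w : ℍ => F (δ • w)) atImInfty (𝓝 L))
    (δ : SL(2, ℤ)) : ∃ L : ℂ, Tendsto (fun w : ℍ => cr F (δ • w)) atImInfty (𝓝 L) := by
  obtain ⟨L, hL⟩ := hF (jConjSL δ)
  refine ⟨conj L, ?_⟩
  simp only [cr_smul]
  exact (Complex.continuous_conj.tendsto L).comp (hL.comp tendsto_refl)

theorem eq_zero_of_periods (N : ℕ) [NeZero N] (u v : CuspForm (Gamma0 N) 2) {Fu Fv : ℍ → ℂ}
    (hu : HasEquivariantPrimitive N u Fu) (hv : HasEquivariantPrimitive N v Fv)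
    (hper : ∀ γ : Gamma0 N, ∀ z w : ℍ, (Fu ((γ : SL(2, ℤ)) • z) - Fu z)
      + (Fv ((jConjGamma0 N γ : SL(2, ℤ)) • w) - Fv w) = 0) :
    u = 0 ∧ v = 0 := by
  have hGd := hasDerivAt_cr hv.1
  -- first combination
  have hA1d : ∀ τ : ℍ, HasDerivAt ((fun z => Fu z + cr Fv z) ∘ ofComplex)
      (u τ + -conj (v (refl τ))) ↑τ := fun τ => (hu.1 τ).add (hGd τ)
  have hA2d : ∀ τ : ℍ, HasDerivAt ((fun z => -Complex.I * (Fu z - cr Fv z)) ∘ ofComplex)
      (-Complex.I * (u τ - -conj (v (refl τ)))) ↑τ :=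
    fun τ => ((hu.1 τ).sub (hGd τ)).const_mul _
  obtain ⟨c1, hc1⟩ := exp_const_of_invariant (Gamma0 N) _ (mdiff_of_hasDerivAt hA1d)
    (by
      intro γ hγ
      obtain ⟨c, hc⟩ := hv.2.2.1 (jConjGamma0 N ⟨γ, hγ⟩)
      refine ⟨-c + conj c, by simp, fun z => ?_⟩
      have h1 := hper ⟨γ, hγ⟩ z (refl z)
      have h2 := hc (refl z)
      simp only [jConjGamma0_coe] at h1 h2
      rw [cr_smul, cr]
      have h3 : Fv (jConjSL γ • refl z) = Fv (refl z) + c := by linear_combination h2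
      rw [h3, map_add]
      linear_combination h1 - h2)
    (by
      intro δ
      obtain ⟨L1, hL1⟩ := hu.2.2.2 δ
      obtain ⟨L2, hL2⟩ := tendsto_cr_smul hv.2.2.2 δ
      exact ⟨L1 + L2, hL1.add hL2⟩)
  obtain ⟨c2, hc2⟩ := exp_const_of_invariant (Gamma0 N) _ (mdiff_of_hasDerivAt hA2d)
    (by
      intro γ hγ
      obtain ⟨c, hc⟩ := hv.2.2.1 (jConjGamma0 N ⟨γ, hγ⟩)
      refine ⟨Complex.I * (c + conj c), by simp, fun z => ?_⟩
      have h1 := hper ⟨γ, hγ⟩ z (refl z)
      have h2 := hc (refl z)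
      simp only [jConjGamma0_coe] at h1 h2
      rw [cr_smul, cr]
      have h3 : Fv (jConjSL γ • refl z) = Fv (refl z) + c := by linear_combination h2
      rw [h3, map_add]
      linear_combination (-Complex.I) * (h1 - h2))
    (by
      intro δ
      obtain ⟨L1, hL1⟩ := hu.2.2.2 δ
      obtain ⟨L2, hL2⟩ := tendsto_cr_smul hv.2.2.2 δ
      exact ⟨-Complex.I * (L1 - L2), (hL1.sub hL2).const_mul _⟩)
  have e1 := deriv_zero_of_exp_const hA1d hc1
  have e2 := deriv_zero_of_exp_const hA2d hc2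
  have e2' : ∀ τ : ℍ, u τ - -conj (v (refl τ)) = 0 := fun τ =>
    (mul_eq_zero.mp (e2 τ)).resolve_left (by simp)
  constructor
  · ext τ
    have := e1 τ
    have := e2' τ
    simp only [FunLike.coe_zero, Pi.zero_apply]
    linear_combination (1/2 : ℂ) * e1 τ + (1/2 : ℂ) * e2' τ
  · ext τ
    have h : conj (v τ) = 0 := by
      have a := e1 (refl τ)
      have b := e2' (refl τ)
      rw [refl_refl] at a b
      linear_combination (1/2 : ℂ) * b - (1/2 : ℂ) * a
    simpa using h

theorem periodHomPair_injective_of (N : ℕ) [NeZero N]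
    (h1 : ∀ f : CuspForm (Gamma0 N) 2, ∃ F, HasEquivariantPrimitive N f F)
    (h2 : ∀ (f : CuspForm (Gamma0 N) 2) (F : ℍ → ℂ), HasEquivariantPrimitive N f F →
      ∀ (γ : Gamma0 N) (z : ℍ),
        periodMap N f (Additive.ofMul γ) = F ((γ : SL(2, ℤ)) • z) - F z)
    (h3 : ExistsPeriodMapLinear N) :
    Function.Injective (periodHomPair N) := by
  obtain ⟨pml, hpml, hdef⟩ := periodHomPair_def N h3
  rw [injective_iff_map_eq_zero]
  rintro ⟨f, g⟩ hfg
  obtain ⟨Fu, hu⟩ := h1 (f + g)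
  obtain ⟨Fv, hv⟩ := h1 (f - g)
  have key : pml (f + g) + charInvolution N ℂ ℂ (pml (f - g)) = 0 := by
    rw [hdef] at hfg
    simp only [LinearMap.coprod_apply, LinearMap.comp_apply, LinearMap.add_apply,
      LinearMap.sub_apply, LinearMap.id_apply] at hfg
    rw [map_add, map_sub, map_sub]
    rw [← hfg]
    abel
  obtain ⟨e1, e2⟩ := eq_zero_of_periods N (f + g) (f - g) hu hv (by
    intro γ z w
    rw [← h2 _ _ hu γ z, ← h2 _ _ hv (jConjGamma0 N γ) w, ← hpml, ← hpml]
    have := DFunLike.congr_fun key (Additive.ofMul γ)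
    simpa using this)
  have hf : f = 0 := by
    have : (2 : ℂ) • f = 0 := by
      rw [two_smul]
      have : f + f = (f + g) + (f - g) := by abel
      rw [this, e1, e2, add_zero]
    simpa using this
  have hg : g = 0 := by
    rw [hf, zero_add] at e1
    exact e1
  rw [hf, hg]
  rfl

end Fermat.Agent.ES.Inj

namespace Fermat.Agent.ES

/-- **A4**: the Eichler–Shimura period pairing is injective. -/
theorem periodHomPair_injective (N : ℕ) [NeZero N] :
    Function.Injective (ModularCurve.periodHomPair N) :=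
  Inj.periodHomPair_injective_of N (exists_hasEquivariantPrimitive N)
    (fun f _ hF γ z => periodMap_apply N f hF γ z) (existsPeriodMapLinear N)

end Fermat.Agent.ES
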