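import Fermat.Agent.ES.Main
import Fermat.Agent.ES.GroupBound
import Fermat.Agent.ES.Period
import Fermat.Agent.ES.Injective
import Fermat.Agent.ES.Gamma0Frame

set_option autoImplicit false

open UpperHalfPlane ModularGroup CongruenceSubgroup ModularForm EisensteinSeries Filter Topology
open scoped MatrixGroups Manifold Real Matrix

namespace Fermat.Agent.ES

open ModularCurve ModularCurve.Period

theorem neg_one_mem_Gamma0 (N : ℕ) : (-1 : SL(2, ℤ)) ∈ Gamma0 N := by
  rw [Gamma0_mem]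
  simp

theorem neg_one_smul_quotient (Γ : Subgroup SL(2, ℤ)) (h : (-1 : SL(2, ℤ)) ∈ Γ)
    (q : SL(2, ℤ) ⧸ Γ) : (-1 : SL(2, ℤ)) • q = q := by
  induction q using QuotientGroup.induction_on with
  | H g =>
    rw [MulAction.Quotient.smul_mk, QuotientGroup.eq]
    simpa using h

theorem range_periodHomPair_le (N : ℕ) [NeZero N] :
    LinearMap.range (periodHomPair N) ≤ parabolicHoms ℂ (Gamma0 N) ℂ := by
  obtain ⟨pml, hpml, hdef⟩ := periodHomPair_def N (existsPeriodMapLinear N)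
  rintro _ ⟨⟨f, g⟩, rfl⟩
  rw [hdef]
  have hf : pml f ∈ parabolicHoms ℂ (Gamma0 N) ℂ := by
    rw [hpml]; exact periodMap_mem_parabolicHoms N f
  have hg : pml g ∈ parabolicHoms ℂ (Gamma0 N) ℂ := by
    rw [hpml]; exact periodMap_mem_parabolicHoms N g
  simp only [LinearMap.coprod_apply, LinearMap.comp_apply, LinearMap.add_apply,
    LinearMap.sub_apply, LinearMap.id_apply]
  exact Submodule.add_mem _
    (Submodule.add_mem _ hf (charInvolution_mem_parabolicHoms N ℂ ℂ hf))
    (Submodule.sub_mem _ hg (charInvolution_mem_parabolicHoms N ℂ ℂ hg))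

/-- the numerical heart: both inequalities. -/
theorem dims (N : ℕ) [NeZero N] :
    Module.Finite ℂ (CuspForm (Gamma0 N) 2) ∧
    Module.Finite ℂ (parabolicHoms ℂ (Gamma0 N) ℂ) ∧
    Module.finrank ℂ (parabolicHoms ℂ (Gamma0 N) ℂ) = 2 * Module.finrank ℂ (CuspForm (Gamma0 N) 2) ∧
    2 * Module.finrank ℂ (CuspForm (Gamma0 N) 2) + fixDim (SL(2, ℤ) ⧸ Gamma0 N) S
      + fixDim (SL(2, ℤ) ⧸ Gamma0 N) (S * T) + fixDim (SL(2, ℤ) ⧸ Gamma0 N) T
      = (Gamma0 N).index + 2 := by
  classical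
  obtain ⟨hfin, hB⟩ := finrank_parabolicHoms_le (Gamma0 N) (neg_one_mem_Gamma0 N)
  -- the period map into the parabolic homs
  let φ : (CuspForm (Gamma0 N) 2 × CuspForm (Gamma0 N) 2) →ₗ[ℂ] parabolicHoms ℂ (Gamma0 N) ℂ :=
    (periodHomPair N).codRestrict _ (fun x => range_periodHomPair_le N ⟨x, rfl⟩)
  have hφ : Function.Injective φ := by
    intro x y hxy
    apply periodHomPair_injective N
    exact congrArg Subtype.val hxy
  have hfin2 : Module.Finite ℂ (CuspForm (Gamma0 N) 2 × CuspForm (Gamma0 N) 2) :=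
    Module.Finite.of_injective φ hφ
  have hfin1 : Module.Finite ℂ (CuspForm (Gamma0 N) 2) :=
    Module.Finite.of_injective (LinearMap.inl ℂ _ (CuspForm (Gamma0 N) 2)) LinearMap.inl_injective
  have h1 : 2 * Module.finrank ℂ (CuspForm (Gamma0 N) 2)
      ≤ Module.finrank ℂ (parabolicHoms ℂ (Gamma0 N) ℂ) := by
    have := LinearMap.finrank_le_finrank_of_injective hφ
    rw [Module.finrank_prod] at this
    omega
  letI : Fintype (SL(2, ℤ) ⧸ Gamma0 N) := Fintype.ofFinite _
  obtain ⟨n, Ψ, hΨ, hlin, hC⟩ := exists_cuspVF (Q := SL(2, ℤ) ⧸ Gamma0 N)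
    (neg_one_smul_quotient _ (neg_one_mem_Gamma0 N)) (exists_frame_Gamma0 N)
  obtain ⟨ψ, hψ⟩ := exists_cuspForm_of_isCuspVF (Gamma0 N) n Ψ hΨ hlin
  have h2 : n ≤ Module.finrank ℂ (CuspForm (Gamma0 N) 2) := by
    simpa using hψ.fintype_card_le_finrank
  have hcard : Fintype.card (SL(2, ℤ) ⧸ Gamma0 N) = (Gamma0 N).index := by
    rw [Subgroup.index, Nat.card_eq_fintype_card]
  rw [hcard] at hC
  refine ⟨hfin1, hfin, ?_, ?_⟩ <;> omega

theorem eichlerShimura (N : ℕ) [NeZero N] :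
    Function.Injective (periodHomPair N)
      ∧ LinearMap.range (periodHomPair N) = parabolicHoms ℂ (Gamma0 N) ℂ := by
  refine ⟨periodHomPair_injective N, ?_⟩
  obtain ⟨hfin1, hfin, hdim, -⟩ := dims N
  apply Submodule.eq_of_le_of_finrank_le (range_periodHomPair_le N)
  rw [LinearMap.finrank_range_of_inj (periodHomPair_injective N), Module.finrank_prod, hdim]
  omega

end Fermat.Agent.ES
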