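import Fermat.Agent.ES.FrameDefs

/-!
ES project, task Inf-Infinity: behaviour of vector valued modular forms at `i∞`.
-/

set_option autoImplicit false

open UpperHalfPlane ModularGroup ModularForm EisensteinSeries Filter Topology
open scoped MatrixGroups Manifold Real Matrix

namespace Fermat.Agent.ES

section abstractProjectors

variable {A : Type*} [Ring A] [Algebra ℂ A]

/-- the root of unity `exp (2 π i / h)`. -/
noncomputable def infZeta (h : ℕ) : ℂ := Complex.exp (2 * π * Complex.I / h)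

lemma infZeta_isPrimitiveRoot {h : ℕ} (hh : 0 < h) : IsPrimitiveRoot (infZeta h) h :=
  Complex.isPrimitiveRoot_exp h hh.ne'

lemma infZeta_pow (h : ℕ) (n : ℕ) :
    infZeta h ^ n = Complex.exp (2 * π * Complex.I * n / h) := by
  rw [infZeta, ← Complex.exp_nat_mul]
  congr 1
  ring

lemma infZeta_ne_zero (h : ℕ) : infZeta h ≠ 0 := Complex.exp_ne_zero _

/-- abstract version of `prMat`. -/
noncomputable def infPr (τ : A) (h : ℕ) (m : ℕ) : A :=
  ((h : ℂ)⁻¹) • ∑ j ∈ Finset.range h, (infZeta h ^ (m * j)) • τ ^ j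

lemma geom_sum_root_of_unity {x : ℂ} {h : ℕ} (hx : x ^ h = 1) (hx1 : x ≠ 1) :
    ∑ j ∈ Finset.range h, x ^ j = 0 := by
  have := geom_sum_mul x h
  rw [hx, sub_self] at this
  exact (mul_eq_zero.mp this).resolve_right (sub_ne_zero.mpr hx1)

lemma mul_infPr {τ : A} {h : ℕ} (hτ : τ ^ h = 1) (hh : 0 < h) (m : ℕ) :
    τ * infPr τ h m = (infZeta h ^ m)⁻¹ • infPr τ h m := by
  have hz : infZeta h ^ m ≠ 0 := pow_ne_zero _ (infZeta_ne_zero h)
  have hzh : infZeta h ^ h = 1 := (infZeta_isPrimitiveRoot hh).pow_eq_one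
  have key : (infZeta h ^ m) • (τ * ∑ j ∈ Finset.range h, (infZeta h ^ (m * j)) • τ ^ j)
      = ∑ j ∈ Finset.range h, (infZeta h ^ (m * j)) • τ ^ j := by
    rw [Finset.mul_sum, Finset.smul_sum]
    have h1 : ∀ j ∈ Finset.range h, (infZeta h ^ m) • (τ * ((infZeta h ^ (m * j)) • τ ^ j))
        = (infZeta h ^ (m * (j + 1))) • τ ^ (j + 1) := by
      intro j _
      rw [mul_smul_comm, smul_smul, ← pow_succ', ← pow_add]
      congr 2
      ring
    rw [Finset.sum_congr rfl h1]
    have h2 := Finset.sum_range_succ (fun j => (infZeta h ^ (m * j)) • τ ^ j) h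
    have h3 := Finset.sum_range_succ' (fun j => (infZeta h ^ (m * j)) • τ ^ j) h
    rw [h2] at h3
    have h4 : (infZeta h ^ (m * h)) • τ ^ h = (infZeta h ^ (m * 0)) • τ ^ 0 := by
      rw [hτ, mul_comm m h, pow_mul, hzh]
      simp
    rw [h4] at h3
    exact (add_right_cancel h3).symm
  rw [infPr]
  generalize (∑ j ∈ Finset.range h, (infZeta h ^ (m * j)) • τ ^ j) = S at key
  rw [mul_smul_comm]
  conv_rhs => rw [← key]
  rw [smul_smul, smul_smul]
  congr 1
  field_simp

lemma pow_mul_infPr {τ : A} {h : ℕ} (hτ : τ ^ h = 1) (hh : 0 < h) (m j : ℕ) :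
    τ ^ j * infPr τ h m = ((infZeta h ^ (m * j)))⁻¹ • infPr τ h m := by
  induction j with
  | zero => simp
  | succ j ih =>
    rw [pow_succ', mul_assoc, ih, mul_smul_comm, mul_infPr hτ hh, smul_smul]
    congr 1
    rw [← mul_inv, ← pow_add]
    congr 2

lemma sum_infPr {τ : A} {h : ℕ} (hh : 0 < h) :
    ∑ m ∈ Finset.range h, infPr τ h m = 1 := by
  have hprim := infZeta_isPrimitiveRoot hh
  have hh0 : (h : ℂ) ≠ 0 := by exact_mod_cast hh.ne'
  simp only [infPr]
  rw [← Finset.smul_sum, Finset.sum_comm]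
  have h1 : ∀ j ∈ Finset.range h, ∑ m ∈ Finset.range h, (infZeta h ^ (m * j)) • τ ^ j
      = (if j = 0 then (h : ℂ) else 0) • τ ^ j := by
    intro j hj
    rw [← Finset.sum_smul]
    congr 1
    split_ifs with hj0
    · subst hj0; simp
    · have : ∀ m ∈ Finset.range h, infZeta h ^ (m * j) = (infZeta h ^ j) ^ m := by
        intro m _; rw [← pow_mul, mul_comm]
      rw [Finset.sum_congr rfl this]
      apply geom_sum_root_of_unity
      · rw [← pow_mul, mul_comm, pow_mul, hprim.pow_eq_one, one_pow]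
      · exact hprim.pow_ne_one_of_pos_of_lt hj0 (Finset.mem_range.mp hj)
  rw [Finset.sum_congr rfl h1]
  simp only [ite_smul, zero_smul]
  rw [Finset.sum_ite_eq' (Finset.range h) 0 (fun j => (h : ℂ) • τ ^ j)]
  simp [hh, hh0]

lemma infPr_mul_infPr {τ : A} {h : ℕ} (hτ : τ ^ h = 1) (hh : 0 < h) {m m' : ℕ}
    (hm : m < h) (hm' : m' < h) :
    infPr τ h m * infPr τ h m' = if m = m' then infPr τ h m else 0 := by
  have hprim := infZeta_isPrimitiveRoot hh
  have hh0 : (h : ℂ) ≠ 0 := by exact_mod_cast hh.ne'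
  have hz0 := infZeta_ne_zero h
  conv_lhs => rw [infPr]
  rw [smul_mul_assoc, Finset.sum_mul]
  have h1 : ∀ j ∈ Finset.range h, ((infZeta h ^ (m * j)) • τ ^ j) * infPr τ h m'
      = ((infZeta h ^ m * (infZeta h ^ m')⁻¹) ^ j) • infPr τ h m' := by
    intro j _
    rw [smul_mul_assoc, pow_mul_infPr hτ hh, smul_smul]
    congr 1
    rw [mul_pow, inv_pow, ← pow_mul, ← pow_mul]
  rw [Finset.sum_congr rfl h1, ← Finset.sum_smul, smul_smul]
  split_ifs with hmm
  · subst hmm
    rw [mul_inv_cancel₀ (pow_ne_zero _ hz0)]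
    simp [hh0]
  · rw [geom_sum_root_of_unity, mul_zero, zero_smul]
    · rw [mul_pow, inv_pow, ← pow_mul, ← pow_mul, mul_comm m, mul_comm m', pow_mul, pow_mul,
        hprim.pow_eq_one]
      simp
    · intro hcon
      have : infZeta h ^ m = infZeta h ^ m' := by
        have h2 := pow_ne_zero m' hz0
        field_simp at hcon
        exact hcon
      exact hmm (hprim.pow_inj hm hm' this)

lemma inv_mul_infPr {τ τ' : A} {h : ℕ} (hτ : τ ^ h = 1) (hτ' : τ' * τ = 1) (hh : 0 < h) (m : ℕ) :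
    τ' * infPr τ h m = (infZeta h ^ m) • infPr τ h m := by
  have hz : infZeta h ^ m ≠ 0 := pow_ne_zero _ (infZeta_ne_zero h)
  have h1 := congrArg (fun x => τ' * x) (mul_infPr hτ hh m)
  simp only [← mul_assoc, hτ', one_mul, mul_smul_comm] at h1
  conv_rhs => rw [h1]
  rw [smul_smul, mul_inv_cancel₀ hz, one_smul]

lemma inv_pow_mul_infPr {τ τ' : A} {h : ℕ} (hτ : τ ^ h = 1) (hτ' : τ' * τ = 1) (hh : 0 < h)
    (m j : ℕ) : τ' ^ j * infPr τ h m = (infZeta h ^ (m * j)) • infPr τ h m := by
  induction j with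
  | zero => simp
  | succ j ih =>
    rw [pow_succ', mul_assoc, ih, mul_smul_comm, inv_mul_infPr hτ hτ' hh, smul_smul]
    congr 1
    rw [← pow_add]
    congr 1

lemma infPr_inv_mul_infPr {τ τ' : A} {h : ℕ} (hτ : τ ^ h = 1) (hτ' : τ' * τ = 1) (hh : 0 < h)
    (m m' : ℕ) :
    infPr τ' h m * infPr τ h m' = if h ∣ m + m' then infPr τ h m' else 0 := by
  have hprim := infZeta_isPrimitiveRoot hh
  have hh0 : (h : ℂ) ≠ 0 := by exact_mod_cast hh.ne'
  conv_lhs => rw [infPr]
  rw [smul_mul_assoc, Finset.sum_mul]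
  have h1 : ∀ j ∈ Finset.range h, ((infZeta h ^ (m * j)) • τ' ^ j) * infPr τ h m'
      = ((infZeta h ^ (m + m')) ^ j) • infPr τ h m' := by
    intro j _
    rw [smul_mul_assoc, inv_pow_mul_infPr hτ hτ' hh, smul_smul]
    congr 1
    rw [← pow_add, ← pow_mul]
    congr 1
    ring
  rw [Finset.sum_congr rfl h1, ← Finset.sum_smul, smul_smul]
  split_ifs with hmm
  · rw [(hprim.pow_eq_one_iff_dvd _).mpr hmm]
    simp [hh0]
  · rw [geom_sum_root_of_unity, mul_zero, zero_smul]
    · rw [← pow_mul, mul_comm, pow_mul, hprim.pow_eq_one, one_pow]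
    · intro hcon
      exact hmm ((hprim.pow_eq_one_iff_dvd _).mp hcon)

end abstractProjectors

section detProjector

/-- determinant of `p + w (1 - p)` for an idempotent endomorphism `p`. -/
lemma det_idempotent_add_smul {E : Type*} [AddCommGroup E] [Module ℂ E] [FiniteDimensional ℂ E]
    (f : E →ₗ[ℂ] E) (hf : IsIdempotentElem f) (w : ℂ) :
    LinearMap.det (f + w • (1 - f)) = w ^ (Module.finrank ℂ E - Module.finrank ℂ (LinearMap.range f)) := by
  have hc : IsCompl (LinearMap.range f) (LinearMap.ker f) :=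
    LinearMap.IsIdempotentElem.isCompl hf
  set e := Submodule.prodEquivOfIsCompl _ _ hc with he
  have hconj : f + w • (1 - f) = (e : _ →ₗ[ℂ] E) ∘ₗ
      (LinearMap.prodMap (LinearMap.id : LinearMap.range f →ₗ[ℂ] LinearMap.range f)
        (w • (LinearMap.id : LinearMap.ker f →ₗ[ℂ] LinearMap.ker f))) ∘ₗ (e.symm : E →ₗ[ℂ] _) := by
    apply LinearMap.ext
    intro x
    obtain ⟨⟨a, b⟩, rfl⟩ := e.surjective x
    simp only [LinearMap.comp_apply, LinearEquiv.coe_coe, LinearEquiv.symm_apply_apply,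
      LinearMap.prodMap_apply, LinearMap.id_apply, LinearMap.smul_apply, LinearMap.add_apply,
      LinearMap.sub_apply, Module.End.one_apply]
    rw [he, Submodule.coe_prodEquivOfIsCompl', Submodule.coe_prodEquivOfIsCompl']
    have ha : f (a : E) = a := (LinearMap.IsIdempotentElem.mem_range_iff hf).mp a.2
    have hb : f (b : E) = 0 := b.2
    simp only [map_add, ha, hb, add_zero, Submodule.coe_smul]
    congr 1
    congr 1
    abel
  rw [hconj, LinearMap.det_conj, LinearMap.det_prodMap, LinearMap.det_id, one_mul,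
    LinearMap.det_smul, LinearMap.det_id, mul_one]
  congr 1
  have := LinearMap.finrank_range_add_finrank_ker f
  omega

end detProjector

section tau

variable {Q : Type} [Fintype Q] [DecidableEq Q] [MulAction SL(2, ℤ) Q]

variable (Q) in
omit [DecidableEq Q] in
lemma perT_pos : 0 < perT Q := orderOf_pos _

lemma T_pow_perT_smul (q : Q) : (T ^ perT Q : SL(2, ℤ)) • q = q := by
  have h := pow_orderOf_eq_one (MulAction.toPermHom SL(2, ℤ) Q T)
  rw [← map_pow] at h
  have := congrArg (fun σ : Equiv.Perm Q => σ q) h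
  simpa [perT] using this

lemma tauMat_mulVec (v : Q → ℂ) (q : Q) : (tauMat Q *ᵥ v) q = v (T • q) := by
  simp [tauMat, Matrix.mulVec, dotProduct]

lemma tauMat_pow (j : ℕ) :
    tauMat Q ^ j = Matrix.of fun q q' => if q' = (T ^ j : SL(2, ℤ)) • q then (1 : ℂ) else 0 := by
  induction j with
  | zero =>
    ext q q'
    simp [Matrix.one_apply, eq_comm]
  | succ j ih =>
    rw [pow_succ, ih]
    ext q q''
    simp only [Matrix.mul_apply, Matrix.of_apply, tauMat]
    rw [Finset.sum_eq_single ((T ^ j : SL(2, ℤ)) • q)]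
    · simp [pow_succ', mul_smul]
    · intro b _ hb
      simp [hb]
    · simp

lemma tauMat_pow_perT : tauMat Q ^ perT Q = 1 := by
  rw [tauMat_pow]
  ext q q'
  simp [T_pow_perT_smul, Matrix.one_apply, eq_comm]

lemma tauMat_transpose_mul : (tauMat Q)ᵀ * tauMat Q = 1 := by
  ext q q''
  simp only [Matrix.mul_apply, Matrix.transpose_apply, tauMat, Matrix.of_apply, Matrix.one_apply]
  by_cases h : q = q''
  · subst h
    rw [Finset.sum_eq_single ((T⁻¹ : SL(2, ℤ)) • q)]
    · simp
    · intro b _ hb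
      have : q ≠ T • b := by
        intro h1; apply hb; rw [h1]; simp
      simp [this]
    · simp
  · rw [if_neg h]
    apply Finset.sum_eq_zero
    intro b _
    by_cases h1 : q = T • b
    · have : q'' ≠ T • b := by rw [← h1]; exact fun h2 => h h2.symm
      simp [this]
    · simp [h1]

lemma prMat_eq (m : ℕ) : prMat Q m = infPr (tauMat Q) (perT Q) m := by
  rw [prMat, infPr]
  congr 1
  apply Finset.sum_congr rfl
  intro j _
  rw [infZeta_pow]
  congr 2
  push_cast
  ring

lemma prMat_transpose (m : ℕ) : (prMat Q m)ᵀ = infPr (tauMat Q)ᵀ (perT Q) m := by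
  rw [prMat_eq, infPr, infPr, Matrix.transpose_smul, Matrix.transpose_sum]
  congr 1
  apply Finset.sum_congr rfl
  intro j _
  rw [Matrix.transpose_smul, Matrix.transpose_pow]

lemma sum_prMat : ∑ m ∈ Finset.range (perT Q), prMat Q m = 1 := by
  simp only [prMat_eq]
  exact sum_infPr (perT_pos Q)

lemma prMat_mul_prMat {m m' : ℕ} (hm : m < perT Q) (hm' : m' < perT Q) :
    prMat Q m * prMat Q m' = if m = m' then prMat Q m else 0 := by
  simp only [prMat_eq]
  exact infPr_mul_infPr tauMat_pow_perT (perT_pos Q) hm hm'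

lemma tauMat_mul_prMat (m : ℕ) :
    tauMat Q * prMat Q m = (infZeta (perT Q) ^ m)⁻¹ • prMat Q m := by
  simp only [prMat_eq]
  exact mul_infPr tauMat_pow_perT (perT_pos Q) m

lemma prMat_mul_tauMat (m : ℕ) :
    prMat Q m * tauMat Q = (infZeta (perT Q) ^ m)⁻¹ • prMat Q m := by
  rw [← tauMat_mul_prMat, prMat_eq, infPr, smul_mul_assoc, mul_smul_comm, Finset.sum_mul,
    Finset.mul_sum]
  congr 1
  apply Finset.sum_congr rfl
  intro j _
  rw [smul_mul_assoc, mul_smul_comm, ← pow_succ, ← pow_succ']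

lemma sum_smul_prMat_mul (a b : ℕ → ℂ) :
    (∑ m ∈ Finset.range (perT Q), a m • prMat Q m) * (∑ m ∈ Finset.range (perT Q), b m • prMat Q m)
      = ∑ m ∈ Finset.range (perT Q), (a m * b m) • prMat Q m := by
  rw [Finset.sum_mul]
  apply Finset.sum_congr rfl
  intro m hm
  rw [Finset.mul_sum, Finset.sum_eq_single m]
  · rw [smul_mul_smul_comm, prMat_mul_prMat (Finset.mem_range.mp hm) (Finset.mem_range.mp hm),
      if_pos rfl]
  · intro m' hm' hne
    rw [smul_mul_smul_comm, prMat_mul_prMat (Finset.mem_range.mp hm) (Finset.mem_range.mp hm'),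
      if_neg (Ne.symm hne), smul_zero]
  · intro h; exact absurd hm h

lemma prMat_mul_sum_smul (a : ℕ → ℂ) {m : ℕ} (hm : m < perT Q) :
    prMat Q m * (∑ m' ∈ Finset.range (perT Q), a m' • prMat Q m') = a m • prMat Q m := by
  rw [Finset.mul_sum, Finset.sum_eq_single m]
  · rw [mul_smul_comm, prMat_mul_prMat hm hm, if_pos rfl]
  · intro m' hm' hne
    rw [mul_smul_comm, prMat_mul_prMat hm (Finset.mem_range.mp hm'), if_neg (Ne.symm hne),
      smul_zero]
  · intro h; exact absurd (Finset.mem_range.mpr hm) h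

theorem Emat_mul_Emat_neg (z : ℂ) : Emat Q z * Emat Q (-z) = 1 := by
  rw [Emat, Emat, sum_smul_prMat_mul, ← sum_prMat]
  apply Finset.sum_congr rfl
  intro m _
  rw [← Complex.exp_add]
  have : -2 * ↑π * Complex.I * ↑m * z / ↑(perT Q) + -2 * ↑π * Complex.I * ↑m * -z / ↑(perT Q) = 0 := by
    ring
  rw [this, Complex.exp_zero, one_smul]

lemma prMat_mul_Emat (z : ℂ) {m : ℕ} (hm : m < perT Q) :
    prMat Q m * Emat Q z = Complex.exp (-2 * π * Complex.I * m * z / perT Q) • prMat Q m := by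
  rw [Emat, prMat_mul_sum_smul _ hm]

omit [DecidableEq Q] in
theorem fixDim_T_le : fixDim Q T ≤ Fintype.card Q := by
  have := Submodule.finrank_le (fixSub Q T)
  rwa [Module.finrank_fintype_fun_eq_card] at this

lemma tauMat_pow_mulVec_of_mem {v : Q → ℂ} (hv : v ∈ fixSub Q T) (j : ℕ) :
    (tauMat Q ^ j) *ᵥ v = v := by
  induction j with
  | zero => simp
  | succ j ih =>
    rw [pow_succ, ← Matrix.mulVec_mulVec]
    have : tauMat Q *ᵥ v = v := by
      ext q
      rw [tauMat_mulVec]
      exact hv q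
    rw [this, ih]

lemma range_prMat_zero : LinearMap.range (Matrix.toLin' (prMat Q 0)) = fixSub Q T := by
  apply le_antisymm
  · rintro _ ⟨y, rfl⟩ q
    rw [Matrix.toLin'_apply, ← tauMat_mulVec (prMat Q 0 *ᵥ y) q, Matrix.mulVec_mulVec,
      tauMat_mul_prMat]
    simp
  · intro v hv
    refine ⟨v, ?_⟩
    have hh0 : (perT Q : ℂ) ≠ 0 := by exact_mod_cast (perT_pos Q).ne'
    rw [Matrix.toLin'_apply, prMat_eq, infPr, Matrix.smul_mulVec, Matrix.sum_mulVec]
    have : ∀ j ∈ Finset.range (perT Q),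
        ((infZeta (perT Q) ^ (0 * j)) • tauMat Q ^ j) *ᵥ v = v := by
      intro j _
      rw [zero_mul, pow_zero, one_smul, tauMat_pow_mulVec_of_mem hv]
    rw [Finset.sum_congr rfl this, Finset.sum_const, Finset.card_range, ← Nat.cast_smul_eq_nsmul ℂ,
      smul_smul, inv_mul_cancel₀ hh0, one_smul]

lemma Emat_neg_transpose_mul (z : ℂ) :
    (Emat Q (-z))ᵀ * Emat Q (-z) =
      prMat Q 0 + Complex.exp (2 * π * Complex.I * z) • (1 - prMat Q 0) := by
  set h := perT Q with hh
  have hpos : 0 < h := perT_pos Q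
  have hh0 : (h : ℂ) ≠ 0 := by exact_mod_cast hpos.ne'
  set w := Complex.exp (2 * π * Complex.I * z) with hw
  set c : ℕ → ℂ := fun m => Complex.exp (-2 * π * Complex.I * m * (-z) / h) with hc
  have hE : Emat Q (-z) = ∑ m ∈ Finset.range h, c m • prMat Q m := rfl
  rw [hE, Matrix.transpose_sum, Finset.sum_mul]
  have h1 : ∀ m ∈ Finset.range h, (c m • prMat Q m)ᵀ * ∑ m' ∈ Finset.range h, c m' • prMat Q m'
      = ∑ m' ∈ Finset.range h, (if h ∣ m + m' then c m * c m' else 0) • prMat Q m' := by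
    intro m _
    rw [Finset.mul_sum]
    apply Finset.sum_congr rfl
    intro m' _
    rw [Matrix.transpose_smul, smul_mul_smul_comm, prMat_transpose, prMat_eq,
      infPr_inv_mul_infPr tauMat_pow_perT tauMat_transpose_mul hpos]
    split_ifs
    · rfl
    · simp
  rw [Finset.sum_congr rfl h1, Finset.sum_comm]
  have h2 : ∀ m' ∈ Finset.range h,
      ∑ m ∈ Finset.range h, (if h ∣ m + m' then c m * c m' else 0) • prMat Q m'
        = (if m' = 0 then 1 else w) • prMat Q m' := by
    intro m' hm'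
    have hm'lt : m' < h := Finset.mem_range.mp hm'
    rw [← Finset.sum_smul]
    congr 1
    by_cases h0 : m' = 0
    · subst h0
      rw [if_pos rfl, Finset.sum_eq_single 0]
      · simp [hc]
      · intro m hm hne
        have hmlt : m < h := Finset.mem_range.mp hm
        rw [if_neg]
        rw [add_zero]
        exact fun hd => hne (Nat.eq_zero_of_dvd_of_lt hd hmlt)
      · intro hcon; exact absurd (Finset.mem_range.mpr hpos) hcon
    · rw [if_neg h0, Finset.sum_eq_single (h - m')]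
      · rw [if_pos (by rw [Nat.sub_add_cancel hm'lt.le])]
        rw [hc, hw]
        simp only
        rw [← Complex.exp_add]
        congr 1
        rw [Nat.cast_sub hm'lt.le]
        field_simp
        ring
      · intro m hm hne
        have hmlt : m < h := Finset.mem_range.mp hm
        rw [if_neg]
        rintro ⟨k, hk⟩
        apply hne
        have hk1 : k = 1 := by
          have h3 : m + m' < 2 * h := by omega
          have h4 : 0 < m + m' := by omega
          rw [hk] at h3 h4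
          have : k < 2 := by
            by_contra hcon
            push Not at hcon
            have : h * 2 ≤ h * k := Nat.mul_le_mul_left h hcon
            omega
          have : 0 < k := Nat.pos_of_ne_zero (by rintro rfl; simp at h4)
          omega
        subst hk1
        omega
      · intro hcon
        exact absurd (Finset.mem_range.mpr (by omega)) hcon
  rw [Finset.sum_congr rfl h2]
  have h3 : ∀ m' ∈ Finset.range h, (if m' = 0 then 1 else w) • prMat Q m'
      = w • prMat Q m' + (if m' = 0 then (1 - w) • prMat Q m' else 0) := by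
    intro m' _
    split_ifs
    · rw [← add_smul]; congr 1; ring
    · rw [add_zero]
  rw [Finset.sum_congr rfl h3, Finset.sum_add_distrib, ← Finset.smul_sum, sum_prMat,
    Finset.sum_ite_eq' (Finset.range h) 0 (fun m' => (1 - w) • prMat Q m'),
    if_pos (Finset.mem_range.mpr hpos), sub_smul, smul_sub, one_smul]
  abel

theorem det_Emat_neg_sq (z : ℂ) :
    (Emat Q (-z)).det ^ 2 = Complex.exp (2 * π * Complex.I * z) ^ (Fintype.card Q - fixDim Q T) := by
  have h1 : (Emat Q (-z)).det ^ 2 = ((Emat Q (-z))ᵀ * Emat Q (-z)).det := by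
    rw [Matrix.det_mul, Matrix.det_transpose, sq]
  rw [h1, Emat_neg_transpose_mul, ← LinearMap.det_toLin']
  have hidem : IsIdempotentElem (Matrix.toLin' (prMat Q 0)) := by
    rw [IsIdempotentElem, Module.End.mul_eq_comp, ← Matrix.toLin'_mul,
      prMat_mul_prMat (perT_pos Q) (perT_pos Q), if_pos rfl]
  have h2 := det_idempotent_add_smul (Matrix.toLin' (prMat Q 0)) hidem
    (Complex.exp (2 * π * Complex.I * z))
  rw [range_prMat_zero, Module.finrank_fintype_fun_eq_card] at h2
  rw [fixDim, ← h2]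
  congr 1
  simp [Matrix.toLin'_one]
  rfl

end tau

section scalar

lemma mdiff_comp_coe {f : ℂ → ℂ} (hf : Differentiable ℂ f) : MDiff (fun z : ℍ => f (z : ℂ)) := by
  rw [UpperHalfPlane.mdifferentiable_iff]
  apply hf.differentiableOn.congr
  intro x hx
  simp [ofComplex_apply_of_im_pos hx]

lemma periodic_comp_ofComplex_of_T {G : ℍ → ℂ} (hG : ∀ z : ℍ, G (T • z) = G z) :
    Function.Periodic (G ∘ ofComplex) (1 : ℝ) := by
  intro w
  by_cases hw : 0 < w.im
  · have hw' : 0 < (w + (1 : ℝ)).im := by simpa using hw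
    simp only [Function.comp_apply, ofComplex_apply_of_im_pos hw', ofComplex_apply_of_im_pos hw]
    rw [← hG ⟨w, hw⟩]
    congr 1
    ext
    rw [modular_T_smul]
    simp [add_comm]
  · push Not at hw
    have hw' : (w + (1 : ℝ)).im ≤ 0 := by simpa using hw
    simp only [Function.comp_apply]
    rw [ofComplex_apply_of_im_nonpos hw', ofComplex_apply_of_im_nonpos hw]

lemma tendsto_rexp_neg_mul_im {c : ℝ} (hc : 0 < c) :
    Tendsto (fun z : ℍ => Real.exp (-c * z.im)) atImInfty (𝓝 0) := by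
  have h1 : Tendsto (fun z : ℍ => z.im) atImInfty atTop := tendsto_comap
  have h2 : Tendsto (fun z : ℍ => -c * z.im) atImInfty atBot := by
    have := h1.const_mul_atTop hc
    refine (tendsto_neg_atTop_atBot.comp this).congr fun z => ?_
    simp
  exact Real.tendsto_exp_atBot.comp h2

/-- a holomorphic `1`-periodic function on `ℍ` with `q G → 0` is bounded at `i∞`. -/
lemma isBoundedAtImInfty_of_q_mul {G : ℍ → ℂ} (hG : MDiff G)
    (hper : ∀ z : ℍ, G (T • z) = G z)
    (hz : IsZeroAtImInfty (fun z : ℍ => Complex.exp (2 * π * Complex.I * z) * G z)) :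
    IsBoundedAtImInfty G := by
  have hexpd : MDiff (fun z : ℍ => Complex.exp (2 * π * Complex.I * z)) :=
    mdiff_comp_coe (f := fun x => Complex.exp (2 * π * Complex.I * x)) (by fun_prop)
  have hd : MDiff (fun z : ℍ => Complex.exp (2 * π * Complex.I * z) * G z) := hexpd.mul hG
  have hp : ∀ z : ℍ, Complex.exp (2 * π * Complex.I * (T • z : ℍ)) * G (T • z) =
      Complex.exp (2 * π * Complex.I * z) * G z := by
    intro z
    rw [hper, modular_T_smul]
    congr 1
    have : ((((1 : ℝ) +ᵥ z : ℍ)) : ℂ) = 1 + z := by simp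
    rw [this, mul_add, Complex.exp_add, mul_one, Complex.exp_two_pi_mul_I, one_mul]
  have hdec := hz.exp_decay_atImInfty (h := 1) one_pos
    (periodic_comp_ofComplex_of_T (G := fun z : ℍ => Complex.exp (2 * π * Complex.I * z) * G z) hp)
    hd hz.isBoundedAtImInfty
  rw [IsBoundedAtImInfty, BoundedAtFilter]
  obtain ⟨C, hC⟩ := hdec.bound
  apply Asymptotics.IsBigO.of_bound C
  filter_upwards [hC] with z hz'
  have hn : ‖Complex.exp (2 * π * Complex.I * z)‖ = Real.exp (-2 * π * z.im / 1) := by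
    rw [Complex.norm_exp]
    congr 1
    simp
  rw [norm_mul, hn, Real.norm_of_nonneg (Real.exp_pos _).le] at hz'
  have hpos := Real.exp_pos (-2 * π * z.im / 1)
  simp only [Pi.one_apply, norm_one, mul_one]
  rw [mul_comm] at hz'
  exact le_of_mul_le_mul_right hz' hpos

lemma tendsto_valueAtInfty {G : ℍ → ℂ} (hG : MDiff G) (hper : ∀ z : ℍ, G (T • z) = G z)
    (hb : IsBoundedAtImInfty G) : Tendsto G atImInfty (𝓝 (valueAtInfty G)) := by
  have h1 := exp_decay_sub_atImInfty (h := 1) one_pos (periodic_comp_ofComplex_of_T hper) hG hb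
  have h2 : Tendsto (fun τ : ℍ => Real.exp (-2 * π * τ.im / 1)) atImInfty (𝓝 0) := by
    have := tendsto_rexp_neg_mul_im (c := 2 * π) (by positivity)
    refine this.congr fun z => ?_
    congr 1
    ring
  have h3 := h1.trans_tendsto h2
  have h4 := h3.add_const (valueAtInfty G)
  simpa using h4

end scalar

section main

variable {Q : Type} [Fintype Q] [DecidableEq Q] [MulAction SL(2, ℤ) Q]

/-- the `m`-th isotypic component, renormalised to be `1`-periodic. -/
noncomputable def infG (F : ℍ → Q → ℂ) (m : ℕ) (q : Q) (z : ℍ) : ℂ :=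
  Complex.exp (-2 * π * Complex.I * m * z / perT Q) * (prMat Q m *ᵥ F z) q

lemma tendsto_q_mul_exp {m : ℕ} (hm : m < perT Q) :
    Tendsto (fun z : ℍ => Complex.exp (2 * π * Complex.I * z) *
      Complex.exp (-2 * π * Complex.I * m * z / perT Q)) atImInfty (𝓝 0) := by
  have hpos : (0 : ℝ) < perT Q := by exact_mod_cast perT_pos Q
  have hlt : (m : ℝ) < perT Q := by exact_mod_cast hm
  have hc : 0 < 2 * π * (1 - m / perT Q) := by
    have : (m : ℝ) / perT Q < 1 := (div_lt_one hpos).mpr hlt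
    have := Real.pi_pos
    apply mul_pos (by positivity) (by linarith)
  rw [tendsto_zero_iff_norm_tendsto_zero]
  refine (tendsto_rexp_neg_mul_im hc).congr fun z => ?_
  rw [← Complex.exp_add, Complex.norm_exp]
  congr 1
  have hne : (perT Q : ℂ) ≠ 0 := by exact_mod_cast (perT_pos Q).ne'
  have : 2 * ↑π * Complex.I * ↑z + -2 * ↑π * Complex.I * ↑m * ↑z / ↑(perT Q)
      = ((2 * π * (1 - m / perT Q) : ℝ) : ℂ) * (Complex.I * z) := by
    push_cast
    field_simp
    ring
  rw [this, Complex.re_ofReal_mul]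
  simp

lemma IsVF.tauMat_mulVec_T {k : ℤ} {F : ℍ → Q → ℂ} (hF : IsVF Q k F) (z : ℍ) :
    tauMat Q *ᵥ F (T • z) = F z := by
  ext q
  rw [tauMat_mulVec, hF.equiv T z q]
  have : denom (T : SL(2, ℤ)) z = 1 := by
    rw [ModularGroup.denom_apply]
    simp [ModularGroup.coe_T]
  rw [this, one_zpow, one_mul]

lemma IsVF.mdiff_mulVec {k : ℤ} {F : ℍ → Q → ℂ} (hF : IsVF Q k F) (M : Matrix Q Q ℂ) (q : Q) :
    MDiff (fun z : ℍ => (M *ᵥ F z) q) := by
  have : (fun z : ℍ => (M *ᵥ F z) q) = fun z => ∑ q', M q q' * F z q' := by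
    ext z; simp [Matrix.mulVec, dotProduct]
  rw [this, UpperHalfPlane.mdifferentiable_iff]
  have h1 : ∀ q', DifferentiableOn ℂ ((fun z => F z q') ∘ ofComplex) {z | 0 < z.im} := fun q' =>
    UpperHalfPlane.mdifferentiable_iff.mp (hF.holo q')
  have h2 : DifferentiableOn ℂ (fun x => ∑ q', M q q' * ((fun z => F z q') ∘ ofComplex) x)
      {z | 0 < z.im} :=
    DifferentiableOn.fun_sum fun q' _ => (h1 q').const_mul _
  exact h2

lemma IsVF.bdd_mulVec {k : ℤ} {F : ℍ → Q → ℂ} (hF : IsVF Q k F) (M : Matrix Q Q ℂ) (q : Q) :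
    IsBoundedAtImInfty (fun z : ℍ => (M *ᵥ F z) q) := by
  have : (fun z : ℍ => (M *ᵥ F z) q) = fun z => ∑ q', M q q' * F z q' := by
    ext z; simp [Matrix.mulVec, dotProduct]
  rw [this, IsBoundedAtImInfty, BoundedAtFilter]
  apply Asymptotics.IsBigO.fun_sum
  intro q' _
  exact (hF.bdd q').const_mul_left _

lemma IsVF.infG_mdiff {k : ℤ} {F : ℍ → Q → ℂ} (hF : IsVF Q k F) (m : ℕ) (q : Q) :
    MDiff (infG F m q) := by
  have h1 : MDiff (fun z : ℍ => Complex.exp (-2 * π * Complex.I * m * z / perT Q)) :=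
    mdiff_comp_coe (f := fun x => Complex.exp (-2 * π * Complex.I * m * x / perT Q)) (by fun_prop)
  exact h1.mul (hF.mdiff_mulVec _ q)

lemma IsVF.infG_T {k : ℤ} {F : ℍ → Q → ℂ} (hF : IsVF Q k F) (m : ℕ) (q : Q) (z : ℍ) :
    infG F m q (T • z) = infG F m q z := by
  have hne : (perT Q : ℂ) ≠ 0 := by exact_mod_cast (perT_pos Q).ne'
  have hz0 : infZeta (perT Q) ^ m ≠ 0 := pow_ne_zero _ (infZeta_ne_zero _)
  have h1 : prMat Q m *ᵥ F z = (infZeta (perT Q) ^ m)⁻¹ • (prMat Q m *ᵥ F (T • z)) := by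
    conv_lhs => rw [← hF.tauMat_mulVec_T z]
    rw [Matrix.mulVec_mulVec, prMat_mul_tauMat, Matrix.smul_mulVec]
  have h2 : Complex.exp (-2 * π * Complex.I * m * (T • z : ℍ) / perT Q)
      = Complex.exp (-2 * π * Complex.I * m * z / perT Q) * (infZeta (perT Q) ^ m)⁻¹ := by
    rw [infZeta_pow, ← Complex.exp_neg, ← Complex.exp_add, modular_T_smul]
    congr 1
    have : ((((1 : ℝ) +ᵥ z : ℍ)) : ℂ) = 1 + z := by simp
    rw [this]
    field_simp
    ring
  rw [infG, infG, h1, h2]
  simp only [Pi.smul_apply, smul_eq_mul]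
  ring

lemma IsVF.infG_bdd {k : ℤ} {F : ℍ → Q → ℂ} (hF : IsVF Q k F) {m : ℕ} (hm : m < perT Q) (q : Q) :
    IsBoundedAtImInfty (infG F m q) := by
  apply isBoundedAtImInfty_of_q_mul (hF.infG_mdiff m q) (hF.infG_T m q)
  have h1 := tendsto_q_mul_exp (Q := Q) hm
  have h2 := hF.bdd_mulVec (prMat Q m) q
  rw [IsBoundedAtImInfty, BoundedAtFilter] at h2
  have h3 := ((Asymptotics.isLittleO_one_iff ℝ).mpr h1).mul_isBigO h2
  have h4 : Tendsto (fun z : ℍ => (Complex.exp (2 * π * Complex.I * z) *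
      Complex.exp (-2 * π * Complex.I * m * z / perT Q)) * (prMat Q m *ᵥ F z) q) atImInfty (𝓝 0) := by
    apply (Asymptotics.isLittleO_one_iff ℝ).mp
    simpa using h3
  refine h4.congr fun z => ?_
  rw [infG]
  ring

lemma Emat_mulVec_apply (F : ℍ → Q → ℂ) (z : ℍ) (q : Q) :
    (Emat Q (z : ℂ) *ᵥ F z) q = ∑ m ∈ Finset.range (perT Q), infG F m q z := by
  rw [Emat, Matrix.sum_mulVec, Finset.sum_apply]
  apply Finset.sum_congr rfl
  intro m _
  rw [Matrix.smul_mulVec, infG]
  rfl

theorem tendsto_Emat_mulVec {k : ℤ} {F : ℍ → Q → ℂ} (hF : IsVF Q k F) :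
    Tendsto (fun z : ℍ => Emat Q (z : ℂ) *ᵥ F z) atImInfty (𝓝 (lead F)) := by
  apply tendsto_nhds_limUnder
  refine ⟨fun q => ∑ m ∈ Finset.range (perT Q), valueAtInfty (infG F m q), ?_⟩
  rw [tendsto_pi_nhds]
  intro q
  simp only [Emat_mulVec_apply]
  apply tendsto_finsetSum
  intro m hm
  exact tendsto_valueAtInfty (hF.infG_mdiff m q) (hF.infG_T m q)
    (hF.infG_bdd (Finset.mem_range.mp hm) q)

lemma infG_eq_prMat_mulVec (F : ℍ → Q → ℂ) {m : ℕ} (hm : m < perT Q) (q : Q) (z : ℍ) :
    infG F m q z = (prMat Q m *ᵥ (Emat Q (z : ℂ) *ᵥ F z)) q := by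
  rw [Matrix.mulVec_mulVec, prMat_mul_Emat _ hm, Matrix.smul_mulVec, infG]
  rfl

theorem decay_of_lead_eq_zero {k : ℤ} {F : ℍ → Q → ℂ} (hF : IsVF Q k F) (h : lead F = 0) (q : Q) :
    (fun z : ℍ => F z q) =O[atImInfty] (fun z : ℍ => Real.exp (-2 * π * z.im)) := by
  have hlim := tendsto_Emat_mulVec hF
  rw [h] at hlim
  have hzero : ∀ m ∈ Finset.range (perT Q), IsZeroAtImInfty (infG F m q) := by
    intro m hm
    have hm' := Finset.mem_range.mp hm
    have h1 : Tendsto (fun z : ℍ => (prMat Q m *ᵥ (Emat Q (z : ℂ) *ᵥ F z)) q) atImInfty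
        (𝓝 ((prMat Q m *ᵥ (0 : Q → ℂ)) q)) := by
      have hc : Continuous (fun v : Q → ℂ => (prMat Q m *ᵥ v) q) := by
        have : Continuous (fun v : Q → ℂ => prMat Q m *ᵥ v) :=
          Continuous.matrix_mulVec continuous_const continuous_id
        exact (continuous_apply q).comp this
      exact (hc.tendsto 0).comp hlim
    rw [Matrix.mulVec_zero] at h1
    exact h1.congr fun z => (infG_eq_prMat_mulVec F hm' q z).symm
  have hdec : ∀ m ∈ Finset.range (perT Q),
      (infG F m q) =O[atImInfty] (fun z : ℍ => Real.exp (-2 * π * z.im)) := by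
    intro m hm
    have := (hzero m hm).exp_decay_atImInfty (h := 1) one_pos
      (periodic_comp_ofComplex_of_T (hF.infG_T m q)) (hF.infG_mdiff m q)
      (hzero m hm).isBoundedAtImInfty
    simpa using this
  have hF' : (fun z : ℍ => F z q) = fun z : ℍ => ∑ m ∈ Finset.range (perT Q),
      Complex.exp (2 * π * Complex.I * m * z / perT Q) * infG F m q z := by
    ext z
    have h1 : F z q = ((∑ m ∈ Finset.range (perT Q), prMat Q m) *ᵥ F z) q := by
      rw [sum_prMat, Matrix.one_mulVec]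
    rw [h1, Matrix.sum_mulVec, Finset.sum_apply]
    apply Finset.sum_congr rfl
    intro m _
    rw [infG, ← mul_assoc, ← Complex.exp_add]
    have : 2 * ↑π * Complex.I * ↑m * ↑z / ↑(perT Q) + -2 * ↑π * Complex.I * ↑m * ↑z / ↑(perT Q) = 0 := by
      ring
    rw [this, Complex.exp_zero, one_mul]
  rw [hF']
  apply Asymptotics.IsBigO.fun_sum
  intro m hm
  refine Asymptotics.IsBigO.trans ?_ (hdec m hm)
  apply Asymptotics.IsBigO.of_bound 1
  filter_upwards with z
  rw [norm_mul, one_mul]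
  apply mul_le_of_le_one_left (norm_nonneg _)
  rw [Complex.norm_exp]
  apply Real.exp_le_one_iff.mpr
  have hpos : (0 : ℝ) < perT Q := by exact_mod_cast perT_pos Q
  have : 2 * ↑π * Complex.I * ↑m * ↑z / ↑(perT Q)
      = ((2 * π * m / perT Q : ℝ) : ℂ) * (Complex.I * z) := by
    push_cast
    ring
  rw [this, Complex.re_ofReal_mul]
  simp only [Complex.mul_re, Complex.I_re, zero_mul, Complex.I_im, one_mul, zero_sub, coe_im]
  have h1 : 0 ≤ 2 * π * m / perT Q := by positivity
  have h2 := z.im_pos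
  nlinarith

theorem tendsto_discriminant_mul_Emat (q q' : Q) :
    Tendsto (fun z : ℍ => ModularForm.discriminant z * Emat Q (z : ℂ) q q') atImInfty (𝓝 0) := by
  have h0 : (fun z : ℍ => ModularForm.discriminant z * Emat Q (z : ℂ) q q') = fun z : ℍ =>
      ∑ m ∈ Finset.range (perT Q), ((Complex.exp (2 * π * Complex.I * z) *
        Complex.exp (-2 * π * Complex.I * m * z / perT Q)) *
          (∏' n, (1 - eta_q n z) ^ 24)) * prMat Q m q q' := by
    ext z
    rw [Emat, Matrix.sum_apply, Finset.mul_sum]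
    apply Finset.sum_congr rfl
    intro m _
    rw [Matrix.smul_apply, discriminant_eq_q_prod, smul_eq_mul]
    have : Function.Periodic.qParam 1 (z : ℂ) = Complex.exp (2 * π * Complex.I * z) := by
      simp [Function.Periodic.qParam]
    rw [this]
    ring
  rw [h0]
  have : (0 : ℂ) = ∑ m ∈ Finset.range (perT Q), (0 * 1) * prMat Q m q q' := by simp
  rw [this]
  apply tendsto_finsetSum
  intro m hm
  exact ((tendsto_q_mul_exp (Finset.mem_range.mp hm)).mul
    tendsto_atImInfty_tprod_one_sub_eta_q_pow).mul_const _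

end main

end Fermat.Agent.ES
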