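import Fermat.Agent.ES.FrameBasics
import Fermat.Agent.ES.Infinity
import Fermat.Agent.ES.Division

set_option autoImplicit false
set_option linter.unusedSectionVars false

open UpperHalfPlane ModularGroup ModularForm EisensteinSeries Filter Topology
open scoped MatrixGroups Manifold Real Matrix

/-!
# ES project, task C4c: the leading matrix of a minimal frame is invertible
-/

namespace Fermat.Agent.ES

variable {Q : Type} [Fintype Q] [DecidableEq Q] [MulAction SL(2, ℤ) Q]

namespace ClaimB

theorem tendsto_levelOne {k : ℤ} (f : ModularForm 𝒮ℒ k) :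
    Tendsto f atImInfty (𝓝 ((qExpansion 1 f).coeff 0)) := by
  have hanal := ModularFormClass.analyticAt_cuspFunction_zero f one_pos one_mem_strictPeriods_SL
  have h0 : (qExpansion 1 f).coeff 0 = cuspFunction 1 f 0 := by
    simp [qExpansion_coeff]
  rw [h0]
  exact (hanal.continuousAt.tendsto.comp (qParam_tendsto_atImInfty one_pos)).congr
    (fun τ ↦ SlashInvariantFormClass.eq_cuspFunction f τ one_mem_strictPeriods_SL one_ne_zero)

theorem tendsto_E {n : ℕ} (hn : 3 ≤ n) (he : Even n) : Tendsto (E hn) atImInfty (𝓝 1) := by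
  have := tendsto_levelOne (E hn)
  rwa [E_qExpansion_coeff_zero hn he] at this

/-- the zero function is a vector valued form of any weight. -/
theorem isVF_zero (k : ℤ) : IsVF Q k (fun _ _ => 0) where
  holo _ := mdifferentiable_const
  equiv _ _ _ := by simp
  bdd _ := by
    rw [IsBoundedAtImInfty, BoundedAtFilter]
    exact Asymptotics.isBigO_zero _ _

theorem isVF_sum {ι : Type} (s : Finset ι) {k : ℤ} {F : ι → ℍ → Q → ℂ}
    (hF : ∀ i ∈ s, IsVF Q k (F i)) : IsVF Q k (fun z q => ∑ i ∈ s, F i z q) where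
  holo q := by
    have : (fun z => ∑ i ∈ s, F i z q) = ∑ i ∈ s, fun z => F i z q := by
      ext z; simp
    rw [this]
    exact .sum fun i hi => (hF i hi).holo q
  equiv g z q := by
    rw [Finset.mul_sum]
    exact Finset.sum_congr rfl fun i hi => (hF i hi).equiv g z q
  bdd q := by
    rw [IsBoundedAtImInfty, BoundedAtFilter]
    exact Asymptotics.IsBigO.fun_sum fun i hi => (hF i hi).bdd q

theorem isVF_mul {k w : ℤ} {F : ℍ → Q → ℂ} (hF : IsVF Q k F) (A : ModularForm 𝒮ℒ w) (c : ℂ) :
    IsVF Q (w + k) (fun z q => c * A z * F z q) where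
  holo q := (mdifferentiable_const.mul A.holo').mul (hF.holo q)
  equiv g z q := by
    rw [hF.equiv, levelOne_smul_eq, zpow_add₀ (denom_ne_zero g z)]
    ring
  bdd q := by
    have hA : IsBoundedAtImInfty A := ModularFormClass.bdd_at_infty A
    have h1 : IsBoundedAtImInfty (fun _ : ℍ => c) := Filter.const_boundedAtFilter _ c
    exact (h1.mul hA).mul (hF.bdd q)

/-- Eisenstein series with junk value. -/
noncomputable def Ew (n : ℕ) : ℍ → ℂ := if h : 3 ≤ n then E h else 0

theorem Ew_eq {n : ℕ} (h : 3 ≤ n) : Ew n = E h := by simp [Ew, h]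

theorem mdiff_Ew (n : ℕ) : MDiff (Ew n) := by
  by_cases h : 3 ≤ n
  · rw [Ew_eq h]; exact (E h).holo'
  · simp only [Ew, h, dif_neg, not_false_eq_true]
    exact mdifferentiable_const

end ClaimB

open ClaimB in
theorem IsMinFrame.leadMat_det_ne_zero [MulAction.IsPretransitive SL(2, ℤ) Q]
    (hneg : ∀ q : Q, (-1 : SL(2, ℤ)) • q = q) {k : Q → ℤ} {F : Q → ℍ → Q → ℂ}
    (h : IsMinFrame k F) : (leadMat F).det ≠ 0 := by
  intro hdet
  obtain ⟨c, hc0, hc⟩ := Matrix.exists_mulVec_eq_zero_iff.2 hdet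
  have hev : ∀ i, Even (k i) := fun i => (h.1.vf i).weight_even hneg (h.1.col_ne_zero i)
  -- index of maximal weight
  have hne : (Finset.univ.filter fun i => c i ≠ 0).Nonempty := by
    by_contra hcon
    rw [Finset.not_nonempty_iff_eq_empty, Finset.filter_eq_empty_iff] at hcon
    exact hc0 (funext fun i => by simpa using hcon (Finset.mem_univ i))
  obtain ⟨i₀, hi₀, hmax⟩ := Finset.exists_max_image _ k hne
  have hci₀ : c i₀ ≠ 0 := (Finset.mem_filter.1 hi₀).2
  have hmax' : ∀ i, c i ≠ 0 → k i ≤ k i₀ := fun i hi => hmax i (Finset.mem_filter.2 ⟨Finset.mem_univ _, hi⟩)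
  set n : Q → ℕ := fun i => (k i₀ - k i + 4).toNat with hn
  have hnZ : ∀ i, c i ≠ 0 → (n i : ℤ) = k i₀ - k i + 4 := fun i hi => by
    have := hmax' i hi
    simp only [hn]
    omega
  have hn3 : ∀ i, c i ≠ 0 → 3 ≤ n i := fun i hi => by
    have := hnZ i hi
    have := hmax' i hi
    omega
  have hnev : ∀ i, c i ≠ 0 → Even (n i) := fun i hi => by
    have h1 := hnZ i hi
    have h2 : Even ((n i : ℤ)) := by
      rw [h1]
      exact ((hev i₀).sub (hev i)).add (by decide)
    exact_mod_cast h2
  set H : ℍ → Q → ℂ := fun z q => ∑ i, c i * Ew (n i) z * F i z q with hH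
  have hHvf : IsVF Q (k i₀ + 4) H := by
    refine isVF_sum _ fun i _ => ?_
    by_cases hi : c i = 0
    · simp only [hi, zero_mul]
      exact isVF_zero _
    · have := isVF_mul (h.1.vf i) (E (hn3 i hi)) (c i)
      have hw : (n i : ℤ) + k i = k i₀ + 4 := by rw [hnZ i hi]; ring
      rw [Ew_eq (hn3 i hi), ← hw]
      exact this
  have hlead : lead H = 0 := by
    apply Tendsto.limUnder_eq
    have h1 : ∀ z : ℍ, Emat Q (z : ℂ) *ᵥ H z =
        ∑ i, (c i * Ew (n i) z) • (Emat Q (z : ℂ) *ᵥ F i z) := by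
      intro z
      have : H z = ∑ i, (c i * Ew (n i) z) • F i z := by
        ext q
        simp [hH]
      rw [this, Matrix.mulVec_sum]
      exact Finset.sum_congr rfl fun i _ => Matrix.mulVec_smul _ _ _
    have h2 : Tendsto (fun z : ℍ => ∑ i, (c i * Ew (n i) z) • (Emat Q (z : ℂ) *ᵥ F i z)) atImInfty
        (𝓝 (∑ i, c i • lead (F i))) := by
      refine tendsto_finsetSum _ fun i _ => ?_
      by_cases hi : c i = 0
      · simp only [hi, zero_mul, zero_smul]
        exact tendsto_const_nhds
      · have h3 : Tendsto (fun z : ℍ => c i * Ew (n i) z) atImInfty (𝓝 (c i * 1)) := by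
          rw [Ew_eq (hn3 i hi)]
          exact (tendsto_E (hn3 i hi) (hnev i hi)).const_mul _
        rw [mul_one] at h3
        exact h3.smul (tendsto_Emat_mulVec (h.1.vf i))
    have h4 : ∑ i, c i • lead (F i) = 0 := by
      rw [← hc]
      ext q
      simp [Matrix.mulVec, dotProduct, leadMat, mul_comm]
    rw [h4] at h2
    exact h2.congr fun z => (h1 z).symm
  have hG := hHvf.div_discriminant (decay_of_lead_eq_zero hHvf hlead)
  have hnew := h.1.replace i₀ hG (fun z => ModularForm.discriminant z)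
    (fun i z => c i * Ew (n i) z) (fun i => mdifferentiable_const.mul (mdiff_Ew _)) ?_ ?_
  · have h5 := h.2 _ _ hnew
    rw [Finset.sum_update_of_mem (Finset.mem_univ _)] at h5
    have h6 : ∑ i, k i = k i₀ + ∑ i ∈ Finset.univ \ {i₀}, k i := by
      rw [← Finset.add_sum_erase _ _ (Finset.mem_univ i₀), Finset.sdiff_singleton_eq_erase]
    omega
  · intro h0
    have h7 : Tendsto (fun z : ℍ => c i₀ * Ew (n i₀) z) atImInfty (𝓝 (c i₀ * 1)) := by
      rw [Ew_eq (hn3 i₀ hci₀)]
      exact (tendsto_E (hn3 i₀ hci₀) (hnev i₀ hci₀)).const_mul _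
    rw [h0, mul_one] at h7
    exact hci₀ (tendsto_nhds_unique h7 tendsto_const_nhds)
  · intro z q
    rw [mul_div_cancel₀ _ (discriminant_ne_zero z)]

end Fermat.Agent.ES
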