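import Fermat.Agent.ES.FrameBasics
import Fermat.Agent.ES.Infinity

/-!
# ES project, task C5c: the dual frame of a good frame
-/

set_option autoImplicit false
set_option linter.unusedSectionVars false

open UpperHalfPlane ModularGroup ModularForm EisensteinSeries Filter Topology
open scoped MatrixGroups Manifold Real Matrix

namespace Fermat.Agent.ES

variable {Q : Type} [Fintype Q] [DecidableEq Q] [MulAction SL(2, ℤ) Q]

/-- determinant of a matrix valued function with holomorphic entries. -/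
theorem du_mdiff_det {M : ℍ → Matrix Q Q ℂ} (hM : ∀ q i, MDiff (fun z => M z q i)) :
    MDiff (fun z => (M z).det) := by
  have h := mdiff_det_frameMat (F := fun i z q => M z q i) (fun i q => hM q i)
  exact h

theorem du_mdiff_adjugate {M : ℍ → Matrix Q Q ℂ} (hM : ∀ q i, MDiff (fun z => M z q i)) (i q : Q) :
    MDiff (fun z => (M z).adjugate i q) := by
  simp only [Matrix.adjugate_apply]
  apply du_mdiff_det
  intro a b
  by_cases ha : a = q
  · subst ha
    simp only [Matrix.updateRow_self]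
    exact mdifferentiable_const
  · simp only [Matrix.updateRow_ne ha]
    exact hM a b

theorem du_mdiff_inv {M : ℍ → Matrix Q Q ℂ} (hM : ∀ q i, MDiff (fun z => M z q i))
    (hdet : ∀ z, (M z).det ≠ 0) (i q : Q) : MDiff (fun z => (M z)⁻¹ i q) := by
  have : (fun z => (M z)⁻¹ i q) = fun z => (M z).adjugate i q / (M z).det := by
    ext z
    rw [Matrix.inv_def, Matrix.smul_apply, Ring.inverse_eq_inv', smul_eq_mul, div_eq_inv_mul]
  rw [this]
  exact (du_mdiff_adjugate hM i q).div (du_mdiff_det hM) hdet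

theorem du_mdiff_frameMat {k : Q → ℤ} {F : Q → ℍ → Q → ℂ} (hF : ∀ i, IsVF Q (k i) (F i)) (q i : Q) :
    MDiff (fun z => frameMat F z q i) := (hF i).holo q

/-- equivariance of the inverse of the frame matrix. -/
theorem du_inv_smul {k : Q → ℤ} {F : Q → ℍ → Q → ℂ} (hF : ∀ i, IsVF Q (k i) (F i))
    (hdet : ∀ z, (frameMat F z).det ≠ 0) (g : SL(2, ℤ)) (z : ℍ) (i q : Q) :
    (frameMat F (g • z))⁻¹ i (g • q) = denom g z ^ (-k i) * (frameMat F z)⁻¹ i q := by
  have hden : denom g z ≠ 0 := denom_ne_zero g z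
  set N : Matrix Q Q ℂ := Matrix.of fun i q' => denom g z ^ (-k i) * (frameMat F z)⁻¹ i (g⁻¹ • q')
    with hN
  have hleft : N * frameMat F (g • z) = 1 := by
    ext i j
    rw [Matrix.mul_apply, ← Equiv.sum_comp (MulAction.toPerm g : Equiv.Perm Q)]
    have h1 : ∀ q : Q, N i ((MulAction.toPerm g : Equiv.Perm Q) q) *
        frameMat F (g • z) ((MulAction.toPerm g : Equiv.Perm Q) q) j =
        denom g z ^ (-k i) * denom g z ^ (k j) * ((frameMat F z)⁻¹ i q * frameMat F z q j) := by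
      intro q
      simp only [hN, Matrix.of_apply, MulAction.toPerm_apply, inv_smul_smul, frameMat]
      rw [(hF j).equiv]
      ring
    simp only [h1]
    rw [← Finset.mul_sum, ← Matrix.mul_apply,
      Matrix.nonsing_inv_mul _ ((Matrix.isUnit_iff_isUnit_det _).mpr (hdet z).isUnit |>.map
        Matrix.detMonoidHom |> fun h => by simpa using h)]
    by_cases hij : i = j
    · subst hij
      rw [Matrix.one_apply_eq, ← zpow_add₀ hden]
      simp
    · rw [Matrix.one_apply_ne hij, mul_zero]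
  rw [Matrix.inv_eq_left_inv hleft]
  simp [hN]

theorem du_Emat_det_ne_zero (z : ℂ) : (Emat Q z).det ≠ 0 := by
  intro h
  have h1 := congrArg Matrix.det (Emat_mul_Emat_neg (Q := Q) z)
  rw [Matrix.det_mul, h, zero_mul, Matrix.det_one] at h1
  exact zero_ne_one h1

theorem du_tendsto_EPhi {k : Q → ℤ} {F : Q → ℍ → Q → ℂ} (hF : ∀ i, IsVF Q (k i) (F i)) :
    Tendsto (fun z : ℍ => Emat Q (z : ℂ) * frameMat F z) atImInfty (𝓝 (leadMat F)) := by
  refine tendsto_pi_nhds.mpr fun q => tendsto_pi_nhds.mpr fun i => ?_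
  have h := (tendsto_pi_nhds.mp (tendsto_Emat_mulVec (hF i))) q
  exact h

theorem du_tendsto_EPhi_inv {k : Q → ℤ} {F : Q → ℍ → Q → ℂ} (hF : ∀ i, IsVF Q (k i) (F i))
    (hl : (leadMat F).det ≠ 0) :
    Tendsto (fun z : ℍ => (Emat Q (z : ℂ) * frameMat F z)⁻¹) atImInfty (𝓝 (leadMat F)⁻¹) := by
  have hc : ContinuousAt Inv.inv (leadMat F) := by
    apply continuousAt_matrix_inv
    rw [Ring.inverse_eq_inv']
    exact continuousAt_inv₀ hl
  exact hc.tendsto.comp (du_tendsto_EPhi hF)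

theorem du_inv_eq (F : Q → ℍ → Q → ℂ) (z : ℍ) :
    (frameMat F z)⁻¹ = (Emat Q (z : ℂ) * frameMat F z)⁻¹ * Emat Q (z : ℂ) := by
  rw [Matrix.mul_inv_rev, Matrix.nonsing_inv_mul_cancel_right]
  exact (du_Emat_det_ne_zero _).isUnit

theorem du_tendsto_entry {M : ℍ → Matrix Q Q ℂ} {L : Matrix Q Q ℂ}
    (h : Tendsto M atImInfty (𝓝 L)) (i q : Q) : Tendsto (fun z => M z i q) atImInfty (𝓝 (L i q)) :=
  (tendsto_pi_nhds.mp ((tendsto_pi_nhds.mp h) i)) q

theorem du_tendsto_dual {k : Q → ℤ} {F : Q → ℍ → Q → ℂ} (h : IsGoodFrame k F) (i q : Q) :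
    Tendsto (fun z : ℍ => ModularForm.discriminant z * (frameMat F z)⁻¹ i q) atImInfty (𝓝 0) := by
  have h1 : (fun z : ℍ => ModularForm.discriminant z * (frameMat F z)⁻¹ i q) =
      fun z : ℍ => ∑ q', (Emat Q (z : ℂ) * frameMat F z)⁻¹ i q' *
        (ModularForm.discriminant z * Emat Q (z : ℂ) q' q) := by
    ext z
    conv_lhs => rw [du_inv_eq, Matrix.mul_apply, Finset.mul_sum]
    refine Finset.sum_congr rfl fun q' _ => ?_
    ring
  rw [h1]
  have h2 : Tendsto (fun z : ℍ => ∑ q', (Emat Q (z : ℂ) * frameMat F z)⁻¹ i q' *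
        (ModularForm.discriminant z * Emat Q (z : ℂ) q' q)) atImInfty
        (𝓝 (∑ q', (leadMat F)⁻¹ i q' * 0)) :=
    tendsto_finsetSum _ fun q' _ =>
      (du_tendsto_entry (du_tendsto_EPhi_inv h.vf h.lead_det_ne) i q').mul
        (tendsto_discriminant_mul_Emat q' q)
  simpa using h2

theorem du_discriminant_smul (g : SL(2, ℤ)) (z : ℍ) :
    ModularForm.discriminant (g • z) = denom g z ^ (12 : ℤ) * ModularForm.discriminant z := by
  have hg : (g : GL (Fin 2) ℝ) ∈ 𝒮ℒ := ⟨g, rfl⟩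
  exact SlashInvariantForm.slash_action_eqn'' CuspForm.discriminant hg z

theorem IsGoodFrame.dual {k : Q → ℤ} {F : Q → ℍ → Q → ℂ} (h : IsGoodFrame k F) :
    ∃ Ψ : Q → ℍ → Q → ℂ, (∀ i, IsCuspVF Q (12 - k i) (Ψ i)) ∧ LinearIndependent ℂ Ψ := by
  refine ⟨fun i z q => ModularForm.discriminant z * (frameMat F z)⁻¹ i q, fun i => ?_, ?_⟩
  · refine ⟨⟨fun q => ?_, fun g z q => ?_, fun q => ?_⟩, fun q => ?_⟩
    · exact CuspForm.discriminant.holo'.mul (du_mdiff_inv (du_mdiff_frameMat h.vf) h.det_ne i q)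
    · show ModularForm.discriminant (g • z) * (frameMat F (g • z))⁻¹ i (g • q) =
        _ * (ModularForm.discriminant z * (frameMat F z)⁻¹ i q)
      rw [du_discriminant_smul, du_inv_smul h.vf h.det_ne, sub_eq_add_neg,
        zpow_add₀ (denom_ne_zero g z)]
      ring
    · exact ZeroAtFilter.boundedAtFilter (du_tendsto_dual h i q)
    · exact du_tendsto_dual h i q
  · rw [Fintype.linearIndependent_iff]
    intro c hc i
    have hu : IsUnit (frameMat F I).det := (h.det_ne I).isUnit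
    have h1 : ∀ q, ∑ j, c j * (frameMat F I)⁻¹ j q = 0 := by
      intro q
      have h2 := congrFun (congrFun hc I) q
      simp only [Finset.sum_apply, Pi.smul_apply, smul_eq_mul, Pi.zero_apply] at h2
      have h3 : ModularForm.discriminant I * ∑ j, c j * (frameMat F I)⁻¹ j q = 0 := by
        rw [← h2, Finset.mul_sum]
        refine Finset.sum_congr rfl fun j _ => ?_
        ring
      exact (mul_eq_zero.mp h3).resolve_left (discriminant_ne_zero I)
    have h4 : c ᵥ* (frameMat F I)⁻¹ = 0 := by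
      ext q
      simpa [Matrix.vecMul, dotProduct] using h1 q
    have h5 : c ᵥ* ((frameMat F I)⁻¹ * frameMat F I) = 0 := by
      rw [← Matrix.vecMul_vecMul, h4, Matrix.zero_vecMul]
    rw [Matrix.nonsing_inv_mul _ hu, Matrix.vecMul_one] at h5
    exact congrFun h5 i

theorem du_isVF_one : IsVF Q 0 (fun _ _ => (1 : ℂ)) := by
  refine ⟨fun q => mdifferentiable_const, fun g z q => by simp, fun q => ?_⟩
  exact Filter.const_boundedAtFilter _ _

/-- the coordinates of the constant vector `1` in a good frame. -/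
theorem du_coord_levelOne {k : Q → ℤ} {F : Q → ℍ → Q → ℂ} (h : IsGoodFrame k F) (i : Q) :
    ∃ f' : ModularForm 𝒮ℒ (-k i), ⇑f' = fun z => ∑ q, (frameMat F z)⁻¹ i q := by
  refine levelOne_of _ ?_ ?_ ?_
  · have : (fun z => ∑ q, (frameMat F z)⁻¹ i q) = ∑ q, fun z => (frameMat F z)⁻¹ i q := by
      ext z
      simp
    rw [this]
    exact .sum fun q _ => du_mdiff_inv (du_mdiff_frameMat h.vf) h.det_ne i q
  · intro g z
    rw [← Equiv.sum_comp (MulAction.toPerm g : Equiv.Perm Q), Finset.mul_sum]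
    refine Finset.sum_congr rfl fun q _ => ?_
    rw [MulAction.toPerm_apply, du_inv_smul h.vf h.det_ne]
  · have h1 : (fun z : ℍ => ∑ q, (frameMat F z)⁻¹ i q) =
        fun z : ℍ => ∑ q', (Emat Q (z : ℂ) * frameMat F z)⁻¹ i q' *
          (Emat Q (z : ℂ) *ᵥ (fun _ => (1 : ℂ))) q' := by
      ext z
      have h2 : ∀ q, (frameMat F z)⁻¹ i q =
          ∑ q', (Emat Q (z : ℂ) * frameMat F z)⁻¹ i q' * Emat Q (z : ℂ) q' q := by
        intro q
        conv_lhs => rw [du_inv_eq, Matrix.mul_apply]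
      simp only [h2]
      rw [Finset.sum_comm]
      refine Finset.sum_congr rfl fun q' _ => ?_
      rw [← Finset.mul_sum]
      simp [Matrix.mulVec, dotProduct]
    rw [h1]
    have h3 : Tendsto (fun z : ℍ => ∑ q', (Emat Q (z : ℂ) * frameMat F z)⁻¹ i q' *
          (Emat Q (z : ℂ) *ᵥ (fun _ => (1 : ℂ))) q') atImInfty
          (𝓝 (∑ q', (leadMat F)⁻¹ i q' * lead (fun (_ : ℍ) (_ : Q) => (1 : ℂ)) q')) :=
      tendsto_finsetSum _ fun q' _ =>
        (du_tendsto_entry (du_tendsto_EPhi_inv h.vf h.lead_det_ne) i q').mul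
          ((tendsto_pi_nhds.mp (tendsto_Emat_mulVec du_isVF_one)) q')
    exact h3.isBigO_one ℝ

theorem IsGoodFrame.exists_weight_zero [Nonempty Q] {k : Q → ℤ} {F : Q → ℍ → Q → ℂ}
    (h : IsGoodFrame k F) (hk : ∀ i, 0 ≤ k i) : ∃ i, k i = 0 := by
  by_contra hcon
  push Not at hcon
  have hpos : ∀ i, 0 < k i := fun i => lt_of_le_of_ne (hk i) (hcon i).symm
  have hzero : ∀ i, ∑ q, (frameMat F I)⁻¹ i q = 0 := by
    intro i
    obtain ⟨f', hf'⟩ := du_coord_levelOne h i
    have h0 := ModularFormClass.levelOne_neg_weight_eq_zero (neg_neg_of_pos (hpos i)) f'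
    rw [hf'] at h0
    exact congrFun h0 I
  have hu : IsUnit (frameMat F I).det := (h.det_ne I).isUnit
  have h1 : (frameMat F I)⁻¹ *ᵥ (fun _ => (1 : ℂ)) = 0 := by
    ext i
    simpa [Matrix.mulVec, dotProduct] using hzero i
  have h2 : (frameMat F I * (frameMat F I)⁻¹) *ᵥ (fun _ => (1 : ℂ)) = 0 := by
    rw [← Matrix.mulVec_mulVec, h1, Matrix.mulVec_zero]
  rw [Matrix.mul_nonsing_inv _ hu, Matrix.one_mulVec] at h2
  obtain ⟨q⟩ := ‹Nonempty Q›
  exact one_ne_zero (congrFun h2 q)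

end Fermat.Agent.ES
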