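import Fermat.Agent.ES.Orbits
import Fermat.Agent.ES.NumIndex

set_option autoImplicit false

open CongruenceSubgroup ModularGroup
open scoped MatrixGroups

namespace Fermat.Agent.ES

/-! ### general helpers -/

theorem cusp_smul_coset (N : ℕ) (h g : SL(2, ℤ)) :
    h • (g : SL(2, ℤ) ⧸ Gamma0 N) = ((h * g : SL(2, ℤ)) : SL(2, ℤ) ⧸ Gamma0 N) := rfl

/-- counting orbits through a complete invariant. -/
theorem cusp_card_orbits_eq_of_map {G Q X : Type*} [Group G] [MulAction G Q] (f : Q → X)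
    (hf : Function.Surjective f) (h : ∀ a b, f a = f b ↔ a ∈ MulAction.orbit G b) :
    Nat.card (MulAction.orbitRel.Quotient G Q) = Nat.card X := by
  refine Nat.card_congr (Equiv.ofBijective
    (Quotient.lift f (fun a b hab => (h a b).2 (MulAction.orbitRel_apply.1 hab))) ⟨?_, ?_⟩)
  · intro x y
    induction x using Quotient.inductionOn
    induction y using Quotient.inductionOn
    intro hxy
    exact Quotient.sound (MulAction.orbitRel_apply.2 ((h _ _).1 hxy))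
  · intro x
    obtain ⟨a, rfl⟩ := hf x
    exact ⟨Quotient.mk _ a, rfl⟩

/-! ### arithmetic core -/

/-- one half of the invariance of `gcd (c, N)`. -/
theorem cusp_gcd_dvd {N : ℕ} {x c a c' : ℤ} (hac : IsCoprime a c)
    (h : (N : ℤ) ∣ x * c - a * c') : Int.gcd c N ∣ Int.gcd c' N := by
  apply Int.dvd_gcd _ (Int.gcd_dvd_right c N)
  have h1 : ((Int.gcd c N : ℕ) : ℤ) ∣ c := Int.gcd_dvd_left c N
  have h2 : ((Int.gcd c N : ℕ) : ℤ) ∣ (N : ℤ) := Int.gcd_dvd_right c N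
  have h3 : ((Int.gcd c N : ℕ) : ℤ) ∣ a * c' := by
    have : a * c' = x * c - (x * c - a * c') := by ring
    rw [this]
    exact dvd_sub (Dvd.dvd.mul_left h1 x) (h2.trans h)
  have hcop : IsCoprime ((Int.gcd c N : ℕ) : ℤ) a := (hac.symm.of_isCoprime_of_dvd_left h1)
  exact hcop.dvd_of_dvd_mul_left h3

theorem cusp_gcd_eq {N : ℕ} {x c a c' : ℤ} (hac : IsCoprime a c) (hxc : IsCoprime x c')
    (h : (N : ℤ) ∣ x * c - a * c') : Int.gcd c N = Int.gcd c' N := by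
  apply Nat.dvd_antisymm (cusp_gcd_dvd hac h)
  apply cusp_gcd_dvd (x := a) (a := x) hxc
  have : a * c' - x * c = -(x * c - a * c') := by ring
  rw [this]
  exact (dvd_neg).2 h

/-- the linear congruence deciding whether two cusps with the same `d` are equivalent. -/
theorem cusp_congruence {d M : ℕ} (hd : d ≠ 0) {a a' γ γ' : ℤ}
    (hγ : IsCoprime γ M) (hγ' : IsCoprime γ' M) :
    (∃ k : ℤ, ((d * M : ℕ) : ℤ) ∣ (a' + k * (d * γ')) * (d * γ) - a * (d * γ')) ↔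
      ((Nat.gcd d M : ℕ) : ℤ) ∣ a' * γ - a * γ' := by
  have hd' : (d : ℤ) ≠ 0 := by exact_mod_cast hd
  have hm1 : ((Nat.gcd d M : ℕ) : ℤ) ∣ d := by exact_mod_cast Nat.gcd_dvd_left d M
  have hm2 : ((Nat.gcd d M : ℕ) : ℤ) ∣ M := by exact_mod_cast Nat.gcd_dvd_right d M
  have hred : ∀ k : ℤ, (((d * M : ℕ) : ℤ) ∣ (a' + k * (d * γ')) * (d * γ) - a * (d * γ')) ↔
      (M : ℤ) ∣ a' * γ - a * γ' + k * (d * γ * γ') := by
    intro k
    have : (a' + k * (d * γ')) * (d * γ) - a * (d * γ')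
        = d * (a' * γ - a * γ' + k * (d * γ * γ')) := by ring
    rw [this, Nat.cast_mul, mul_dvd_mul_iff_left hd']
  constructor
  · rintro ⟨k, hk⟩
    rw [hred] at hk
    have h1 := hm2.trans hk
    have h2 : ((Nat.gcd d M : ℕ) : ℤ) ∣ k * (d * γ * γ') :=
      Dvd.dvd.mul_left (Dvd.dvd.mul_right (Dvd.dvd.mul_right hm1 _) _) _
    exact (dvd_add_left h2).1 h1
  · rintro ⟨t, ht⟩
    obtain ⟨u, v, huv⟩ := (hγ.mul_left hγ')
    have hbez : ((Nat.gcd d M : ℕ) : ℤ) = d * Int.gcdA d M + M * Int.gcdB d M := by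
      have := Int.gcd_eq_gcd_ab (d : ℤ) (M : ℤ)
      rwa [Int.gcd_natCast_natCast] at this
    set x₀ := Int.gcdA d M
    set y₀ := Int.gcdB d M
    refine ⟨-(x₀ * u * t), ?_⟩
    rw [hred]
    refine ⟨t * (d * x₀ * v + y₀), ?_⟩
    rw [ht, hbez]
    linear_combination -(d * x₀ * t) * huv

/-! ### the orbit criterion -/

theorem cusp_T_zpow_mul_00 (k : ℤ) (g : SL(2, ℤ)) : (T ^ k * g) 0 0 = g 0 0 + k * g 1 0 := by
  simp [Matrix.SpecialLinearGroup.coe_mul, coe_T_zpow, Matrix.mul_apply, Fin.sum_univ_two]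

theorem cusp_T_zpow_mul_10 (k : ℤ) (g : SL(2, ℤ)) : (T ^ k * g) 1 0 = g 1 0 := by
  simp

theorem cusp_mem_orbit_zpowers_iff {Q : Type} [MulAction SL(2, ℤ) Q] (g : SL(2, ℤ)) (q q' : Q) :
    q ∈ MulAction.orbit (Subgroup.zpowers g) q' ↔ ∃ k : ℤ, g ^ k • q' = q := by
  rw [MulAction.mem_orbit_iff]
  constructor
  · rintro ⟨⟨x, k, rfl⟩, hx⟩
    exact ⟨k, hx⟩
  · rintro ⟨k, hk⟩
    exact ⟨⟨g ^ k, k, rfl⟩, hk⟩

theorem cusp_mem_orbit_T_iff (N : ℕ) (g g' : SL(2, ℤ)) :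
    (∃ k : ℤ, T ^ k • (g' : SL(2, ℤ) ⧸ Gamma0 N) = g) ↔
      ∃ k : ℤ, (N : ℤ) ∣ (g' 0 0 + k * g' 1 0) * g 1 0 - g 0 0 * g' 1 0 := by
  refine exists_congr fun k => ?_
  rw [cusp_smul_coset, coset_eq_iff, cusp_T_zpow_mul_00, cusp_T_zpow_mul_10]

theorem cusp_SL2_col_isCoprime (g : SL(2, ℤ)) : IsCoprime (g 0 0) (g 1 0) :=
  ⟨g 1 1, -g 0 1, by linear_combination SL2_det_eq g⟩

/-- the modulus attached to a divisor `d` of `N`. -/
def cuspM (N d : ℕ) : ℕ := Nat.gcd d (N / d)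

/-- the second invariant of a cusp. -/
def cuspW (N d : ℕ) (g : SL(2, ℤ)) : ℕ :=
  ZMod.val (((g 0 0 : ℤ) : ZMod (cuspM N d)) * ((g 1 0 / d : ℤ) : ZMod (cuspM N d))⁻¹)

theorem cuspM_pos {N d : ℕ} (hN : N ≠ 0) (hd : d ∣ N) : cuspM N d ≠ 0 := by
  unfold cuspM
  have : d ≠ 0 := fun h => hN (by rw [h] at hd; exact Nat.eq_zero_of_zero_dvd hd)
  exact Nat.gcd_ne_zero_left this

/-- data extracted from `gcd (c, N) = d`. -/
theorem cusp_data {N d : ℕ} (hN : N ≠ 0) {c : ℤ} (h : Int.gcd c N = d) :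
    d ∣ N ∧ d ≠ 0 ∧ c = d * (c / d) ∧ IsCoprime (c / d) ((N / d : ℕ) : ℤ) := by
  have hdN : d ∣ N := by
    have := Int.gcd_dvd_right c N
    rw [h] at this
    exact_mod_cast this
  have hd0 : d ≠ 0 := fun h0 => hN (by rw [h0] at hdN; exact Nat.eq_zero_of_zero_dvd hdN)
  have hdc : (d : ℤ) ∣ c := by
    have := Int.gcd_dvd_left c N
    rwa [h] at this
  refine ⟨hdN, hd0, (Int.mul_ediv_cancel' hdc).symm, ?_⟩
  have := Int.gcd_div_gcd_div_gcd (i := c) (j := N) (by rw [h]; exact Nat.pos_of_ne_zero hd0)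
  rw [h] at this
  rw [Int.isCoprime_iff_gcd_eq_one, Int.natCast_div]
  exact this

theorem cusp_fixed_d {N d : ℕ} (hN : N ≠ 0) (g g' : SL(2, ℤ))
    (h : Int.gcd (g 1 0) N = d) (h' : Int.gcd (g' 1 0) N = d) :
    (∃ k : ℤ, (N : ℤ) ∣ (g' 0 0 + k * g' 1 0) * g 1 0 - g 0 0 * g' 1 0) ↔
      cuspW N d g = cuspW N d g' := by
  obtain ⟨hdN, hd0, hc, hγ⟩ := cusp_data hN h
  obtain ⟨-, -, hc', hγ'⟩ := cusp_data hN h'
  have hNd : N = d * (N / d) := (Nat.mul_div_cancel' hdN).symm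
  have hm : NeZero (cuspM N d) := ⟨cuspM_pos hN hdN⟩
  have key := cusp_congruence (d := d) (M := N / d) hd0 (a := g 0 0) (a' := g' 0 0) hγ hγ'
  rw [← hNd, ← hc, ← hc'] at key
  rw [key]
  unfold cuspW
  rw [(ZMod.val_injective (cuspM N d)).eq_iff]
  have hmM : ((cuspM N d : ℕ) : ℤ) ∣ ((N / d : ℕ) : ℤ) := by
    exact_mod_cast Nat.gcd_dvd_right d (N / d)
  have hu : IsUnit ((g 1 0 / d : ℤ) : ZMod (cuspM N d)) := by
    rw [ZMod.coe_int_isUnit_iff_isCoprime]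
    exact (hγ.symm.of_isCoprime_of_dvd_left hmM)
  have hu' : IsUnit ((g' 1 0 / d : ℤ) : ZMod (cuspM N d)) := by
    rw [ZMod.coe_int_isUnit_iff_isCoprime]
    exact (hγ'.symm.of_isCoprime_of_dvd_left hmM)
  have e1 := ZMod.mul_inv_of_unit _ hu
  have e2 := ZMod.mul_inv_of_unit _ hu'
  show ((cuspM N d : ℕ) : ℤ) ∣ _ ↔ _
  rw [← ZMod.intCast_zmod_eq_zero_iff_dvd]
  push_cast
  set A := ((g 0 0 : ℤ) : ZMod (cuspM N d))
  set A' := ((g' 0 0 : ℤ) : ZMod (cuspM N d))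
  set C := ((g 1 0 / d : ℤ) : ZMod (cuspM N d))
  set C' := ((g' 1 0 / d : ℤ) : ZMod (cuspM N d))
  constructor
  · intro hh
    linear_combination (-(C⁻¹ * C'⁻¹)) * hh - (A * C⁻¹) * e2 + (A' * C'⁻¹) * e1
  · intro hh
    linear_combination (-(C * C')) * hh - (A' * C) * e2 + (A * C') * e1

theorem cusp_mem_orbit_T_iff' {N : ℕ} (hN : N ≠ 0) (g g' : SL(2, ℤ)) :
    (∃ k : ℤ, T ^ k • (g' : SL(2, ℤ) ⧸ Gamma0 N) = g) ↔
      Int.gcd (g 1 0) N = Int.gcd (g' 1 0) N ∧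
        cuspW N (Int.gcd (g 1 0) N) g = cuspW N (Int.gcd (g' 1 0) N) g' := by
  rw [cusp_mem_orbit_T_iff]
  constructor
  · intro hk
    have hd : Int.gcd (g 1 0) N = Int.gcd (g' 1 0) N := by
      obtain ⟨k, hk⟩ := hk
      refine cusp_gcd_eq (cusp_SL2_col_isCoprime g) ?_ hk
      exact (cusp_SL2_col_isCoprime g').add_mul_right_left k
    refine ⟨hd, ?_⟩
    rw [← hd]
    exact (cusp_fixed_d hN g g' rfl hd.symm).1 hk
  · rintro ⟨hd, hw⟩
    rw [← hd] at hw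
    exact (cusp_fixed_d hN g g' rfl hd.symm).2 hw

/-! ### counting -/

theorem cusp_card_orbits_coset_eq_of_map {G K X : Type*} [Group G] (H : Subgroup G) [Group K]
    [MulAction K (G ⧸ H)] (f : G → X) (hf : Function.Surjective f)
    (h : ∀ a b, f a = f b ↔ (a : G ⧸ H) ∈ MulAction.orbit K (b : G ⧸ H)) :
    Nat.card (MulAction.orbitRel.Quotient K (G ⧸ H)) = Nat.card X := by
  have hwd : ∀ a b : G, (QuotientGroup.leftRel H) a b → f a = f b := by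
    intro a b hab
    rw [h]
    have : (a : G ⧸ H) = b := Quotient.sound hab
    rw [this]
    exact MulAction.mem_orbit_self _
  refine cusp_card_orbits_eq_of_map (G := K) (Quotient.lift f hwd) ?_ ?_
  · intro x
    obtain ⟨a, rfl⟩ := hf x
    exact ⟨Quotient.mk _ a, rfl⟩
  · intro x y
    induction x using Quotient.inductionOn
    induction y using Quotient.inductionOn
    exact h _ _

/-- the finite set of invariants of cusps. -/
def cuspSet (N : ℕ) : Finset (Σ _ : ℕ, ℕ) :=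
  N.divisors.sigma (fun d => (Finset.range (cuspM N d)).filter (fun w => (cuspM N d).Coprime w))

theorem card_cuspSet (N : ℕ) : (cuspSet N).card = ModularCurve.cuspCount N := by
  unfold cuspSet ModularCurve.cuspCount
  rw [Finset.card_sigma]
  exact Finset.sum_congr rfl fun d _ => (Nat.totient_eq_card_coprime _).symm

theorem cuspInv_mem {N : ℕ} (hN : N ≠ 0) (g : SL(2, ℤ)) :
    (⟨Int.gcd (g 1 0) N, cuspW N (Int.gcd (g 1 0) N) g⟩ : Σ _ : ℕ, ℕ) ∈ cuspSet N := by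
  obtain ⟨hdN, hd0, hc, hγ⟩ := cusp_data hN (c := g 1 0) rfl
  set d := Int.gcd (g 1 0) N
  have hm : NeZero (cuspM N d) := ⟨cuspM_pos hN hdN⟩
  unfold cuspSet
  rw [Finset.mem_sigma]
  refine ⟨Nat.mem_divisors.2 ⟨hdN, hN⟩, ?_⟩
  rw [Finset.mem_filter, Finset.mem_range]
  refine ⟨ZMod.val_lt _, ?_⟩
  have hmM : ((cuspM N d : ℕ) : ℤ) ∣ ((N / d : ℕ) : ℤ) := by
    exact_mod_cast Nat.gcd_dvd_right d (N / d)
  have hmd : ((cuspM N d : ℕ) : ℤ) ∣ g 1 0 := by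
    have h1 : ((cuspM N d : ℕ) : ℤ) ∣ (d : ℤ) := by exact_mod_cast Nat.gcd_dvd_left d (N / d)
    exact h1.trans (Dvd.intro _ hc.symm)
  have hu : IsUnit ((g 1 0 / d : ℤ) : ZMod (cuspM N d)) := by
    rw [ZMod.coe_int_isUnit_iff_isCoprime]
    exact (hγ.symm.of_isCoprime_of_dvd_left hmM)
  have hA : IsUnit ((g 0 0 : ℤ) : ZMod (cuspM N d)) := by
    rw [ZMod.coe_int_isUnit_iff_isCoprime]
    exact ((cusp_SL2_col_isCoprime g).symm.of_isCoprime_of_dvd_left hmd)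
  have hinv : IsUnit (((g 1 0 / d : ℤ) : ZMod (cuspM N d))⁻¹) :=
    IsUnit.of_mul_eq_one _ (by rw [mul_comm]; exact ZMod.mul_inv_of_unit _ hu)
  obtain ⟨z, hz⟩ := hA.mul hinv
  unfold cuspW
  rw [← hz]
  exact (ZMod.val_coe_unit_coprime z).symm

theorem cuspInv_surj {N : ℕ} (hN : N ≠ 0) (x : Σ _ : ℕ, ℕ) (hx : x ∈ cuspSet N) :
    ∃ g : SL(2, ℤ), (⟨Int.gcd (g 1 0) N, cuspW N (Int.gcd (g 1 0) N) g⟩ : Σ _ : ℕ, ℕ) = x := by
  obtain ⟨d, w⟩ := x
  unfold cuspSet at hx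
  rw [Finset.mem_sigma, Finset.mem_filter, Finset.mem_range, Nat.mem_divisors] at hx
  obtain ⟨⟨hdN, -⟩, hw, hcop⟩ := hx
  simp only at hdN hw hcop
  have hd0 : d ≠ 0 := fun h0 => hN (by rw [h0] at hdN; exact Nat.eq_zero_of_zero_dvd hdN)
  have hdne : NeZero d := ⟨hd0⟩
  have hm : NeZero (cuspM N d) := ⟨cuspM_pos hN hdN⟩
  have hmd : cuspM N d ∣ d := Nat.gcd_dvd_left d (N / d)
  obtain ⟨u, hu⟩ := ZMod.unitsMap_surjective hmd (ZMod.unitOfCoprime w hcop.symm)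
  have hucop : IsCoprime (((u : ZMod d).val : ℕ) : ℤ) (d : ℤ) := by
    rw [Nat.isCoprime_iff_coprime]
    exact ZMod.val_coe_unit_coprime u
  obtain ⟨g, hg0, hg1⟩ := hucop.exists_SL2_col 0
  refine ⟨g, ?_⟩
  have hgcd : Int.gcd (g 1 0) N = d := by
    rw [hg1, Int.gcd_natCast_natCast]
    exact Nat.gcd_eq_left hdN
  rw [hgcd]
  congr 1
  unfold cuspW
  rw [hg0, hg1, Int.ediv_self (by exact_mod_cast hd0)]
  have h1 : (((((u : ZMod d).val : ℕ) : ℤ)) : ZMod (cuspM N d)) = (w : ZMod (cuspM N d)) := by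
    have h2 := congrArg (fun z : (ZMod (cuspM N d))ˣ => (z : ZMod (cuspM N d))) hu
    simp only [ZMod.unitsMap_val, ZMod.coe_unitOfCoprime] at h2
    rw [← h2, Int.cast_natCast, ZMod.natCast_val]
  rw [h1]
  rw [Int.cast_one, ZMod.inv_one, mul_one]
  exact ZMod.val_cast_of_lt hw

theorem fixDim_T_Gamma0 (N : ℕ) [NeZero N] :
    fixDim (SL(2, ℤ) ⧸ Gamma0 N) T = ModularCurve.cuspCount N := by
  have hN : N ≠ 0 := NeZero.ne N
  have hfin : Finite (SL(2, ℤ) ⧸ Gamma0 N) := Subgroup.finite_quotient_of_finiteIndex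
  rw [fixDim_eq_card_orbits, ← card_cuspSet]
  refine Eq.trans (@cusp_card_orbits_coset_eq_of_map _ _ _ _ (Gamma0 N) _ _
    (fun g => (⟨⟨Int.gcd (g 1 0) N, cuspW N (Int.gcd (g 1 0) N) g⟩, cuspInv_mem hN g⟩ :
      cuspSet N)) ?_ ?_) ?_
  rotate_left 2
  · rw [Nat.card_eq_fintype_card, Fintype.card_coe]
  · rintro ⟨x, hx⟩
    obtain ⟨g, hg⟩ := cuspInv_surj hN x hx
    exact ⟨g, Subtype.ext hg⟩
  · intro a b
    rw [cusp_mem_orbit_zpowers_iff, cusp_mem_orbit_T_iff' hN, Subtype.mk.injEq, Sigma.mk.injEq]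
    constructor
    · rintro ⟨h1, h2⟩
      exact ⟨h1, eq_of_heq h2⟩
    · rintro ⟨h1, h2⟩
      exact ⟨h1, heq_of_eq h2⟩

end Fermat.Agent.ES
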