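import Fermat.Agent.ES.Orbits
import Fermat.Agent.ES.NumIndex
import Fermat.Agent.ES.GroupBound
import Fermat.Prelude.Def_ModularCurve_GenusNumerics

set_option autoImplicit false

open UpperHalfPlane ModularGroup CongruenceSubgroup ModularForm EisensteinSeries
open scoped MatrixGroups Manifold

namespace Fermat.Agent.ES

theorem orderOf_S : orderOf (S : SL(2, ℤ)) = 4 := by
  rw [orderOf_eq_iff (by norm_num)]
  refine ⟨by decide, ?_⟩
  intro m hm hm0
  interval_cases m <;> decide

theorem orderOf_ST : orderOf (S * T : SL(2, ℤ)) = 6 := by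
  rw [orderOf_eq_iff (by norm_num)]
  refine ⟨by decide, ?_⟩
  intro m hm hm0
  interval_cases m <;> decide

theorem card_orbits_mul_orderOf (Q : Type) [MulAction SL(2, ℤ) Q] [Finite Q] (g : SL(2, ℤ))
    (hg : IsOfFinOrder g) :
    Nat.card (MulAction.orbitRel.Quotient (Subgroup.zpowers g) Q) * orderOf g =
      ∑ k ∈ Finset.range (orderOf g), Nat.card {q : Q // g ^ k • q = q} := by
  classical
  have : Finite (MulAction.orbitRel.Quotient (Subgroup.zpowers g) Q) := Quotient.finite _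
  have := Fintype.ofFinite (MulAction.orbitRel.Quotient (Subgroup.zpowers g) Q)
  have := Fintype.ofFinite Q
  have : Fintype (Subgroup.zpowers g) := Fintype.ofEquiv _ (finEquivZPowers hg)
  have h := MulAction.sum_card_fixedBy_eq_card_orbits_mul_card_group (Subgroup.zpowers g) Q
  have hcard : Fintype.card (Subgroup.zpowers g) = orderOf g := by
    rw [← Nat.card_eq_fintype_card, Nat.card_zpowers]
  rw [hcard] at h
  rw [Nat.card_eq_fintype_card, ← h, Finset.sum_range]
  have h2 := Equiv.sum_comp (finEquivZPowers hg)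
    (fun a : Subgroup.zpowers g => Fintype.card (MulAction.fixedBy Q a))
  rw [← h2]
  apply Finset.sum_congr rfl
  intro k _
  rw [Nat.card_eq_fintype_card]
  refine Fintype.card_congr (Equiv.subtypeEquivRight fun q => ?_)
  rw [MulAction.mem_fixedBy, finEquivZPowers_apply]
  rfl

theorem card_subtype_of_forall {Q : Type} {p : Q → Prop} (h : ∀ q, p q) :
    Nat.card {q : Q // p q} = Nat.card Q :=
  Nat.card_congr (Equiv.subtypeUnivEquiv h)

theorem card_subtype_congr {Q : Type} {p p' : Q → Prop} (h : ∀ q, p q ↔ p' q) :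
    Nat.card {q : Q // p q} = Nat.card {q : Q // p' q} :=
  Nat.card_congr (Equiv.subtypeEquivRight h)

theorem two_mul_fixDim_S (Q : Type) [MulAction SL(2, ℤ) Q] [Finite Q]
    (hneg : ∀ q : Q, (-1 : SL(2, ℤ)) • q = q) :
    2 * fixDim Q S = Nat.card Q + Nat.card {q : Q // (S : SL(2, ℤ)) • q = q} := by
  have h := card_orbits_mul_orderOf Q S (orderOf_pos_iff.mp (by rw [orderOf_S]; norm_num))
  rw [orderOf_S, ← fixDim_eq_card_orbits] at h
  simp only [Finset.sum_range_succ, Finset.sum_range_zero] at h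
  have e0 : Nat.card {q : Q // (S : SL(2, ℤ)) ^ 0 • q = q} = Nat.card Q :=
    card_subtype_of_forall fun q => by simp
  have e1 : Nat.card {q : Q // (S : SL(2, ℤ)) ^ 1 • q = q} =
      Nat.card {q : Q // (S : SL(2, ℤ)) • q = q} :=
    card_subtype_congr fun q => by simp
  have e2 : Nat.card {q : Q // (S : SL(2, ℤ)) ^ 2 • q = q} = Nat.card Q :=
    card_subtype_of_forall fun q => by
      have : (S : SL(2, ℤ)) ^ 2 = -1 := by decide
      rw [this, hneg]
  have e3 : Nat.card {q : Q // (S : SL(2, ℤ)) ^ 3 • q = q} =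
      Nat.card {q : Q // (S : SL(2, ℤ)) • q = q} :=
    card_subtype_congr fun q => by
      have : (S : SL(2, ℤ)) ^ 3 = -1 * S := by decide
      rw [this, mul_smul, hneg]
  rw [e0, e1, e2, e3] at h
  omega

theorem three_mul_fixDim_ST (Q : Type) [MulAction SL(2, ℤ) Q] [Finite Q]
    (hneg : ∀ q : Q, (-1 : SL(2, ℤ)) • q = q) :
    3 * fixDim Q (S * T) = Nat.card Q + 2 * Nat.card {q : Q // (S * T : SL(2, ℤ)) • q = q} := by
  have h := card_orbits_mul_orderOf Q (S * T) (orderOf_pos_iff.mp (by rw [orderOf_ST]; norm_num))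
  rw [orderOf_ST, ← fixDim_eq_card_orbits] at h
  simp only [Finset.sum_range_succ, Finset.sum_range_zero] at h
  have e0 : Nat.card {q : Q // (S * T : SL(2, ℤ)) ^ 0 • q = q} = Nat.card Q :=
    card_subtype_of_forall fun q => by simp
  have e1 : Nat.card {q : Q // (S * T : SL(2, ℤ)) ^ 1 • q = q} =
      Nat.card {q : Q // (S * T : SL(2, ℤ)) • q = q} :=
    card_subtype_congr fun q => by simp
  have h3 : ∀ q : Q, (S * T : SL(2, ℤ)) • (S * T : SL(2, ℤ)) • (S * T : SL(2, ℤ)) • q = q := by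
    intro q
    have : (S * T : SL(2, ℤ)) * (S * T) * (S * T) = -1 := by decide
    rw [← mul_smul, ← mul_smul, this, hneg]
  have e2 : Nat.card {q : Q // (S * T : SL(2, ℤ)) ^ 2 • q = q} =
      Nat.card {q : Q // (S * T : SL(2, ℤ)) • q = q} :=
    card_subtype_congr fun q => by
      rw [pow_two, mul_smul]
      constructor
      · intro H
        have := h3 q
        rw [H] at this
        exact this
      · intro H
        rw [H, H]
  have e3 : Nat.card {q : Q // (S * T : SL(2, ℤ)) ^ 3 • q = q} = Nat.card Q :=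
    card_subtype_of_forall fun q => by
      have : (S * T : SL(2, ℤ)) ^ 3 = -1 := by decide
      rw [this, hneg]
  have e4 : Nat.card {q : Q // (S * T : SL(2, ℤ)) ^ 4 • q = q} =
      Nat.card {q : Q // (S * T : SL(2, ℤ)) • q = q} :=
    card_subtype_congr fun q => by
      have : (S * T : SL(2, ℤ)) ^ 4 = -1 * (S * T) := by decide
      rw [this, mul_smul, hneg]
  have e5 : Nat.card {q : Q // (S * T : SL(2, ℤ)) ^ 5 • q = q} =
      Nat.card {q : Q // (S * T : SL(2, ℤ)) • q = q} :=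
    card_subtype_congr fun q => by
      have : (S * T : SL(2, ℤ)) ^ 5 = -1 * ((S * T) * (S * T)) := by decide
      rw [this, mul_smul, hneg, mul_smul]
      constructor
      · intro H
        have := h3 q
        rw [H] at this
        exact this
      · intro H
        rw [H, H]
  rw [e0, e1, e2, e3, e4, e5] at h
  omega

/-- the matrix `!![t, -1; 1, 0]`. -/
def ellRep (t : ℤ) : SL(2, ℤ) := ⟨!![t, -1; 1, 0], by simp [Matrix.det_fin_two]⟩

@[simp] theorem ellRep_00 (t : ℤ) : ellRep t 0 0 = t := rfl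
@[simp] theorem ellRep_10 (t : ℤ) : ellRep t 1 0 = 1 := rfl

theorem ell_fixed_iff (N : ℕ) (h : SL(2, ℤ)) (r : ℤ)
    (hh : ∀ g : SL(2, ℤ), (h * g) 0 0 = - g 1 0 ∧ (h * g) 1 0 = g 0 0 + r * g 1 0)
    (g : SL(2, ℤ)) :
    h • (g : SL(2, ℤ) ⧸ Gamma0 N) = g ↔
      ((g 0 0 : ℤ) : ZMod N) ^ 2 + r * (g 0 0 : ℤ) * (g 1 0 : ℤ) + ((g 1 0 : ℤ) : ZMod N) ^ 2 = 0 := by
  have h1 : h • (g : SL(2, ℤ) ⧸ Gamma0 N) = ((h * g : SL(2, ℤ)) : SL(2, ℤ) ⧸ Gamma0 N) := rfl
  rw [h1, coset_eq_iff, (hh g).1, (hh g).2, ← ZMod.intCast_zmod_eq_zero_iff_dvd]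
  push_cast
  constructor
  · intro H
    linear_combination -H
  · intro H
    linear_combination -H

theorem card_ell_fixed (N : ℕ) (h : SL(2, ℤ)) (r : ℤ)
    (hh : ∀ g : SL(2, ℤ), (h * g) 0 0 = - g 1 0 ∧ (h * g) 1 0 = g 0 0 + r * g 1 0) :
    Nat.card {q : SL(2, ℤ) ⧸ Gamma0 N // h • q = q} =
      Nat.card {x : ZMod N // x ^ 2 + r * x + 1 = 0} := by
  symm
  refine Nat.card_congr (Equiv.ofBijective
    (fun x => ⟨((ellRep (x.1.cast : ℤ) : SL(2, ℤ)) : SL(2, ℤ) ⧸ Gamma0 N), ?_⟩) ⟨?_, ?_⟩)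
  · rw [ell_fixed_iff N h r hh]
    simp only [ellRep_00, ellRep_10, ZMod.intCast_zmod_cast, Int.cast_one, mul_one, one_pow]
    exact x.2
  · intro x y hxy
    have h1 := congrArg Subtype.val hxy
    simp only at h1
    rw [coset_eq_iff, ← ZMod.intCast_zmod_eq_zero_iff_dvd] at h1
    simp only [ellRep_00, ellRep_10, mul_one, Int.cast_sub, ZMod.intCast_zmod_cast] at h1
    exact Subtype.ext (sub_eq_zero.mp h1)
  · rintro ⟨q, hq⟩
    induction q using QuotientGroup.induction_on with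
    | H g =>
      rw [ell_fixed_iff N h r hh] at hq
      have hdet : ((g 0 0 : ℤ) : ZMod N) * (g 1 1 : ℤ) - (g 0 1 : ℤ) * (g 1 0 : ℤ) = 1 := by
        exact_mod_cast congrArg (Int.cast : ℤ → ZMod N) (SL2_det_eq g)
      set a : ZMod N := ((g 0 0 : ℤ) : ZMod N) with ha
      set b : ZMod N := ((g 0 1 : ℤ) : ZMod N) with hb
      set c : ZMod N := ((g 1 0 : ℤ) : ZMod N) with hc
      set d : ZMod N := ((g 1 1 : ℤ) : ZMod N) with hd
      obtain ⟨x, hx⟩ : ∃ x : ZMod N, x = -((r * a + c) * d + a * b) := ⟨_, rfl⟩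
      have hxc : x * c = a := by
        rw [hx]
        linear_combination (-d) * hq + a * hdet
      have hcu : c * (x * d - b) = 1 := by
        linear_combination d * hxc + hdet
      have hroot : x ^ 2 + r * x + 1 = 0 := by
        have h2 : c ^ 2 * (x ^ 2 + r * x + 1) = 0 := by
          linear_combination hq + (x * c + a + r * c) * hxc
        have h3 : (x * d - b) ^ 2 * (c ^ 2 * (x ^ 2 + r * x + 1)) = x ^ 2 + r * x + 1 := by
          linear_combination (x ^ 2 + r * x + 1) * (c * (x * d - b) + 1) * hcu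
        rw [← h3, h2, mul_zero]
      refine ⟨⟨x, hroot⟩, Subtype.ext ?_⟩
      simp only
      rw [coset_eq_iff, ← ZMod.intCast_zmod_eq_zero_iff_dvd]
      simp only [ellRep_00, ellRep_10, mul_one, Int.cast_sub, Int.cast_mul, ZMod.intCast_zmod_cast]
      rw [← ha, ← hc]
      linear_combination hxc

theorem neg_one_mem_Gamma0_aux (N : ℕ) : (-1 : SL(2, ℤ)) ∈ Gamma0 N := by
  rw [mem_Gamma0_iff_dvd]
  simp

theorem fixDim_S_Gamma0 (N : ℕ) [NeZero N] :
    2 * fixDim (SL(2, ℤ) ⧸ Gamma0 N) S = ModularCurve.dedekindPsi N + ModularCurve.nuTwo N := by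
  have : Finite (SL(2, ℤ) ⧸ Gamma0 N) := Subgroup.finite_quotient_of_finiteIndex
  rw [two_mul_fixDim_S _ (GroupBound.neg_one_smul_quot _ (neg_one_mem_Gamma0_aux N)), ← index_Gamma0,
    Subgroup.index_eq_card, card_ell_fixed N S 0 (fun g => ?_), ModularCurve.nuTwo]
  · congr 1
    exact card_subtype_congr fun x => by simp
  · constructor <;>
      simp [Matrix.SpecialLinearGroup.coe_mul, Matrix.mul_apply, Fin.sum_univ_two, coe_S]

theorem fixDim_ST_Gamma0 (N : ℕ) [NeZero N] :
    3 * fixDim (SL(2, ℤ) ⧸ Gamma0 N) (S * T) =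
      ModularCurve.dedekindPsi N + 2 * ModularCurve.nuThree N := by
  have : Finite (SL(2, ℤ) ⧸ Gamma0 N) := Subgroup.finite_quotient_of_finiteIndex
  rw [three_mul_fixDim_ST _ (GroupBound.neg_one_smul_quot _ (neg_one_mem_Gamma0_aux N)), ← index_Gamma0,
    Subgroup.index_eq_card, card_ell_fixed N (S * T) 1 (fun g => ?_), ModularCurve.nuThree]
  · congr 2
    exact card_subtype_congr fun x => by simp
  · constructor <;>
      simp [Matrix.SpecialLinearGroup.coe_mul, Matrix.mul_apply, Fin.sum_univ_two, coe_S, coe_T]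

end Fermat.Agent.ES
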