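import Fermat.Agent.ES.Final
import Fermat.Agent.ES.NumIndex
import Fermat.Agent.ES.NumElliptic
import Fermat.Agent.ES.NumCusps
import Fermat.Prelude.Def_ModularCurve_GenusNumerics

set_option autoImplicit false

open UpperHalfPlane ModularGroup CongruenceSubgroup ModularForm EisensteinSeries Filter Topology
open scoped MatrixGroups Manifold Real Matrix

namespace Fermat.Agent.ES

open ModularCurve ModularCurve.Period

theorem dimension_formula (N : ℕ) [NeZero N] :
    (Module.finrank ℂ (CuspForm (Gamma0 N) 2) : ℚ) = genusFormula N := by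
  obtain ⟨-, -, -, h⟩ := dims N
  have h1 := index_Gamma0 N
  have h2 := fixDim_S_Gamma0 N
  have h3 := fixDim_ST_Gamma0 N
  have h4 := fixDim_T_Gamma0 N
  rw [h1, h4] at h
  unfold genusFormula
  have h' : (2 * Module.finrank ℂ (CuspForm (Gamma0 N) 2) + fixDim (SL(2, ℤ) ⧸ Gamma0 N) S
      + fixDim (SL(2, ℤ) ⧸ Gamma0 N) (S * T) + cuspCount N : ℚ) = dedekindPsi N + 2 := by
    exact_mod_cast h
  have h2' : (2 * fixDim (SL(2, ℤ) ⧸ Gamma0 N) S : ℚ) = dedekindPsi N + nuTwo N := by
    exact_mod_cast h2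
  have h3' : (3 * fixDim (SL(2, ℤ) ⧸ Gamma0 N) (S * T) : ℚ) = dedekindPsi N + 2 * nuThree N := by
    exact_mod_cast h3
  linarith

end Fermat.Agent.ES
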