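import Fermat.Agent.ES.Defs

set_option autoImplicit false

open UpperHalfPlane ModularGroup CongruenceSubgroup ModularForm EisensteinSeries Filter Topology
open scoped MatrixGroups Manifold Real Matrix

namespace Fermat.Agent.ES

variable {Q : Type} [Fintype Q] [DecidableEq Q] [MulAction SL(2, ℤ) Q]

/-- matrix of values of a family of vector valued forms: column `i` is `F i z`. -/
def frameMat (F : Q → ℍ → Q → ℂ) (z : ℍ) : Matrix Q Q ℂ := Matrix.of fun q i => F i z q

/-- a frame: `card Q` vector valued forms (indexed by `Q` itself) of weights `k i` whose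
determinant does not vanish identically. -/
structure IsFrame (k : Q → ℤ) (F : Q → ℍ → Q → ℂ) : Prop where
  vf : ∀ i, IsVF Q (k i) (F i)
  det_ne : ∃ z, (frameMat F z).det ≠ 0

/-- a frame of minimal total weight. -/
def IsMinFrame (k : Q → ℤ) (F : Q → ℍ → Q → ℂ) : Prop :=
  IsFrame k F ∧ ∀ (k' : Q → ℤ) (F' : Q → ℍ → Q → ℂ), IsFrame k' F' → ∑ i, k i ≤ ∑ i, k' i

variable (Q) in
/-- order of the permutation of `Q` induced by `T`. -/
noncomputable def perT : ℕ := orderOf (MulAction.toPermHom SL(2, ℤ) Q T)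

variable (Q) in
/-- permutation matrix of `T`: `(tauMat Q *ᵥ v) q = v (T • q)`. -/
def tauMat : Matrix Q Q ℂ := Matrix.of fun q q' => if q' = T • q then 1 else 0

variable (Q) in
/-- projector onto the eigenspace `tauMat = exp (-2 π i m / h)`, `h = perT Q`. -/
noncomputable def prMat (m : ℕ) : Matrix Q Q ℂ :=
  ((perT Q : ℂ)⁻¹) • ∑ j ∈ Finset.range (perT Q),
    Complex.exp (2 * π * Complex.I * m * j / perT Q) • (tauMat Q) ^ j

variable (Q) in
/-- `E(z) = ∑_{m<h} exp (-2 π i m z / h) pr_m`. -/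
noncomputable def Emat (z : ℂ) : Matrix Q Q ℂ :=
  ∑ m ∈ Finset.range (perT Q), Complex.exp (-2 * π * Complex.I * m * z / perT Q) • prMat Q m

/-- leading vector at `i∞` of a vector valued form. -/
noncomputable def lead (F : ℍ → Q → ℂ) : Q → ℂ :=
  limUnder atImInfty (fun z : ℍ => Emat Q (z : ℂ) *ᵥ F z)

/-- matrix of leading vectors. -/
noncomputable def leadMat (F : Q → ℍ → Q → ℂ) : Matrix Q Q ℂ := Matrix.of fun q i => lead (F i) q

/-- a frame which is invertible at every point of `ℍ` and at `i∞`. -/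
structure IsGoodFrame (k : Q → ℤ) (F : Q → ℍ → Q → ℂ) : Prop where
  vf : ∀ i, IsVF Q (k i) (F i)
  det_ne : ∀ z, (frameMat F z).det ≠ 0
  lead_det_ne : (leadMat F).det ≠ 0

end Fermat.Agent.ES
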