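import Fermat.Agent.ES.FrameBasics
import Fermat.Agent.ES.Infinity

set_option autoImplicit false
set_option linter.unusedSectionVars false

open UpperHalfPlane ModularGroup ModularForm EisensteinSeries Filter Topology
open scoped MatrixGroups Manifold Real Matrix

/-!
# ES project, task C5a: the sum of the weights of a good frame
-/

namespace Fermat.Agent.ES

variable {Q : Type} [Fintype Q] [DecidableEq Q] [MulAction SL(2, ℤ) Q]

namespace WeightSum

/-- `Emat z * frameMat F z → leadMat F`. -/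
theorem tendsto_Emat_mul_frameMat {k : Q → ℤ} {F : Q → ℍ → Q → ℂ} (hF : ∀ i, IsVF Q (k i) (F i)) :
    Tendsto (fun z : ℍ => Emat Q (z : ℂ) * frameMat F z) atImInfty (𝓝 (leadMat F)) := by
  refine tendsto_pi_nhds.2 fun q => tendsto_pi_nhds.2 fun i => ?_
  have h := tendsto_Emat_mulVec (hF i)
  rw [tendsto_pi_nhds] at h
  exact h q

theorem tendsto_det_Emat_mul_frameMat {k : Q → ℤ} {F : Q → ℍ → Q → ℂ}
    (hF : ∀ i, IsVF Q (k i) (F i)) :
    Tendsto (fun z : ℍ => (Emat Q (z : ℂ) * frameMat F z).det) atImInfty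
      (𝓝 (leadMat F).det) :=
  ((continuous_id.matrix_det).tendsto (leadMat F)).comp (tendsto_Emat_mul_frameMat hF)

theorem det_frameMat_sq_eq (F : Q → ℍ → Q → ℂ) (z : ℍ) :
    (frameMat F z).det ^ 2 =
      Complex.exp (2 * π * Complex.I * z) ^ (Fintype.card Q - fixDim Q T) *
        (Emat Q (z : ℂ) * frameMat F z).det ^ 2 := by
  have h1 : Emat Q (-(z : ℂ)) * Emat Q (z : ℂ) = 1 := by
    simpa using Emat_mul_Emat_neg (Q := Q) (-(z : ℂ))
  have h2 : frameMat F z = Emat Q (-(z : ℂ)) * (Emat Q (z : ℂ) * frameMat F z) := by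
    rw [← mul_assoc, h1, one_mul]
  conv_lhs => rw [h2, Matrix.det_mul, mul_pow, det_Emat_neg_sq]

/-- `D² / Δ^m` tends to `det (leadMat F)²`. -/
theorem tendsto_det_sq_div_discriminant {k : Q → ℤ} {F : Q → ℍ → Q → ℂ}
    (hF : ∀ i, IsVF Q (k i) (F i)) :
    Tendsto (fun z : ℍ => (frameMat F z).det ^ 2 /
      ModularForm.discriminant z ^ (Fintype.card Q - fixDim Q T)) atImInfty
      (𝓝 ((leadMat F).det ^ 2)) := by
  have h1 := ((tendsto_det_Emat_mul_frameMat hF).pow 2).div
    (tendsto_atImInfty_tprod_one_sub_eta_q_pow.pow (Fintype.card Q - fixDim Q T))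
    (by simp)
  simp only [one_pow, div_one] at h1
  refine h1.congr fun z => ?_
  rw [det_frameMat_sq_eq, discriminant_eq_q_prod, mul_pow]
  have h2 : Function.Periodic.qParam 1 (z : ℂ) = Complex.exp (2 * π * Complex.I * z) := by
    simp [Function.Periodic.qParam]
  rw [h2, mul_div_mul_left _ _ (pow_ne_zero _ (Complex.exp_ne_zero _))]
  rfl

theorem discriminant_smul_eq (g : SL(2, ℤ)) (z : ℍ) :
    ModularForm.discriminant (g • z) = denom g z ^ (12 : ℤ) * ModularForm.discriminant z := by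
  have hg : (g : GL (Fin 2) ℝ) ∈ 𝒮ℒ := ⟨g, rfl⟩
  exact SlashInvariantForm.slash_action_eqn'' CuspForm.discriminant hg z

theorem isBoundedAtImInfty_of_tendsto {f : ℍ → ℂ} {c : ℂ} (h : Tendsto f atImInfty (𝓝 c)) :
    IsBoundedAtImInfty f := by
  rw [IsBoundedAtImInfty, BoundedAtFilter]
  exact h.isBigO_one ℝ

end WeightSum

open WeightSum in
theorem IsGoodFrame.sum_weight {k : Q → ℤ} {F : Q → ℍ → Q → ℂ} (h : IsGoodFrame k F) :
    ∑ i, k i = 6 * ((Fintype.card Q : ℤ) - fixDim Q T) := by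
  set m : ℕ := Fintype.card Q - fixDim Q T with hm
  have hmZ : (m : ℤ) = (Fintype.card Q : ℤ) - fixDim Q T := by
    rw [hm, Nat.cast_sub fixDim_T_le]
  rw [← hmZ]
  set K : ℤ := ∑ i, k i with hK
  set f : ℍ → ℂ := fun z => (frameMat F z).det ^ 2 / ModularForm.discriminant z ^ m with hf
  have hfne : ∀ z, f z ≠ 0 := fun z =>
    div_ne_zero (pow_ne_zero _ (h.det_ne z)) (pow_ne_zero _ (discriminant_ne_zero z))
  have hD : MDiff (fun z => (frameMat F z).det) := mdiff_det_frameMat fun i q => (h.vf i).holo q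
  have hΔ : MDiff (fun z => ModularForm.discriminant z) := CuspForm.discriminant.holo'
  have hfhol : MDiff f := (hD.pow 2).div (hΔ.pow m) fun z => pow_ne_zero _ (discriminant_ne_zero z)
  have hfinvhol : MDiff (fun z => (f z)⁻¹) := by
    have : (fun z => (f z)⁻¹) = fun z => (1 : ℂ) / f z := by ext z; simp
    rw [this]
    exact mdifferentiable_const.div hfhol hfne
  have hlim := tendsto_det_sq_div_discriminant h.vf
  have hc : (leadMat F).det ^ 2 ≠ 0 := pow_ne_zero _ h.lead_det_ne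
  have hequiv : ∀ (g : SL(2, ℤ)) (z : ℍ), f (g • z) = denom g z ^ (2 * K - 12 * m) * f z := by
    intro g z
    have hden : denom g z ≠ 0 := denom_ne_zero g z
    have h4 : (((Equiv.Perm.sign (MulAction.toPerm g : Equiv.Perm Q) : ℤ) : ℂ)) ^ 2 = 1 := by
      rcases Int.units_eq_one_or (Equiv.Perm.sign (MulAction.toPerm g : Equiv.Perm Q)) with h | h <;>
        simp [h]
    simp only [hf]
    rw [det_frameMat_smul h.vf, discriminant_smul_eq, mul_pow, mul_pow, h4, one_mul, mul_pow,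
      zpow_sub₀ hden, ← hK, two_mul, zpow_add₀ hden, zpow_mul, zpow_natCast]
    have h1 := discriminant_ne_zero z
    field_simp
  have hequiv' : ∀ (g : SL(2, ℤ)) (z : ℍ),
      (f (g • z))⁻¹ = denom g z ^ (-(2 * K - 12 * m)) * (f z)⁻¹ := by
    intro g z
    rw [hequiv, mul_inv, zpow_neg]
  obtain ⟨f₁, hf₁⟩ := levelOne_of f hfhol hequiv (isBoundedAtImInfty_of_tendsto hlim)
  obtain ⟨f₂, hf₂⟩ := levelOne_of (fun z => (f z)⁻¹) hfinvhol hequiv'
    (isBoundedAtImInfty_of_tendsto (hlim.inv₀ hc))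
  have h1 : ¬ (2 * K - 12 * m < 0) := fun hlt => by
    have := ModularFormClass.levelOne_neg_weight_eq_zero hlt f₁
    exact hfne I (by rw [← hf₁, this]; rfl)
  have h2 : ¬ (-(2 * K - 12 * m) < 0) := fun hlt => by
    have := ModularFormClass.levelOne_neg_weight_eq_zero hlt f₂
    exact inv_ne_zero (hfne I) (by
      have h3 := congrFun hf₂ I
      rw [this] at h3
      exact h3.symm)
  omega

end Fermat.Agent.ES
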