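import Fermat.Agent.ES.FrameBasics
import Fermat.Agent.ES.ClaimA
import Fermat.Agent.ES.ClaimB
import Fermat.Agent.ES.WeightSum
import Fermat.Agent.ES.EllipticCount
import Fermat.Agent.ES.Dual
import Fermat.Agent.ES.Infinity

set_option autoImplicit false

open UpperHalfPlane ModularGroup CongruenceSubgroup ModularForm EisensteinSeries Filter Topology
open scoped MatrixGroups Manifold Real Matrix

namespace Fermat.Agent.ES

variable {Q : Type} [Fintype Q] [DecidableEq Q] [MulAction SL(2, ℤ) Q]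

/-- pointwise identity behind the final count. -/
theorem weight_identity (k : ℤ) (h0 : 0 ≤ k) (h12 : k < 12) (hev : Even k) :
    k = 6 * (if (4 : ℤ) ∣ k then 1 else 0) + 6 * (if (6 : ℤ) ∣ k then 1 else 0)
      + 2 * ((if k % 6 = 2 then 1 else 0) - (if k % 6 = 4 then 1 else 0))
      - 12 * (if k = 0 then 1 else 0) + 12 * (if k = 10 then 1 else 0) := by
  obtain ⟨m, rfl⟩ := hev
  have h1 : 0 ≤ m := by omega
  have h2 : m < 6 := by omega
  interval_cases m <;> norm_num

theorem count_final (k : Q → ℤ) (h0 : ∀ i, 0 ≤ k i) (h12 : ∀ i, k i < 12) (hev : ∀ i, Even (k i))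
    (s u t : ℕ) (ht : t ≤ Fintype.card Q)
    (hsum : ∑ i, k i = 6 * ((Fintype.card Q : ℤ) - t))
    (h4 : (Finset.univ.filter fun i => (4 : ℤ) ∣ k i).card = s)
    (h6 : (Finset.univ.filter fun i => (6 : ℤ) ∣ k i).card = u)
    (h24 : (Finset.univ.filter fun i => k i % 6 = 2).card
      = (Finset.univ.filter fun i => k i % 6 = 4).card)
    (hz : ∃ i, k i = 0) :
    Fintype.card Q + 2 ≤ 2 * (Finset.univ.filter fun i => k i = 10).card + s + u + t := by
  have key : ∑ i, k i = 6 * (s : ℤ) + 6 * (u : ℤ)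
      - 12 * ((Finset.univ.filter fun i => k i = 0).card : ℤ)
      + 12 * ((Finset.univ.filter fun i => k i = 10).card : ℤ) := by
    have h := Finset.sum_congr (s₁ := (Finset.univ : Finset Q)) rfl
      (fun i _ => weight_identity (k i) (h0 i) (h12 i) (hev i))
    rw [h]
    simp only [Finset.sum_add_distrib, Finset.sum_sub_distrib, ← Finset.mul_sum,
      Finset.sum_boole]
    rw [h4, h6, h24]
    ring
  have hz' : 1 ≤ (Finset.univ.filter fun i => k i = 0).card := by
    obtain ⟨i, hi⟩ := hz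
    exact Finset.card_pos.mpr ⟨i, by simp [hi]⟩
  rw [hsum] at key
  zify
  omega

/-- **Main abstract theorem**: existence of enough weight two cusp forms. -/
theorem exists_cuspVF [MulAction.IsPretransitive SL(2, ℤ) Q] [Nonempty Q]
    (hneg : ∀ q : Q, (-1 : SL(2, ℤ)) • q = q)
    (hframe : ∃ (k : Q → ℤ) (F : Q → ℍ → Q → ℂ), IsFrame k F) :
    ∃ (n : ℕ) (Ψ : Fin n → ℍ → Q → ℂ), (∀ j, IsCuspVF Q 2 (Ψ j)) ∧ LinearIndependent ℂ Ψ ∧
      Fintype.card Q + 2 ≤ 2 * n + fixDim Q S + fixDim Q (S * T) + fixDim Q T := by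
  obtain ⟨k, F, hmin⟩ := exists_isMinFrame hframe
  have hgood : IsGoodFrame k F :=
    ⟨hmin.1.vf, hmin.det_ne_zero hneg, hmin.leadMat_det_ne_zero hneg⟩
  have h0 : ∀ i, 0 ≤ k i := fun i => (hmin.1.vf i).weight_nonneg (hmin.1.ne_zero i)
  have hev : ∀ i, Even (k i) := fun i => (hmin.1.vf i).weight_even hneg (hmin.1.ne_zero i)
  obtain ⟨Ψ, hΨ, hlin⟩ := hgood.dual
  have h12 : ∀ i, k i < 12 := fun i => by
    have := (hΨ i).weight_pos (hlin.ne_zero i)
    omega
  have hcount := count_final k h0 h12 hev (fixDim Q S) (fixDim Q (S * T)) (fixDim Q T)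
    fixDim_T_le hgood.sum_weight (hgood.card_four_dvd hev) (hgood.card_six_dvd hev)
    (hgood.card_mod_six hev) (hgood.exists_weight_zero h0)
  let s10 : Finset Q := Finset.univ.filter fun i => k i = 10
  let e : Fin s10.card ≃ s10 := s10.equivFin.symm
  refine ⟨s10.card, fun j => Ψ (e j), fun j => ?_, ?_, hcount⟩
  · have hj : k (e j) = 10 := (Finset.mem_filter.mp (e j).2).2
    have := hΨ (e j)
    rw [hj] at this
    simpa using this
  · exact hlin.comp (fun j => ((e j : s10) : Q)) (Subtype.val_injective.comp e.injective)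

end Fermat.Agent.ES
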